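import Mathlib.Analysis.SpecialFunctions.Exp
import Mathlib.NumberTheory.ModularForms.Bounds
import Mathlib.NumberTheory.ModularForms.QExpansion
import Fermat.Prelude.Def_CuspForm_HeckeAlgebra
import Fermat.Prelude.Def_ModularForm_HeckeOperatorForms
import Fermat.Prelude.Thm_CongruenceSubgroup_one_mem_strictPeriods_Gamma0

/-!
# A bound for the Hecke eigenvalues

Both roots of `X² - aX + ℓ`, for an eigenvalue `a` of `T_ℓ` on weight two forms of level `N`, have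
absolute value strictly between `1` and `ℓ`, by boundedness of `|f| Im τ` for the stabilised forms;
in particular `a ≠ 1 + ℓ`.
-/

noncomputable section

open UpperHalfPlane hiding I
open CongruenceSubgroup Filter Topology Matrix.SpecialLinearGroup
open scoped MatrixGroups ModularForm Manifold Pointwise

namespace Fermat.Agent.Mazur

/-- A continuous invariant function vanishing at every cusp attains its supremum. -/
theorem exists_isMax_of_invariant (Γ : Subgroup SL(2, ℤ)) [Γ.FiniteIndex] {h : ℍ → ℝ}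
    (hc : Continuous h) (hinv : ∀ γ ∈ Γ, ∀ τ, h (γ • τ) = h τ)
    (hcusp : ∀ g : SL(2, ℤ), Tendsto (fun τ => h (g • τ)) atImInfty (𝓝 0))
    {τ₁ : ℍ} (hpos : 0 < h τ₁) : ∃ τ₀, 0 < h τ₀ ∧ ∀ τ, h τ ≤ h τ₀ := by
  have : Fintype (SL(2, ℤ) ⧸ Γ) := Subgroup.fintypeQuotientOfFiniteIndex
  have hev : ∀ᶠ τ in atImInfty, ∀ q : SL(2, ℤ) ⧸ Γ, h ((Quotient.out q)⁻¹ • τ) < h τ₁ :=
    eventually_all.mpr fun q => (hcusp _).eventually_lt_const hpos
  obtain ⟨A, hA⟩ := (atImInfty_mem _).mp hev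
  set K : Set ℍ := insert τ₁ (⋃ q : SL(2, ℤ) ⧸ Γ,
    (fun τ => (Quotient.out q)⁻¹ • τ) '' ModularGroup.truncatedFundamentalDomain A) with hK
  have hKc : IsCompact K := (isCompact_iUnion fun q =>
    (ModularGroup.isCompact_truncatedFundamentalDomain A).image
      (by simp only [ModularGroup.sl_moeb]; fun_prop)).insert τ₁
  obtain ⟨τ₀, hτ₀, hmax⟩ := hKc.exists_isMaxOn ⟨τ₁, Set.mem_insert _ _⟩ hc.continuousOn
  have h1 : h τ₁ ≤ h τ₀ := hmax (Set.mem_insert _ _)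
  refine ⟨τ₀, hpos.trans_le h1, fun τ => ?_⟩
  obtain ⟨g, hg⟩ := ModularGroup.exists_smul_mem_fd τ
  set q : SL(2, ℤ) ⧸ Γ := (g : SL(2, ℤ) ⧸ Γ) with hq
  have hmem : (Quotient.out q)⁻¹ * g ∈ Γ := QuotientGroup.eq.mp (QuotientGroup.out_eq' q)
  have e : h τ = h ((Quotient.out q)⁻¹ • g • τ) := by
    rw [← mul_smul, hinv _ hmem]
  rw [e]
  by_cases hy : A ≤ (g • τ).im
  · exact (hA _ hy q).le.trans h1
  · exact hmax (Set.mem_insert_of_mem _ (Set.mem_iUnion.mpr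
      ⟨q, ⟨g • τ, ⟨hg, (not_le.mp hy).le⟩, rfl⟩⟩))

section Stabilised

variable {N : ℕ} [NeZero N] {ℓ : ℕ} [NeZero ℓ]

/-- `f (τ) - u f (ℓ τ)`. -/
def stabFun (ℓ : ℕ) (f : ℍ → ℂ) (u : ℂ) : ℍ → ℂ :=
  f - (u / (ℓ : ℂ)) • (f ∣[(2 : ℤ)] ModularForm.heckeDiagMatrix ℓ)

theorem stabFun_apply (f : ℍ → ℂ) (u : ℂ) (τ : ℍ) :
    stabFun ℓ f u τ = f τ - u * f (ModularForm.heckeDiagMatrix ℓ • τ) := by
  rw [stabFun, Pi.sub_apply, Pi.smul_apply,
    ModularForm.slash_heckeDiagMatrix_apply _ (NeZero.ne ℓ), smul_eq_mul]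
  have : (ℓ : ℂ) ≠ 0 := Nat.cast_ne_zero.mpr (NeZero.ne ℓ)
  rw [show (2 : ℤ) - 1 = 1 from rfl, zpow_one]
  field_simp

omit [NeZero ℓ] in
theorem sl_val (γ : SL(2, ℤ)) :
    (γ : GL (Fin 2) ℝ).val = γ.1.map (fun x : ℤ => (x : ℝ)) := by
  ext i j
  rfl

omit [NeZero N] in
theorem diag_slash_gamma0 (f : CuspForm (Gamma0 N) 2) {γ : SL(2, ℤ)} (hγ : γ ∈ Gamma0 (N * ℓ)) :
    ((⇑f : ℍ → ℂ) ∣[(2 : ℤ)] ModularForm.heckeDiagMatrix ℓ) ∣[(2 : ℤ)] γ =
      (⇑f : ℍ → ℂ) ∣[(2 : ℤ)] ModularForm.heckeDiagMatrix ℓ := by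
  obtain ⟨c, hc⟩ : ((N * ℓ : ℕ) : ℤ) ∣ γ 1 0 := by
    rw [← ZMod.intCast_zmod_eq_zero_iff_dvd]; exact Gamma0_mem.mp hγ
  have hdet := γ.2
  rw [Matrix.det_fin_two, hc] at hdet
  let γ' : SL(2, ℤ) := ⟨!![γ 0 0, (ℓ : ℤ) * γ 0 1; (N : ℤ) * c, γ 1 1], by
    rw [Matrix.det_fin_two_of]; push_cast at hdet; linear_combination hdet⟩
  have hγ' : γ' ∈ Gamma0 N := by
    rw [Gamma0_mem]
    simp [γ']
  have e : ModularForm.heckeDiagMatrix ℓ * (γ : GL (Fin 2) ℝ) =
      (γ' : GL (Fin 2) ℝ) * ModularForm.heckeDiagMatrix ℓ := by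
    apply Units.ext
    rw [Units.val_mul, Units.val_mul, ModularForm.val_heckeDiagMatrix (NeZero.ne ℓ), sl_val, sl_val]
    ext i j
    fin_cases i <;> fin_cases j <;> simp [Matrix.mul_apply, Fin.sum_univ_two, γ', hc] <;> ring
  rw [ModularForm.SL_slash, ← SlashAction.slash_mul, e, SlashAction.slash_mul]
  congr 1
  exact SlashInvariantFormClass.slash_action_eq f _ ⟨γ', hγ', rfl⟩

/-- The stabilised form, of level `N ℓ`. -/
def stabForm (f : CuspForm (Gamma0 N) 2) (u : ℂ) : CuspForm (Gamma0 (N * ℓ)) 2 where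
  toFun := stabFun ℓ f u
  slash_action_eq' := by
    rintro _ ⟨γ, hγ, rfl⟩
    show stabFun ℓ f u ∣[(2 : ℤ)] γ = stabFun ℓ f u
    have h1 : (⇑f : ℍ → ℂ) ∣[(2 : ℤ)] γ = ⇑f := by
      refine SlashInvariantFormClass.slash_action_eq f _ ⟨γ, ?_, rfl⟩
      have hd : ((N * ℓ : ℕ) : ℤ) ∣ γ 1 0 :=
        (ZMod.intCast_zmod_eq_zero_iff_dvd _ _).mp (Gamma0_mem.mp hγ)
      exact Gamma0_mem.mpr ((ZMod.intCast_zmod_eq_zero_iff_dvd _ _).mpr
        ((Int.natCast_dvd_natCast.mpr (dvd_mul_right N ℓ)).trans hd))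
    rw [stabFun, sub_eq_add_neg, SlashAction.add_slash, h1, SlashAction.neg_slash,
      ModularForm.SL_smul_slash, diag_slash_gamma0 f hγ]
  holo' := ((CuspFormClass.holo f).sub
    (((CuspFormClass.holo f).slash 2 (ModularForm.heckeDiagMatrix ℓ)).const_smul _) : _)
  zero_at_cusps' := fun {c} hc => by
    have hc' : IsCusp c (Gamma0 N : Subgroup (GL (Fin 2) ℝ)) := by
      rw [Subgroup.IsArithmetic.isCusp_iff_isCusp_SL2Z] at hc ⊢; exact hc
    let g : GL (Fin 2) ℚ := Matrix.GeneralLinearGroup.mkOfDetNeZero !![(ℓ : ℚ), 0; 0, 1]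
      (by simp [NeZero.ne ℓ])
    have hg : ModularForm.heckeDiagMatrix ℓ =
        Matrix.GeneralLinearGroup.map (Rat.castHom ℝ) g := by
      apply Units.ext
      rw [ModularForm.val_heckeDiagMatrix (NeZero.ne ℓ)]
      ext i j
      fin_cases i <;> fin_cases j <;> simp [g, Matrix.GeneralLinearGroup.mkOfDetNeZero]
    have h2 : c.IsZeroAt ((⇑f : ℍ → ℂ) ∣[(2 : ℤ)] ModularForm.heckeDiagMatrix ℓ) 2 := by
      refine OnePoint.IsZeroAt.smul_iff.mp (CuspFormClass.zero_at_cusps f ?_)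
      rw [hg]
      rw [Subgroup.IsArithmetic.isCusp_iff_isCusp_SL2Z, isCusp_SL2Z_iff] at hc' ⊢
      obtain ⟨c, rfl⟩ := hc'
      exact ⟨g • c, by rw [← Rat.coe_castHom, OnePoint.map_smul]⟩
    intro δ hδ
    have a1 := CuspFormClass.zero_at_cusps f hc' δ hδ
    have a2 := h2 δ hδ
    show IsZeroAtImInfty (stabFun ℓ f u ∣[(2 : ℤ)] δ)
    rw [stabFun, sub_eq_add_neg, SlashAction.add_slash, SlashAction.neg_slash,
      ModularForm.smul_slash]
    have a3 := Filter.Tendsto.add a1 (Filter.Tendsto.neg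
      (Filter.Tendsto.const_mul (UpperHalfPlane.σ δ (u / (ℓ : ℂ))) a2))
    rw [mul_zero, neg_zero, add_zero] at a3
    exact a3

theorem coe_stabForm (f : CuspForm (Gamma0 N) 2) (u : ℂ) :
    (⇑(stabForm (ℓ := ℓ) f u) : ℍ → ℂ) = stabFun ℓ f u := rfl

omit [NeZero N] in
theorem periodic_one (f : CuspForm (Gamma0 N) 2) (τ σ : ℍ) (j : ℕ)
    (h : (σ : ℂ) = (τ : ℂ) + j) : f σ = f τ := by
  have hp := SlashInvariantFormClass.periodic_comp_ofComplex f
    (one_mem_strictPeriods_Gamma0 N)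
  have e := hp.nat_mul j (τ : ℂ)
  simp only [Function.comp_apply, ofComplex_apply, mul_one, Complex.ofReal_one, ← h] at e
  exact e

omit [NeZero N] in
/-- The stabilised form is an eigenform of the upper operator. -/
theorem stabFun_eigen (hℓ : ℓ.Prime) (hℓN : ¬ ℓ ∣ N) (f : CuspForm (Gamma0 N) 2) (a u v : ℂ)
    (ha : CuspForm.heckeTLin 2 hℓ hℓN f = a • f) (hsum : u + v = a) (hprod : u * v = (ℓ : ℂ))
    (τ : ℍ) :
    v * stabFun ℓ f u τ =
      (ℓ : ℂ)⁻¹ * ∑ j ∈ Finset.range ℓ, stabFun ℓ f u (ModularForm.heckeMatrix ℓ j • τ) := by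
  have hℓ0 : (ℓ : ℂ) ≠ 0 := Nat.cast_ne_zero.mpr (NeZero.ne ℓ)
  have hT : ModularForm.heckeT 2 ℓ ⇑f τ = a * f τ := by
    rw [← CuspForm.coe_heckeTLin_apply (k := 2) hℓ hℓN f, ha]
    simp
  rw [ModularForm.heckeT_apply _ (NeZero.ne ℓ), show (2 : ℤ) - 1 = 1 from rfl, zpow_one] at hT
  have hper : ∀ j, f (ModularForm.heckeDiagMatrix ℓ • ModularForm.heckeMatrix ℓ j • τ) = f τ :=
    fun j => periodic_one f τ _ j (by
      rw [ModularForm.coe_heckeDiagMatrix_smul (NeZero.ne ℓ),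
        ModularForm.coe_heckeMatrix_smul (NeZero.ne ℓ), mul_div_cancel₀ _ hℓ0])
  simp only [stabFun_apply, hper, Finset.sum_sub_distrib, Finset.sum_const, Finset.card_range,
    nsmul_eq_mul]
  rw [mul_sub, mul_sub, inv_mul_cancel_left₀ hℓ0]
  linear_combination -hT + (f τ) * hsum - f (ModularForm.heckeDiagMatrix ℓ • τ) * hprod

theorem im_heckeMatrix_smul (j : ℕ) (τ : ℍ) :
    (ModularForm.heckeMatrix ℓ j • τ).im = τ.im / ℓ := by
  rw [← UpperHalfPlane.coe_im, ModularForm.coe_heckeMatrix_smul (NeZero.ne ℓ)]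
  simp [Complex.div_natCast_im]

theorem im_heckeDiagMatrix_smul (τ : ℍ) :
    (ModularForm.heckeDiagMatrix ℓ • τ).im = ℓ * τ.im := by
  rw [← UpperHalfPlane.coe_im, ModularForm.coe_heckeDiagMatrix_smul (NeZero.ne ℓ)]
  simp

theorem exists_stabFun_ne_zero (hℓ : 2 ≤ ℓ) (f : CuspForm (Gamma0 N) 2) (hf : f ≠ 0) (u : ℂ) :
    ∃ τ, stabFun ℓ f u τ ≠ 0 := by
  by_contra! h
  refine hf (DFunLike.coe_injective ?_)
  funext τ
  let pt : ℕ → ℍ := fun k => (fun σ => ModularForm.heckeDiagMatrix ℓ • σ)^[k] τ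
  have him : ∀ k, (pt k).im = (ℓ : ℝ) ^ k * τ.im := fun k => by
    induction k with
    | zero => simp [pt]
    | succ k ih =>
      show ((fun σ => ModularForm.heckeDiagMatrix ℓ • σ)^[k + 1] τ).im = _
      rw [Function.iterate_succ_apply', im_heckeDiagMatrix_smul, ih, pow_succ]
      ring
  have hrec : ∀ k, f τ = u ^ k * f (pt k) := fun k => by
    induction k with
    | zero => simp [pt]
    | succ k ih =>
      have h1 := h (pt k)
      rw [stabFun_apply, sub_eq_zero] at h1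
      rw [ih, h1, pow_succ]
      show _ = _ * f ((fun σ => ModularForm.heckeDiagMatrix ℓ • σ)^[k + 1] τ)
      rw [Function.iterate_succ_apply']
      ring
  have hℓ1 : (1 : ℝ) < ℓ := by exact_mod_cast hℓ
  have hto : Tendsto pt atTop atImInfty := by
    refine tendsto_comap_iff.mpr ?_
    simp only [Function.comp_def, him]
    exact (tendsto_pow_atTop_atTop_of_one_lt hℓ1).atTop_mul_const τ.im_pos
  have hdec := (UpperHalfPlane.IsZeroAtImInfty.exp_decay_atImInfty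
    (CuspFormClass.zero_at_infty f) one_pos
    (SlashInvariantFormClass.periodic_comp_ofComplex f (one_mem_strictPeriods_Gamma0 N))
    (CuspFormClass.holo f)
    (ModularFormClass.bdd_at_infty f)).comp_tendsto hto
  obtain ⟨C, hC⟩ := hdec.bound
  obtain ⟨m, hm⟩ : ∃ m : ℕ, ‖u‖ ≤ (ℓ : ℝ) ^ m :=
    (pow_unbounded_of_one_lt ‖u‖ hℓ1).imp fun _ h => h.le
  set c : ℝ := 2 * Real.pi * τ.im with hc
  have hc0 : 0 < c := by positivity
  have hlim : Tendsto (fun k : ℕ => C / c ^ m * ((c * (ℓ : ℝ) ^ k) ^ m *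
      Real.exp (-(c * (ℓ : ℝ) ^ k)))) atTop (𝓝 0) := by
    simpa using ((Real.tendsto_pow_mul_exp_neg_atTop_nhds_zero m).comp
      ((tendsto_pow_atTop_atTop_of_one_lt hℓ1).const_mul_atTop hc0)).const_mul (C / c ^ m)
  have hle : ∀ᶠ k : ℕ in atTop, ‖f τ‖ ≤
      C / c ^ m * ((c * (ℓ : ℝ) ^ k) ^ m * Real.exp (-(c * (ℓ : ℝ) ^ k))) := by
    filter_upwards [hC] with k hk
    rw [Function.comp_apply, Function.comp_apply, him,
      Real.norm_of_nonneg (Real.exp_pos _).le] at hk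
    calc ‖f τ‖ = ‖u‖ ^ k * ‖f (pt k)‖ := by rw [hrec k, norm_mul, norm_pow]
      _ ≤ ((ℓ : ℝ) ^ m) ^ k * ‖f (pt k)‖ := by gcongr
      _ ≤ ((ℓ : ℝ) ^ m) ^ k * (C * Real.exp (-2 * Real.pi * ((ℓ : ℝ) ^ k * τ.im) / 1)) := by
          gcongr
      _ = _ := by
          rw [show -2 * Real.pi * ((ℓ : ℝ) ^ k * τ.im) / 1 = -(c * (ℓ : ℝ) ^ k) by rw [hc]; ring]
          clear_value c
          rw [mul_pow, ← pow_mul, ← pow_mul, mul_comm m k]
          have : c ^ m ≠ 0 := pow_ne_zero _ hc0.ne'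
          field_simp
  exact norm_le_zero_iff.mp (ge_of_tendsto hlim hle)

end Stabilised

/-- **The bound**: for an eigenvalue `a` of `T_ℓ`, both roots of `X ^ 2 - a X + ℓ` are `< ℓ`. -/
theorem norm_root_lt {N : ℕ} [NeZero N] {ℓ : ℕ} (hℓ : ℓ.Prime) (hℓN : ¬ ℓ ∣ N)
    {f : CuspForm (Gamma0 N) 2} (hf : f ≠ 0) {a v : ℂ}
    (ha : CuspForm.heckeTLin 2 hℓ hℓN f = a • f) (hv : v ^ 2 - a * v + (ℓ : ℂ) = 0) :
    ‖v‖ < ℓ := by
  have : NeZero ℓ := ⟨hℓ.ne_zero⟩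
  set u := a - v with hu
  have hprod : u * v = (ℓ : ℂ) := by rw [hu]; linear_combination -hv
  set G := stabForm (ℓ := ℓ) f u with hG
  set h : ℍ → ℝ := fun τ => τ.im * ‖G τ‖ with hh
  have hsq : ∀ τ, h τ = Real.sqrt ‖petersson 2 G G τ‖ := fun τ => by
    rw [petersson, norm_mul, norm_mul, Complex.norm_conj, norm_zpow, Complex.norm_real,
      Real.norm_of_nonneg τ.im_pos.le, show (‖G τ‖ * ‖G τ‖) * τ.im ^ (2 : ℤ) = (h τ) ^ 2 by
        rw [hh, zpow_ofNat]; ring,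
      Real.sqrt_sq (mul_nonneg τ.im_pos.le (norm_nonneg _))]
  have hcont : Continuous h := by
    rw [funext hsq]
    exact Real.continuous_sqrt.comp (continuous_norm.comp
      (petersson_continuous 2 (CuspFormClass.holo G).continuous (CuspFormClass.holo G).continuous))
  have hinv : ∀ γ ∈ Gamma0 (N * ℓ), ∀ τ, h (γ • τ) = h τ := fun γ hγ τ => by
    rw [hsq, hsq]
    exact congrArg Real.sqrt (SlashInvariantFormClass.norm_petersson_smul (k := 2) (f := G)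
      (f' := G) (Γ := (Gamma0 (N * ℓ) : Subgroup (GL (Fin 2) ℝ))) ⟨γ, hγ, rfl⟩)
  have hcusp : ∀ g : SL(2, ℤ), Tendsto (fun τ => h (g • τ)) atImInfty (𝓝 0) := fun g => by
    have h0 : IsZeroAtImInfty fun τ => petersson 2 ⇑G ⇑G (g • τ) := by
      simp_rw [← UpperHalfPlane.petersson_slash_SL]
      have : (((ConjAct.toConjAct (g : GL (Fin 2) ℝ)⁻¹)) •
          (Gamma0 (N * ℓ) : Subgroup (GL (Fin 2) ℝ))).IsArithmetic := by
        simpa [(show Rat.castHom ℝ = algebraMap ℚ ℝ by rfl), map_inv, map_mapGL]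
          using! Subgroup.IsArithmetic.conj (Gamma0 (N * ℓ) : Subgroup (GL (Fin 2) ℝ))
            (mapGL ℚ g)⁻¹
      exact
          (CuspFormClass.zero_at_infty <| CuspForm.translate G g).petersson_isZeroAtImInfty_left 2 _
        (ModularForm.translate G g)
    rw [UpperHalfPlane.IsZeroAtImInfty, Filter.ZeroAtFilter] at h0
    simp only [hsq]
    simpa using h0.norm.sqrt
  obtain ⟨τ₁, hτ₁⟩ := exists_stabFun_ne_zero hℓ.two_le f hf u
  obtain ⟨τ₀, hpos, hmax⟩ := exists_isMax_of_invariant (Gamma0 (N * ℓ)) hcont hinv hcusp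
    (τ₁ := τ₁) (mul_pos τ₁.im_pos (norm_pos_iff.mpr hτ₁))
  have hineq : ∀ τ, ‖v‖ * h τ ≤ ∑ j ∈ Finset.range ℓ, h (ModularForm.heckeMatrix ℓ j • τ) := by
    intro τ
    have e := congrArg norm (stabFun_eigen hℓ hℓN f a u v ha (by rw [hu]; ring) hprod τ)
    simp only [norm_mul, norm_inv, Complex.norm_natCast] at e
    simp only [hh, im_heckeMatrix_smul, hG, coe_stabForm, ← Finset.mul_sum]
    rw [← mul_left_comm, e, ← mul_assoc, ← div_eq_mul_inv]
    exact mul_le_mul_of_nonneg_left (norm_sum_le _ _) (div_nonneg τ.im_pos.le (Nat.cast_nonneg ℓ))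
  by_contra hlt
  rw [not_lt] at hlt
  -- every descendant of the maximum is a maximum
  set pt : ℕ → ℍ := fun k => (fun σ => ModularForm.heckeMatrix ℓ 0 • σ)^[k] τ₀ with hpt
  have hall : ∀ k, h (pt k) = h τ₀ := fun k => by
    induction k with
    | zero => simp [hpt]
    | succ k ih =>
      simp only [hpt, Function.iterate_succ_apply']
      refine le_antisymm (hmax _) ?_
      by_contra hcon
      rw [not_le] at hcon
      have h1 := hineq (pt k)
      have h2 : ∑ j ∈ Finset.range ℓ, h (ModularForm.heckeMatrix ℓ j • pt k) <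
          ∑ j ∈ Finset.range ℓ, h τ₀ :=
        Finset.sum_lt_sum (fun j _ => hmax _)
          ⟨0, Finset.mem_range.mpr hℓ.pos, hcon⟩
      rw [Finset.sum_const, Finset.card_range, nsmul_eq_mul, ← ih] at h2
      nlinarith [mul_le_mul_of_nonneg_right hlt (hpos.le.trans ih.ge)]
  have hcoe : ∀ k, (pt k : ℂ) = (τ₀ : ℂ) / (ℓ : ℂ) ^ k := fun k => by
    induction k with
    | zero => simp [hpt]
    | succ k ih =>
      simp only [hpt, Function.iterate_succ_apply'] at ih ⊢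
      rw [ModularForm.coe_heckeMatrix_smul hℓ.ne_zero, ih, Nat.cast_zero, add_zero, pow_succ,
        div_div]
  have hto : Tendsto (fun k => ModularGroup.S • pt k) atTop atImInfty := by
    refine tendsto_comap_iff.mpr ?_
    have : (UpperHalfPlane.im ∘ fun k => ModularGroup.S • pt k) =
        fun k : ℕ => (ℓ : ℝ) ^ k * (τ₀.im / Complex.normSq τ₀) := by
      funext k
      show (ModularGroup.S • pt k).im = _
      rw [ModularGroup.im_smul_eq_div_normSq, ModularGroup.denom_S, ← UpperHalfPlane.coe_im, hcoe,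
        map_div₀, ← Nat.cast_pow, Complex.div_natCast_im, Complex.normSq_natCast,
            UpperHalfPlane.coe_im]
      have : (0 : ℝ) < (ℓ ^ k : ℕ) := by exact_mod_cast pow_pos hℓ.pos k
      have : 0 < Complex.normSq (τ₀ : ℂ) := Complex.normSq_pos.mpr τ₀.ne_zero
      push_cast
      field_simp
    rw [this]
    exact (tendsto_pow_atTop_atTop_of_one_lt (by exact_mod_cast hℓ.one_lt)).atTop_mul_const
      (div_pos τ₀.im_pos (Complex.normSq_pos.mpr τ₀.ne_zero))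
  have hlim := (hcusp ModularGroup.S⁻¹).comp hto
  simp only [Function.comp_def, inv_smul_smul, hall] at hlim
  exact hpos.ne (tendsto_nhds_unique hlim tendsto_const_nhds)

end Fermat.Agent.Mazur

namespace Fermat.Agent.Mazur

/-- Both roots are also `> 1`. -/
theorem one_lt_norm_root {N : ℕ} [NeZero N] {ℓ : ℕ} (hℓ : ℓ.Prime) (hℓN : ¬ ℓ ∣ N)
    {f : CuspForm (Gamma0 N) 2} (hf : f ≠ 0) {a v : ℂ}
    (ha : CuspForm.heckeTLin 2 hℓ hℓN f = a • f) (hv : v ^ 2 - a * v + (ℓ : ℂ) = 0) :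
    1 < ‖v‖ := by
  have hℓ0 : (0 : ℝ) < ℓ := by exact_mod_cast hℓ.pos
  have h := norm_root_lt hℓ hℓN hf ha (v := a - v) (by linear_combination hv)
  have e : ‖a - v‖ * ‖v‖ = ℓ := by
    rw [← norm_mul, show (a - v) * v = (ℓ : ℂ) by linear_combination -hv, Complex.norm_natCast]
  by_contra hle
  rw [not_lt] at hle
  nlinarith [norm_nonneg (a - v), norm_nonneg v,
      mul_le_mul_of_nonneg_left hle (norm_nonneg (a - v))]

/-- An eigenvalue of `T_ℓ` is never `1 + ℓ`. -/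
theorem eigenvalue_ne_one_add {N : ℕ} [NeZero N] {ℓ : ℕ} (hℓ : ℓ.Prime) (hℓN : ¬ ℓ ∣ N)
    {f : CuspForm (Gamma0 N) 2} (hf : f ≠ 0) {a : ℂ}
    (ha : CuspForm.heckeTLin 2 hℓ hℓN f = a • f) : a ≠ 1 + (ℓ : ℂ) := by
  intro e
  have h := one_lt_norm_root hℓ hℓN hf ha (v := 1) (by rw [e]; ring)
  simp at h

end Fermat.Agent.Mazur
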