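import Fermat.Agent.Mazur.EisensteinComponent.Model
import Fermat.Agent.Mazur.Interface

/-!
# Reduction data for the Eisenstein component

The inputs at an auxiliary prime `P` used to cut out the Eisenstein component of the `P`-adic Tate
module of `J₀(N)`: good reduction with the congruence relation, unipotent inertia at the level and
a rational Eisenstein class; the kernel of reduction inside the lattice and inside its
rationalisation.
-/

noncomputable section

open ModularCurve CongruenceSubgroup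

namespace Fermat.Agent.Mazur

local notation "Qbar" => AlgebraicClosure ℚ
local notation "Γℚ" => AlgebraicClosure ℚ ≃ₐ[ℚ] AlgebraicClosure ℚ

variable (N : ℕ) [NeZero N]

/-- Equivariance of good reduction, with the congruence relation. -/
structure ReductionFacts : Prop where
  inertia : ∀ ℓ : ℕ, ℓ.Prime → ¬ ℓ ∣ N → ∀ A : ValuationSubring Qbar, A.LiesOverPrime ℓ →
    ∀ σ ∈ A.inertiaSubgroupIn ℚ, ∀ x : JZero N,
      reductionModL A N (σ • x) = reductionModL A N x
  decomposition : ∀ ℓ : ℕ, ℓ.Prime → ¬ ℓ ∣ N → ∀ A : ValuationSubring Qbar, A.LiesOverPrime ℓ →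
    ∀ σ ∈ A.decompositionSubgroup ℚ, ∀ x : JZero N,
      reductionModL A N x = 0 → reductionModL A N (σ • x) = 0
  congruence : ∀ (ℓ : Nat.Primes), ¬ (ℓ : ℕ) ∣ N → ∀ A : ValuationSubring Qbar,
    A.LiesOverPrime ℓ → ∀ σ : Γℚ, A.IsFrobeniusAt σ ℓ → ∀ x : JZero N,
      reductionModL A N (heckeOperatorBar N ℓ (σ • x)) =
        reductionModL A N (σ • σ • x) + (ℓ : ℕ) • reductionModL A N x

/-- Inertia at the level acts on the `P`-power torsion with `(σ - 1)² = 0`. -/
def UnipotentInertia (P : ℕ) : Prop :=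
  ∀ A : ValuationSubring Qbar, A.LiesOverPrime N → ∀ σ ∈ A.inertiaSubgroupIn ℚ,
    ∀ x : JZero N, (∃ n : ℕ, P ^ n • x = 0) → σ • σ • x - (σ • x + σ • x) + x = 0

/-- A class of `P`-power order, Eisenstein for the good operators, which survives reduction
at `P`. -/
def CuspClassAt (P : ℕ) : Prop :=
  ∀ A : ValuationSubring Qbar, A.LiesOverPrime P →
    ∃ c : JZero N, (∃ a : ℕ, P ^ a • c = 0) ∧ reductionModL A N c ≠ 0 ∧
      ∀ ℓ : Nat.Primes, ¬ (ℓ : ℕ) ∣ N → heckeOperatorBar N ℓ c = (1 + (ℓ : ℕ)) • c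

variable {N}

/-- The good polynomials fill the anemic algebra. -/
theorem formsEval_surjective : Function.Surjective (formsEval N) := by
  intro t
  let R : Subring (TGood N) := (formsEval N).range.toSubring
  exact Attach.forall_mem_of_T_mem (fun q hq _ => hq) (RingHom.id (TGood N)) R
    (fun ℓ hℓ hℓN _ => ⟨MvPolynomial.X ⟨⟨ℓ, hℓ⟩, hℓN⟩, MvPolynomial.aeval_X _ _⟩) t

/-- A scalar passes through a quadratic expression in a linear map. -/
theorem smul_quad {K R V : Type*} [CommRing K] [CommRing R] [Algebra K R] [AddCommGroup V]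
    [Module K V] [Module R V] [IsScalarTower K R V] (g : V →ₗ[R] V) (a : R) (c : K) (n : ℕ)
    (v : V) :
    c • (g (g v) - a • g v + (n : K) • v) = g (g (c • v)) - a • g (c • v) + n • (c • v) := by
  rw [Nat.cast_smul_eq_nsmul, smul_add, smul_sub, smul_comm c n v, ← algebraMap_smul R c v,
    map_smul, map_smul, algebraMap_smul, algebraMap_smul, algebraMap_smul, smul_comm c a]

variable {P : ℕ} [Fact P.Prime] (M : Attach.TorsionModel N P)

omit [Fact (Nat.Prime P)] in
/-- A good polynomial acts on torsion through the matrix of its value on forms. -/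
theorem jAct_pt (h : HeckeOperatorsCommuteBar N) (t : GoodHecke N) (n : ℕ) (v : Fin M.rk → ℤ) :
    jAct N h t (M.pt n v) = M.pt n ((M.mat (formsEval N t)).mulVec v) := by
  induction t using MvPolynomial.induction_on generalizing v with
  | C a =>
    rw [eq_intCast MvPolynomial.C, map_intCast, map_intCast, map_intCast,
      ← zsmul_one (R := Matrix (Fin M.rk) (Fin M.rk) ℤ), Matrix.smul_mulVec, Matrix.one_mulVec,
      map_zsmul]
    exact Module.End.intCast_apply (R := ℤ) a (M.pt n v)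
  | add p q hp hq =>
    rw [map_add, LinearMap.add_apply, hp, hq, map_add, map_add, Matrix.add_mulVec, map_add]
  | mul_X p ℓ hp =>
    have e : formsEval N (MvPolynomial.X ℓ) = CuspForm.heckeAlgebra.T ℓ.1.2 ℓ.2 ℓ.2 :=
      MvPolynomial.aeval_X _ _
    rw [map_mul, Module.End.mul_apply, jAct_X, M.pt_hecke ℓ.1 ℓ.2, hp, map_mul, e, map_mul,
      Matrix.mulVec_mulVec]

theorem jAct_ptP (h : HeckeOperatorsCommuteBar N) (t : GoodHecke N) (n : ℕ) (x : Tlat M) :
    jAct N h t (ptP M n x) = ptP M n ((matT M (formsEval N t)).mulVec x) := by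
  obtain ⟨v, hv⟩ := exists_intLift M n x
  rw [ptP_eq_pt M n x v hv, jAct_pt, ptP_matT M n _ x v hv]

variable (A : ValuationSubring Qbar)

/-- The lattice vectors killed by reduction at every level. -/
def redKer : Submodule ℤ_[P] (Tlat M) where
  carrier := {x | ∀ n, reductionModL A N (ptP M n x) = 0}
  add_mem' {x y} hx hy n := by rw [map_add, map_add, hx n, hy n, add_zero]
  zero_mem' n := by rw [map_zero, map_zero]
  smul_mem' c x hx n := by rw [ptP_smul, map_nsmul, hx n, nsmul_zero]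

theorem redKer_saturated {x : Tlat M} (hx : (P : ℤ_[P]) • x ∈ redKer M A) : x ∈ redKer M A := by
  intro n
  have e : ptP M (n + 1) ((P : ℤ_[P]) • x) = ptP M n x := by
    rw [show ((P : ℤ_[P]) • x) = P • x from Nat.cast_smul_eq_nsmul _ _ _, map_nsmul, nsmul_ptP_succ]
  rw [← e]
  exact hx (n + 1)

variable (hh : HeckeOperatorsCommuteBar N) (hker : HeckePreservesKernel N)
  (hA : A.LiesOverPrime P) (hPN : ¬ P ∣ N)

include hh hker hA hPN in
theorem matT_mem_redKer (b : TGood N) {x : Tlat M} (hx : x ∈ redKer M A) :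
    (matT M b).mulVec x ∈ redKer M A := by
  intro n
  obtain ⟨t, rfl⟩ := formsEval_surjective b
  rw [← jAct_ptP M hh]
  exact hker hh P Fact.out hPN A hA t _ (hx n)

theorem redKer_of_pow_smul {x : Tlat M} (k : ℕ) (hx : (P : ℤ_[P]) ^ k • x ∈ redKer M A) :
    x ∈ redKer M A := by
  induction k generalizing x with
  | zero => simpa using hx
  | succ k ih =>
    exact redKer_saturated M A (ih (by rwa [smul_smul, ← pow_succ]))

/-- Multiples of rational vectors are lattice vectors. -/
theorem exists_pow_smul_eq_toVt (v : Vt M) :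
    ∃ (k : ℕ) (x : Tlat M), ((P : ℚ_[P]) ^ k) • v = toVt M x := by
  obtain ⟨k, hk⟩ := pow_unbounded_of_one_lt (∑ i, ‖v i‖)
    (show (1 : ℝ) < P by exact_mod_cast (Fact.out : P.Prime).one_lt)
  have hn : ∀ i, ‖(P : ℚ_[P]) ^ k * v i‖ ≤ 1 := fun i => by
    rw [norm_mul, norm_pow, Padic.norm_p, inv_pow, inv_mul_le_iff₀
      (pow_pos (by exact_mod_cast (Fact.out : P.Prime).pos) k), mul_one]
    exact (Finset.single_le_sum (fun j _ => norm_nonneg (v j)) (Finset.mem_univ i)).trans hk.le
  exact ⟨k, fun i => ⟨_, hn i⟩, rfl⟩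

theorem pow_smul_toVt (k : ℕ) (x : Tlat M) :
    ((P : ℚ_[P]) ^ k) • toVt M x = toVt M (((P : ℤ_[P]) ^ k) • x) := by
  rw [map_smul, ← algebraMap_smul ℚ_[P] ((P : ℤ_[P]) ^ k), map_pow, map_natCast]

/-- The rational part killed by reduction. -/
def redKerV : Submodule (algA M) (Vt M) where
  carrier := {v | ∃ (k : ℕ) (x : Tlat M), x ∈ redKer M A ∧ ((P : ℚ_[P]) ^ k) • v = toVt M x}
  add_mem' := by
    rintro v w ⟨k, x, hx, hv⟩ ⟨l, y, hy, hw⟩
    refine ⟨k + l, ((P : ℤ_[P]) ^ l) • x + ((P : ℤ_[P]) ^ k) • y,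
      Submodule.add_mem _ (Submodule.smul_mem _ _ hx) (Submodule.smul_mem _ _ hy), ?_⟩
    rw [map_add, ← pow_smul_toVt, ← pow_smul_toVt, ← hv, ← hw, smul_smul, smul_smul, ← pow_add,
      ← pow_add, smul_add, add_comm l k]
  zero_mem' := ⟨0, 0, Submodule.zero_mem _, by simp⟩
  smul_mem' := by
    rintro a v ⟨k, x, hx, hv⟩
    obtain ⟨l, hl⟩ := exists_pow_smul_mem_algR M a
    have key : ∀ r : algA M, r ∈ algR M → ∀ y ∈ redKer M A,
        ∃ z ∈ redKer M A, r • toVt M y = toVt M z := by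
      intro r hr y hy
      rw [← Subalgebra.mem_toSubmodule, algR_eq_span] at hr
      induction hr using Submodule.span_induction with
      | mem r hr =>
        obtain ⟨b, rfl⟩ := hr
        exact ⟨_, matT_mem_redKer M A hh hker hA hPN b hy, toA_smul_toVt M b y⟩
      | zero => exact ⟨0, Submodule.zero_mem _, by rw [zero_smul, map_zero]⟩
      | add r r' _ _ h1 h2 =>
        obtain ⟨z, hz, e1⟩ := h1
        obtain ⟨z', hz', e2⟩ := h2
        exact ⟨z + z', Submodule.add_mem _ hz hz', by rw [add_smul, e1, e2, map_add]⟩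
      | smul c r _ h1 =>
        obtain ⟨z, hz, e1⟩ := h1
        exact ⟨c • z, Submodule.smul_mem _ _ hz, by rw [smul_assoc, e1, map_smul]⟩
    obtain ⟨z, hz, hze⟩ := key _ hl x hx
    refine ⟨k + l, z, hz, ?_⟩
    rw [← hze, ← hv, smul_assoc, smul_comm a ((P : ℚ_[P]) ^ k) v, smul_smul, ← pow_add,
        add_comm k l]

theorem toVt_mem_redKerV_iff (x : Tlat M) :
    toVt M x ∈ redKerV M A hh hker hA hPN ↔ x ∈ redKer M A := by
  constructor
  · rintro ⟨k, y, hy, he⟩
    rw [pow_smul_toVt] at he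
    exact redKer_of_pow_smul M A k (toVt_injective M he ▸ hy)
  · exact fun hx => ⟨0, x, hx, by rw [pow_zero, one_smul]⟩

variable (hG : Attach.TorsionGalois N P) (hred : ReductionFacts N)

theorem galV_scalar_smul (σ : Γℚ) (c : ℚ_[P]) (v : Vt M) :
    galV M hG σ (c • v) = c • galV M hG σ v := by
  rw [← algebraMap_smul (algA M) c v, map_smul, algebraMap_smul]

include hred hA hPN in
theorem repPadic_mem_redKer {σ : Γℚ} (hσ : σ ∈ A.decompositionSubgroup ℚ) {x : Tlat M}
    (hx : x ∈ redKer M A) : (M.repPadic σ).mulVec x ∈ redKer M A := fun n => by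
  rw [← smul_ptP]
  exact hred.decomposition P Fact.out hPN A hA σ hσ _ (hx n)

include hred hA hPN in
theorem galV_mem_redKerV {σ : Γℚ} (hσ : σ ∈ A.decompositionSubgroup ℚ) {v : Vt M}
    (hv : v ∈ redKerV M A hh hker hA hPN) : galV M hG σ v ∈ redKerV M A hh hker hA hPN := by
  obtain ⟨k, x, hx, he⟩ := hv
  exact ⟨k, _, repPadic_mem_redKer M A hA hPN hred hσ hx,
    by rw [← galV_scalar_smul M hG, he, galV_toVt]⟩

include hred hA hPN in
theorem galV_sub_mem_redKerV {σ : Γℚ} (hσ : σ ∈ A.inertiaSubgroupIn ℚ) (v : Vt M) :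
    galV M hG σ v - v ∈ redKerV M A hh hker hA hPN := by
  obtain ⟨k, x, he⟩ := exists_pow_smul_eq_toVt M v
  refine ⟨k, (M.repPadic σ).mulVec x - x, fun n => ?_, ?_⟩
  · rw [map_sub, map_sub, ← smul_ptP, hred.inertia P Fact.out hPN A hA σ hσ, sub_self]
  · rw [smul_sub, ← galV_scalar_smul M hG, he, galV_toVt, map_sub]

include hred hA hPN in
theorem congruence_mem_redKerV {φ : Γℚ} (hφ : A.IsFrobeniusAt φ P) (v : Vt M) :
    galV M hG φ (galV M hG φ v)
      - toA M (CuspForm.heckeAlgebra.T (Fact.out : P.Prime) hPN hPN) • galV M hG φ v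
      + (P : ℚ_[P]) • v ∈ redKerV M A hh hker hA hPN := by
  obtain ⟨k, x, he⟩ := exists_pow_smul_eq_toVt M v
  refine ⟨k, (M.repPadic φ).mulVec ((M.repPadic φ).mulVec x)
    - (matT M (CuspForm.heckeAlgebra.T (Fact.out : P.Prime) hPN hPN)).mulVec
        ((M.repPadic φ).mulVec x) + P • x, fun n => ?_, ?_⟩
  · have e := hred.congruence ⟨P, Fact.out⟩ hPN A hA φ hφ (ptP M n x)
    rw [← jAct_X hh ⟨⟨P, Fact.out⟩, hPN⟩, smul_ptP, smul_ptP, jAct_ptP] at e
    have e1 : formsEval N (MvPolynomial.X ⟨⟨P, Fact.out⟩, hPN⟩) =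
        CuspForm.heckeAlgebra.T (Fact.out : P.Prime) hPN hPN := MvPolynomial.aeval_X _ _
    rw [e1] at e
    rw [map_add, map_sub, map_nsmul, map_add, map_sub, map_nsmul, e]
    abel
  · refine (smul_quad (galV M hG φ) (toA M (CuspForm.heckeAlgebra.T (Fact.out : P.Prime) hPN hPN))
      ((P : ℚ_[P]) ^ k) P v).trans ?_
    rw [he, galV_toVt, galV_toVt]
    have e1 := toA_smul_toVt M (CuspForm.heckeAlgebra.T (Fact.out : P.Prime) hPN hPN)
      ((M.repPadic φ).mulVec x)
    rw [e1]
    generalize (matT M (CuspForm.heckeAlgebra.T (Fact.out : P.Prime) hPN hPN)).mulVec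
      ((M.repPadic φ).mulVec x) = w
    generalize (M.repPadic φ).mulVec ((M.repPadic φ).mulVec x) = u
    rw [map_add, map_sub, map_nsmul]

end Fermat.Agent.Mazur
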