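import Fermat.Agent.Mazur.EisensteinComponent.LevelN

/-!
# Descent data on the Eisenstein component

The Galois representation on the lattice of the Eisenstein component `V[𝔭]` satisfies the
hypotheses of the `P`-adic descent which bounds its Selmer classes.
-/

noncomputable section

open ModularCurve CongruenceSubgroup

namespace Fermat.Agent.Mazur

local notation "Qbar" => AlgebraicClosure ℚ
local notation "Γℚ" => AlgebraicClosure ℚ ≃ₐ[ℚ] AlgebraicClosure ℚ

theorem sub_dvd_powTrace_sub {R : Type*} [CommRing R] (a a' d : R) (k : ℕ) :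
    a - a' ∣ Attach.powTrace a d k - Attach.powTrace a' d k := by
  rw [← Ideal.mem_span_singleton, ← Ideal.Quotient.eq, Attach.map_powTrace, Attach.map_powTrace,
    show Ideal.Quotient.mk (Ideal.span {a - a'}) a = Ideal.Quotient.mk _ a' from
      Ideal.Quotient.eq.mpr (Ideal.mem_span_singleton_self _)]

theorem powTrace_one_add {R : Type*} [CommRing R] (d : R) (k : ℕ) :
    Attach.powTrace (1 + d) d k = 1 + d ^ k := by
  rw [← Attach.pow_add_pow_eq_powTrace (1 : R) 1 (1 + d) d (one_mul 1) (one_mul 1)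
    (Commute.all _ _) (Commute.all _ _) (by rw [mul_one]) k, one_pow, mul_one]

variable {N : ℕ} [NeZero N] {P : ℕ} [Fact P.Prime] {M : Attach.TorsionModel N P}
  {hG : Attach.TorsionGalois N P} {𝔭 : Ideal (algA M)} {A : ValuationSubring Qbar}

variable (M hG 𝔭) in
/-- The representation on the lattice of `V[𝔭]`. -/
def rhoL : Γℚ →* Module.End ℤ_[P] (lat M (torV M 𝔭)) where
  toFun g := latGal (hG := hG) g
  map_one' := LinearMap.ext fun x => Subtype.ext (toVt_injective M (by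
    rw [coe_latGal, map_one, Module.End.one_apply, Module.End.one_apply]))
  map_mul' g g' := LinearMap.ext fun x => Subtype.ext (toVt_injective M (by
    rw [Module.End.mul_apply, coe_latGal, coe_latGal, coe_latGal, galV_mul_apply]))

theorem coe_rhoL (g : Γℚ) (x : lat M (torV M 𝔭)) :
    toVt M (rhoL M hG 𝔭 g x : Tlat M) = galV M hG g (toVt M x) := coe_latGal g x

theorem toVt_coe_add (x y : lat M (torV M 𝔭)) :
    toVt M ((x + y : lat M (torV M 𝔭)) : Tlat M) = toVt M x + toVt M y := map_add (toVt M) _ _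

theorem toVt_coe_sub (x y : lat M (torV M 𝔭)) :
    toVt M ((x - y : lat M (torV M 𝔭)) : Tlat M) = toVt M x - toVt M y := map_sub (toVt M) _ _

theorem toVt_coe_smul (c : ℤ_[P]) (x : lat M (torV M 𝔭)) :
    toVt M ((c • x : lat M (torV M 𝔭)) : Tlat M) = (c : ℚ_[P]) • toVt M x := by
  rw [Submodule.coe_smul, map_smul]
  exact (algebraMap_smul ℚ_[P] c _).symm

variable (M 𝔭) in
/-- The lattice of a subspace inside the lattice of `V[𝔭]`. -/
def latC (C : Submodule (algA M) (Vt M)) : Submodule ℤ_[P] (lat M (torV M 𝔭)) :=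
  (lat M C).comap (lat M (torV M 𝔭)).subtype

theorem mem_latC {C : Submodule (algA M) (Vt M)} {x : lat M (torV M 𝔭)} :
    x ∈ latC M 𝔭 C ↔ toVt M x ∈ C := Iff.rfl

theorem exists_div_of_toVt_eq {k : ℕ} {x : lat M (torV M 𝔭)} {y : Tlat M}
    (h : (x : Tlat M) = ((P : ℤ_[P]) ^ k) • y) :
    ∃ z : lat M (torV M 𝔭), x = ((P : ℤ_[P]) ^ k) • z :=
  ⟨⟨y, lat_saturated M (torV M 𝔭) (h ▸ x.2)⟩, Subtype.ext h⟩

theorem rhoL_continuous (k : ℕ) : ∃ E : IntermediateField ℚ Qbar, FiniteDimensional ℚ E ∧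
    ∀ σ : Γℚ, (∀ a ∈ E, σ a = a) → ∀ x : lat M (torV M 𝔭), ∃ y : lat M (torV M 𝔭),
      rhoL M hG 𝔭 σ x - x = (P : ℤ_[P]) ^ k • y := by
  obtain ⟨E, hE, hfix⟩ := levelHom_finite_level M hG (galStable_torV M hG 𝔭) k
  refine ⟨E, hE, fun σ hσ x => ?_⟩
  have h1 := congrArg Subtype.val
    (Equiv.congr_fun (hfix σ hσ) ⟨ptP M k x, (x : Tlat M), x.2, rfl⟩)
  change σ • ptP M k x = ptP M k x at h1
  rw [smul_ptP, ← sub_eq_zero, ← map_sub] at h1
  obtain ⟨y, hy⟩ := exists_pow_smul_of_ptP_eq_zero M h1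
  exact exists_div_of_toVt_eq (y := y) hy

/-- One step of the residual relation. -/
theorem rhoL_quad {σ : Γℚ} {c : algA M}
    (hc : ∀ v : Vt M, galV M hG σ v + chiQ P σ • galV M hG σ⁻¹ v = c • v)
    (x : lat M (torV M 𝔭)) :
    toVt M ((((rhoL M hG 𝔭 σ - 1) * (rhoL M hG 𝔭 σ - algebraMap ℤ_[P]
      (Module.End ℤ_[P] (lat M (torV M 𝔭))) (chi P σ : ℤ_[P]))) x) : Tlat M) =
      (c - 1 - algebraMap ℚ_[P] (algA M) (chiQ P σ)) • galV M hG σ (toVt M x) := by
  rw [Module.End.mul_apply, LinearMap.sub_apply, LinearMap.sub_apply, Module.End.one_apply,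
    Module.algebraMap_end_apply, toVt_coe_sub, coe_rhoL, toVt_coe_sub, coe_rhoL, toVt_coe_smul,
    map_sub, galV_scalar_smul, sub_smul_eq, sub_smul, one_smul, ← hc, galV_inv_apply, ← chiQ_apply]
  abel

theorem rhoL_quad_pow {σ : Γℚ} {c : algA M}
    (hc : ∀ v : Vt M, galV M hG σ v + chiQ P σ • galV M hG σ⁻¹ v = c • v)
    (K : ℕ) (x : lat M (torV M 𝔭)) :
    toVt M (((((rhoL M hG 𝔭 σ - 1) * (rhoL M hG 𝔭 σ - algebraMap ℤ_[P]
      (Module.End ℤ_[P] (lat M (torV M 𝔭))) (chi P σ : ℤ_[P]))) ^ K) x) : Tlat M) =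
      (c - 1 - algebraMap ℚ_[P] (algA M) (chiQ P σ)) ^ K • galV M hG (σ ^ K) (toVt M x) := by
  induction K with
  | zero => rw [pow_zero, pow_zero, pow_zero, Module.End.one_apply, map_one, one_smul,
      Module.End.one_apply]
  | succ K ih =>
    rw [pow_succ', Module.End.mul_apply, rhoL_quad hc, ih, map_smul, smul_smul, ← pow_succ',
      pow_succ' σ, galV_mul_apply]

/-- `(c - b) - (χ - m)` maps the lattice into `P T`. -/
theorem exists_smul_eq_of_near {σ : Γℚ} {c : algA M}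
    (hc : ∀ v : Vt M, galV M hG σ v + chiQ P σ • galV M hG σ⁻¹ v = c • v) {b : TGood N} {m : ℕ}
    (hb : ∀ i j, PadicInt.toZModPow 1 ((M.repPadic σ + (chi P σ : ℤ_[P]) • M.repPadic σ⁻¹
      - matT M b) i j) = 0)
    (hm : PadicInt.toZModPow 1 ((chi P σ : ℤ_[P]) - (m : ℤ_[P])) = 0) (x : Tlat M) :
    ∃ y : Tlat M, ((c - toA M b) - (algebraMap ℚ_[P] (algA M) (chiQ P σ) - (m : algA M))) • toVt M x
      = toVt M ((P : ℤ_[P]) • y) := by
  set X := M.repPadic σ + (chi P σ : ℤ_[P]) • M.repPadic σ⁻¹ - matT M b with hX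
  have h0 : ptP M 1 (X.mulVec x - ((chi P σ : ℤ_[P]) - (m : ℤ_[P])) • x) = 0 := by
    rw [ptP_eq_zero_iff]
    intro i
    rw [Pi.sub_apply, Pi.smul_apply, smul_eq_mul, map_sub, map_mul, hm, zero_mul, sub_zero,
      Matrix.mulVec, dotProduct, map_sum]
    exact Finset.sum_eq_zero fun j _ => by rw [map_mul, hb, zero_mul]
  obtain ⟨y, hy⟩ := exists_pow_smul_of_ptP_eq_zero M h0
  rw [pow_one] at hy
  refine ⟨y, ?_⟩
  have e1 : toVt M ((chi P σ : ℤ_[P]) • x) = chiQ P σ • toVt M x := by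
    rw [map_smul]; exact (algebraMap_smul ℚ_[P] _ _).symm
  have e2 : toVt M ((chi P σ : ℤ_[P]) • (M.repPadic σ⁻¹).mulVec x) =
      chiQ P σ • galV M hG σ⁻¹ (toVt M x) := by
    rw [map_smul, galV_toVt]; exact (algebraMap_smul ℚ_[P] _ _).symm
  rw [← hy, hX, Matrix.sub_mulVec, Matrix.add_mulVec, Matrix.smul_mulVec, map_sub, map_sub, map_add,
    e2, ← galV_toVt M hG, hc, ← toA_smul_toVt, sub_smul (chi P σ : ℤ_[P]), map_sub, e1,
    Nat.cast_smul_eq_nsmul, map_nsmul, sub_smul, sub_smul, sub_smul, algebraMap_smul,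
    Nat.cast_smul_eq_nsmul]

variable {hh : HeckeOperatorsCommuteBar N} {hker : HeckePreservesKernel N}
  {hA : A.LiesOverPrime P} {hPN : ¬ P ∣ N}

/-- Residually the lattice has only the characters `1` and `χ`. -/
theorem rhoL_residual (h𝔭 : IsEisPrime M A hh hker hA hPN 𝔭) (σ : Γℚ) :
    ∃ K : ℕ, ∀ x : lat M (torV M 𝔭), ∃ y : lat M (torV M 𝔭),
      (((rhoL M hG 𝔭 σ - 1) * (rhoL M hG 𝔭 σ - algebraMap ℤ_[P]
        (Module.End ℤ_[P] (lat M (torV M 𝔭))) (chi P σ : ℤ_[P]))) ^ K) x = (P : ℤ_[P]) • y := by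
  obtain ⟨c, hcR, hc⟩ := exists_trace_algR M hG σ
  obtain ⟨ℓ, hℓ, hℓN, k, hk, hb⟩ := exists_powTrace_approx M hG 1 σ
  set T : TGood N := CuspForm.heckeAlgebra.T hℓ hℓN hℓN with hT
  set b := Attach.powTrace T (ℓ : TGood N) k with hbdef
  obtain ⟨q, hq⟩ : T - 1 - (ℓ : TGood N) ∣ b - 1 - (ℓ : TGood N) ^ k := by
    rw [sub_sub, sub_sub, ← powTrace_one_add (ℓ : TGood N) k]
    exact sub_dvd_powTrace_sub _ _ _ _
  obtain ⟨K, s, hs, hK⟩ := h𝔭.eisenstein ℓ hℓ hℓN
  refine ⟨K, fun x => ?_⟩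
  have hm : PadicInt.toZModPow 1 ((chi P σ : ℤ_[P]) - ((ℓ ^ k : ℕ) : ℤ_[P])) = 0 := by
    rw [map_sub, map_natCast, hk, Nat.cast_pow, sub_self]
  have hχR : algebraMap ℚ_[P] (algA M) (chiQ P σ) ∈ algR M := by
    rw [chiQ_apply]
    have e := IsScalarTower.algebraMap_apply ℤ_[P] ℚ_[P] (algA M) (chi P σ : ℤ_[P])
    exact e ▸ Subalgebra.algebraMap_mem (algR M) _
  let D : algR M := ⟨c - 1 - algebraMap ℚ_[P] (algA M) (chiQ P σ),
    Subalgebra.sub_mem _ (Subalgebra.sub_mem _ hcR (Subalgebra.one_mem _)) hχR⟩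
  let Y : algR M := ⟨toA M (b - 1 - (ℓ : TGood N) ^ k), Algebra.subset_adjoin ⟨_, rfl⟩⟩
  obtain ⟨r, hr⟩ := sub_dvd_pow_sub_pow D Y K
  have hDY : ((D - Y : algR M) : algA M) = (c - toA M b)
      - (algebraMap ℚ_[P] (algA M) (chiQ P σ) - ((ℓ ^ k : ℕ) : algA M)) := by
    rw [Subalgebra.coe_sub]
    show c - 1 - algebraMap ℚ_[P] (algA M) (chiQ P σ) - toA M (b - 1 - (ℓ : TGood N) ^ k) = _
    rw [map_sub, map_sub, map_one, map_pow, map_natCast, Nat.cast_pow]
    ring
  set v := galV M hG (σ ^ K) (toVt M x) with hv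
  have hvW : v ∈ torV M 𝔭 := galStable_torV M hG 𝔭 _ _ x.2
  obtain ⟨x', hx'⟩ : ∃ x' : Tlat M, v = toVt M x' := ⟨_, galV_toVt M hG _ _⟩
  obtain ⟨x'', hx''⟩ := algR_smul_toVt M r.2 x'
  obtain ⟨y₁, hy₁⟩ := exists_smul_eq_of_near hc hb hm x''
  obtain ⟨y₂, hy₂⟩ := algR_smul_toVt M
    (Subalgebra.mul_mem (algR M) hs (pow_mem (Algebra.subset_adjoin ⟨q, rfl⟩ : toA M q ∈ algR M) K))
        x'
  have key : (c - 1 - algebraMap ℚ_[P] (algA M) (chiQ P σ)) ^ K • v =
      toVt M ((P : ℤ_[P]) • (y₁ + y₂)) := by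
    have e1 : ((D ^ K : algR M) : algA M) = ((Y ^ K : algR M) : algA M) +
        ((D - Y) * r : algR M) := by
      rw [← hr, ← Subalgebra.coe_add, add_sub_cancel]
    have e2 : ((D ^ K : algR M) : algA M) = (c - 1 - algebraMap ℚ_[P] (algA M) (chiQ P σ)) ^ K :=
      SubmonoidClass.coe_pow D K
    rw [← e2, e1, add_smul, Subalgebra.coe_mul, hDY, mul_smul, SubmonoidClass.coe_pow, hx', hx'',
      hy₁, smul_add, map_add, add_comm]
    congr 1
    show (toA M (b - 1 - (ℓ : TGood N) ^ k)) ^ K • toVt M x' = _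
    have hkill := (mem_torV M 𝔭).mp hvW _
      (𝔭.mul_mem_right (toA M q ^ K) hK)
    rw [sub_mul, sub_smul, sub_eq_zero, hx'] at hkill
    rw [hq, map_mul, mul_pow, hkill, mul_assoc, mul_smul, hy₂, map_smul, Nat.cast_smul_eq_nsmul,
      Nat.cast_smul_eq_nsmul]
  obtain ⟨z, hz⟩ := exists_div_of_toVt_eq (k := 1) (y := y₁ + y₂)
    (x := (((rhoL M hG 𝔭 σ - 1) * (rhoL M hG 𝔭 σ - algebraMap ℤ_[P]
        (Module.End ℤ_[P] (lat M (torV M 𝔭))) (chi P σ : ℤ_[P]))) ^ K) x)
    (toVt_injective M (by rw [rhoL_quad_pow hc, key, pow_one]))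
  exact ⟨z, by rwa [pow_one] at hz⟩

variable {e : algA M} {C : Submodule (algA M) (Vt M)}

/-- The lattice of `V[𝔭]` satisfies the hypotheses of the descent theorem. -/
theorem descentData_torV (hNp : N.Prime) (hred : ReductionFacts N) (hU : UnipotentInertia N P)
    (hT : TameInertia N P) (h𝔭 : IsEisPrime M A hh hker hA hPN 𝔭)
    (h : IsComponent M hG 𝔭 A (redKerV M A hh hker hA hPN) e C) {φP : Γℚ}
    (hφP : A.IsFrobeniusAt φP P) {B : ValuationSubring Qbar} (hB : B.LiesOverPrime N) :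
    DescentData N P (lat M (torV M 𝔭)) (rhoL M hG 𝔭) (resDeg M 𝔭) A φP (latC M 𝔭 C) B := by
  have hNP : N ≠ P := fun hh' => hPN (hh' ▸ dvd_refl _)
  constructor
  case finrank_L => rw [finrank_lat, h.finrank_torV]
  case finrank_C =>
    refine (LinearEquiv.finrank_eq
      (Submodule.comapSubtypeEquivOfLe (show lat M C ≤ lat M (torV M 𝔭) from
        fun x hx => h.le_torV hx))).trans ?_
    rw [finrank_lat, h.finrank_C]
  case saturated =>
    intro x hx
    refine lat_saturated M C (k := 1) ?_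
    rw [pow_one]
    exact hx
  case continuous => exact rhoL_continuous
  case unramified =>
    intro q hq hqN hqP B' hB' σ hσ
    refine LinearMap.ext fun x => Subtype.ext ?_
    exact repPadic_inertia M hG hq (fun hd => hqN ((Nat.prime_dvd_prime_iff_eq hq hNp).mp hd))
      hqP hB' hσ x
  case residual => exact rhoL_residual h𝔭
  case over_P => exact hA
  case frob_P => exact hφP
  case inertia_C =>
    intro σ hσ x hx
    refine Subtype.ext (toVt_injective M ?_)
    rw [coe_rhoL, toVt_coe_smul, ← chiQ_apply]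
    exact h.inertia_C σ hσ _ hx
  case inertia_quot =>
    intro σ hσ x
    rw [mem_latC, toVt_coe_sub, coe_rhoL]
    exact h.inertia_quot σ hσ _ x.2
  case fixed =>
    intro x hx
    refine Subtype.ext (toVt_injective M ?_)
    rw [Submodule.coe_zero, map_zero]
    exact eq_zero_of_fixed M hG 𝔭 A hh hker hA hPN h𝔭 x.2 fun σ => by rw [← coe_rhoL, hx]
  case frob_C =>
    intro x hx he
    refine Subtype.ext (toVt_injective M ?_)
    rw [Submodule.coe_zero, map_zero]
    exact h.frob_C hred h𝔭 hφP hx (by rw [← coe_rhoL, he, toVt_coe_smul, chiQ_apply])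
  case frob_hom =>
    intro f hf0 hfC hrel
    have hF := h.frob_hom hred hφP ((toVt M).comp ((lat M (torV M 𝔭)).subtype.comp f))
      (fun x hx => by
        show toVt M ((f x : lat M (torV M 𝔭)) : Tlat M) = 0
        rw [hf0 x hx, Submodule.coe_zero, map_zero])
      hfC (fun x => by
        show chiQ P φP • toVt M ((f (latGal φP x) : lat M (torV M 𝔭)) : Tlat M) =
          galV M hG φP (toVt M (f x : Tlat M))
        rw [← coe_rhoL, ← hrel x, toVt_coe_smul, chiQ_apply]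
        rfl)
    exact LinearMap.ext fun x => Subtype.ext (toVt_injective M (LinearMap.congr_fun hF x))
  case over_p => exact hB
  case unipotent_p =>
    refine ⟨2, fun σ hσ => LinearMap.ext fun x => Subtype.ext (toVt_injective M ?_)⟩
    rw [pow_two, Module.End.mul_apply, LinearMap.sub_apply, LinearMap.sub_apply,
      Module.End.one_apply, toVt_coe_sub, coe_rhoL, toVt_coe_sub, coe_rhoL, Module.End.one_apply,
      toVt_coe_sub, coe_rhoL, galV_unipotent M hG hU hB hσ, sub_self, LinearMap.zero_apply,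
      Submodule.coe_zero, map_zero]
  case rank_p =>
    intro t φ ht hφ _ W hW
    have h1 : Module.finrank ℤ_[P] W ≤ resDeg M 𝔭 := by
      refine le_trans (LinearMap.finrank_le_finrank_of_injective
        (f := LinearMap.codRestrict (lat M (frobW (hG := hG) (𝔭 := 𝔭) φ t))
          ((lat M (torV M 𝔭)).subtype.comp W.subtype) fun w => ?_) ?_)
        ((finrank_lat M _).trans_le (h.finrank_frobW_le hNp hNP hU hT hB ht hφ))
      · refine mem_frobW.mpr ⟨(w : lat M (torV M 𝔭)).2, ?_⟩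
        obtain ⟨y, hy⟩ := (hW w).mp w.2
        have e1 : galV M hG t (toVt M y) - toVt M y =
            galV M hG φ (toVt M (w : lat M (torV M 𝔭)))
              - (N : ℚ_[P]) • toVt M (w : lat M (torV M 𝔭)) := by
          have := congrArg (fun z : lat M (torV M 𝔭) => toVt M (z : Tlat M)) hy
          rw [LinearMap.sub_apply, Module.End.one_apply, toVt_coe_sub, toVt_coe_sub, coe_rhoL,
            coe_rhoL, toVt_coe_smul, PadicInt.coe_natCast] at this
          exact this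
        exact mem_rangeW.mpr ⟨_, y.2, e1⟩
      · exact fun a b hab => Subtype.ext (Subtype.ext (congrArg Subtype.val hab :))
    have h2 := Submodule.finrank_quotient_add_finrank (LinearMap.ker (rhoL M hG 𝔭 t - 1))
    rw [(rhoL M hG 𝔭 t - 1).quotKerEquivRange.finrank_eq, finrank_lat, h.finrank_torV] at h2
    omega

end Fermat.Agent.Mazur
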