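import Mathlib.LinearAlgebra.FreeModule.PID
import Mathlib.RingTheory.Localization.Module
import Fermat.Agent.Gal.FiniteLevel
import Fermat.Agent.Mazur.EisensteinComponent.Setup

/-!
# Lattices of Galois stable subspaces

The lattice of a Galois stable subspace of the rational Tate module, its finite levels, and what
the local conditions on inertia give on them.
-/

noncomputable section

open ModularCurve CongruenceSubgroup

namespace Fermat.Agent.Mazur

local notation "Qbar" => AlgebraicClosure ℚ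
local notation "Γℚ" => AlgebraicClosure ℚ ≃ₐ[ℚ] AlgebraicClosure ℚ

/-- An element acting with `(i - 1)² = 0` has order dividing that of the vectors. -/
theorem pow_smul_eq_self_of_unipotent {G X : Type*} [Group G] [AddCommGroup X]
    [DistribMulAction G X] (i : G) (z : X) (n : ℕ) (hn : n • z = 0)
    (h : i • i • z - (i • z + i • z) + z = 0) : (i ^ n) • z = z := by
  have hd : i • (i • z - z) = i • z - z := by
    rw [smul_sub, ← sub_eq_zero, ← h]
    abel
  have hpow : ∀ m : ℕ, (i ^ m) • z = z + m • (i • z - z) := by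
    intro m
    induction m with
    | zero => rw [pow_zero, one_smul, zero_nsmul, add_zero]
    | succ m ih =>
      rw [pow_succ', mul_smul, ih, smul_add, smul_comm i m, hd, succ_nsmul]
      abel
  rw [hpow, nsmul_sub, smul_comm n i, hn, smul_zero, sub_zero, add_zero]

/-- A relation for the generator of a cyclic image of a subgroup spreads to the subgroup. -/
theorem tame_relation {G H : Type*} [Group G] [Group H] (π : G →* H) (I : Subgroup G) {t φ₀ φ σ : G}
    {n : ℕ} (hgen : ∀ j ∈ I, π j ∈ Subgroup.zpowers (π t)) (hconj : π (φ₀ * t * φ₀⁻¹) = π t ^ n)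
    (hd : φ₀⁻¹ * φ ∈ I) (hσ : σ ∈ I) : π (φ * σ * φ⁻¹) = π σ ^ n := by
  obtain ⟨l₁, hl₁⟩ := Subgroup.mem_zpowers_iff.mp (hgen _ hd)
  obtain ⟨l₂, hl₂⟩ := Subgroup.mem_zpowers_iff.mp (hgen _ hσ)
  rw [map_mul, map_mul, map_inv] at hconj
  have e : φ * σ * φ⁻¹ = φ₀ * ((φ₀⁻¹ * φ) * σ * (φ₀⁻¹ * φ)⁻¹) * φ₀⁻¹ := by group
  rw [e, map_mul π, map_mul π, map_mul π, map_mul π, map_inv, map_inv, ← hl₁, ← hl₂,
    ((Commute.refl (π t)).zpow_zpow l₁ l₂).eq, mul_inv_cancel_right, ← conj_zpow, hconj,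
    ← zpow_natCast, ← zpow_natCast, ← zpow_mul, ← zpow_mul, mul_comm]

variable {N : ℕ} [NeZero N] {P : ℕ} [Fact P.Prime] (M : Attach.TorsionModel N P)
  (hG : Attach.TorsionGalois N P) (S : Submodule (algA M) (Vt M))

/-- The lattice vectors of a subspace. -/
def lat : Submodule ℤ_[P] (Tlat M) := (S.restrictScalars ℤ_[P]).comap (toVt M)

theorem mem_lat {x : Tlat M} : x ∈ lat M S ↔ toVt M x ∈ S := Iff.rfl

theorem pow_smul_mem_iff (k : ℕ) (v : Vt M) : ((P : ℚ_[P]) ^ k) • v ∈ S ↔ v ∈ S :=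
  ⟨fun h => by
    have h1 := (S.restrictScalars ℚ_[P]).smul_mem ((P : ℚ_[P]) ^ k)⁻¹ h
    rwa [inv_smul_smul₀ (pow_ne_zero k (by exact_mod_cast (Fact.out : P.Prime).ne_zero))] at h1,
    fun h => (S.restrictScalars ℚ_[P]).smul_mem _ h⟩

theorem lat_saturated {k : ℕ} {x : Tlat M} (hx : ((P : ℤ_[P]) ^ k) • x ∈ lat M S) :
    x ∈ lat M S := by
  rw [mem_lat, ← pow_smul_toVt] at hx
  exact (pow_smul_mem_iff M S k _).mp hx

theorem exists_pow_smul_mem_lat {v : Vt M} (hv : v ∈ S) :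
    ∃ (k : ℕ) (x : Tlat M), x ∈ lat M S ∧ ((P : ℚ_[P]) ^ k) • v = toVt M x := by
  obtain ⟨k, x, he⟩ := exists_pow_smul_eq_toVt M v
  exact ⟨k, x, by rw [mem_lat, ← he]; exact (pow_smul_mem_iff M S k v).mpr hv, he⟩

theorem finrank_lat :
    Module.finrank ℤ_[P] (lat M S) = Module.finrank ℚ_[P] (S.restrictScalars ℚ_[P]) := by
  classical
  let e := Module.finBasis ℤ_[P] (lat M S)
  let u : Fin (Module.finrank ℤ_[P] (lat M S)) → Vt M := fun i => toVt M (e i : Tlat M)
  have hu : LinearIndependent ℚ_[P] u := by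
    refine (LinearIndependent.iff_fractionRing ℤ_[P] ℚ_[P]).mp ?_
    refine e.linearIndependent.map' ((toVt M).comp (lat M S).subtype)
      (LinearMap.ker_eq_bot.mpr fun a b h => Subtype.ext (toVt_injective M h))
  have hspan : S.restrictScalars ℚ_[P] = Submodule.span ℚ_[P] (Set.range u) := by
    refine le_antisymm (fun v hv => ?_)
      (Submodule.span_le.mpr (by rintro _ ⟨i, rfl⟩; exact (e i).2))
    obtain ⟨k, x, hx, he⟩ := exists_pow_smul_mem_lat M S hv
    have hmem : toVt M x ∈ Submodule.span ℚ_[P] (Set.range u) := by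
      have h1 : toVt M x = ((toVt M).comp (lat M S).subtype) ⟨x, hx⟩ := rfl
      rw [h1, ← e.sum_repr ⟨x, hx⟩, map_sum]
      refine Submodule.sum_mem _ fun i _ => ?_
      rw [map_smul]
      exact Submodule.smul_of_tower_mem _ _ (Submodule.subset_span ⟨i, rfl⟩)
    rw [← he] at hmem
    have h2 := Submodule.smul_mem _ ((P : ℚ_[P]) ^ k)⁻¹ hmem
    rwa [inv_smul_smul₀ (pow_ne_zero k (by exact_mod_cast (Fact.out : P.Prime).ne_zero))] at h2
  rw [hspan, finrank_span_eq_card hu, Fintype.card_fin]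

theorem eq_zero_of_forall_ptP {x : Tlat M} (h : ∀ n, ptP M n x = 0) : x = 0 :=
  funext fun i => PadicInt.ext_of_toZModPow.mp fun n => by
    rw [Pi.zero_apply, map_zero]
    exact (ptP_eq_zero_iff M n x).mp (h n) i

theorem exists_pow_smul_of_ptP_eq_zero {n : ℕ} {x : Tlat M} (h : ptP M n x = 0) :
    ∃ y : Tlat M, x = ((P : ℤ_[P]) ^ n) • y := by
  have hd : ∀ i, (P : ℤ_[P]) ^ n ∣ x i := fun i => by
    rw [← Ideal.mem_span_singleton, ← PadicInt.ker_toZModPow, RingHom.mem_ker]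
    exact (ptP_eq_zero_iff M n x).mp h i
  choose y hy using hd
  exact ⟨y, funext fun i => hy i⟩

/-- Stability under Galois. -/
def GalStable : Prop := ∀ σ : Γℚ, ∀ v ∈ S, galV M hG σ v ∈ S

variable {M hG S}

theorem GalStable.repPadic_mem (hS : GalStable M hG S) (σ : Γℚ) {x : Tlat M} (hx : x ∈ lat M S) :
    (M.repPadic σ).mulVec x ∈ lat M S := by
  rw [mem_lat, ← galV_toVt M hG]
  exact hS σ _ hx

variable (M hG S)

/-- An operator identity on the lattice holds on the subspace. -/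
theorem galV_eq_self_of_lat {σ : Γℚ} (h : ∀ x ∈ lat M S, (M.repPadic σ).mulVec x = x) {v : Vt M}
    (hv : v ∈ S) : galV M hG σ v = v := by
  obtain ⟨k, x, hx, he⟩ := exists_pow_smul_mem_lat M S hv
  refine smul_right_injective (Vt M)
    (pow_ne_zero k (by exact_mod_cast (Fact.out : P.Prime).ne_zero) : ((P : ℚ_[P]) ^ k) ≠ 0) ?_
  show ((P : ℚ_[P]) ^ k) • galV M hG σ v = ((P : ℚ_[P]) ^ k) • v
  rw [← galV_scalar_smul M hG, he, galV_toVt, h x hx]

theorem galV_inv_apply (σ : Γℚ) (v : Vt M) : galV M hG σ⁻¹ (galV M hG σ v) = v := by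
  rw [← Module.End.mul_apply, ← map_mul, inv_mul_cancel, map_one, Module.End.one_apply]

theorem galV_apply_inv (σ : Γℚ) (v : Vt M) : galV M hG σ (galV M hG σ⁻¹ v) = v := by
  rw [← Module.End.mul_apply, ← map_mul, mul_inv_cancel, map_one, Module.End.one_apply]

theorem galV_mul_apply (σ τ : Γℚ) (v : Vt M) :
    galV M hG (σ * τ) v = galV M hG σ (galV M hG τ v) := by
  rw [map_mul, Module.End.mul_apply]

/-- Inertia away from `N P` is trivial. -/
theorem repPadic_inertia (hG : Attach.TorsionGalois N P) {q : ℕ} (hq : q.Prime) (hqN : ¬ q ∣ N)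
    (hqP : q ≠ P) {A : ValuationSubring Qbar} (hA : A.LiesOverPrime q) {σ : Γℚ}
    (hσ : σ ∈ A.inertiaSubgroupIn ℚ) (x : Tlat M) : (M.repPadic σ).mulVec x = x := by
  have hqNp : ¬ q ∣ N * P := fun h => (hq.dvd_mul.mp h).elim hqN
    fun h => hqP ((Nat.prime_dvd_prime_iff_eq hq Fact.out).mp h)
  refine sub_eq_zero.mp (eq_zero_of_forall_ptP M fun n => ?_)
  rw [map_sub, ← smul_ptP, hG.unramified q hq hqNp A hA σ hσ _ ⟨n, ptP_torsion M n x⟩, sub_self]

/-- Inertia at the level is unipotent on the Tate module. -/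
theorem galV_unipotent (hU : UnipotentInertia N P) {A : ValuationSubring Qbar}
    (hA : A.LiesOverPrime N) {σ : Γℚ} (hσ : σ ∈ A.inertiaSubgroupIn ℚ) (v : Vt M) :
    galV M hG σ (galV M hG σ v - v) = galV M hG σ v - v := by
  obtain ⟨k, x, he⟩ := exists_pow_smul_eq_toVt M v
  have hx : (M.repPadic σ).mulVec ((M.repPadic σ).mulVec x - x) - ((M.repPadic σ).mulVec x - x)
      = 0 := eq_zero_of_forall_ptP M fun n => by
    have h := hU A hA σ hσ (ptP M n x) ⟨n, ptP_torsion M n x⟩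
    rw [map_sub, ← smul_ptP, map_sub, ← smul_ptP, smul_sub]
    rw [← h]
    abel
  refine smul_right_injective (Vt M)
    (pow_ne_zero k (by exact_mod_cast (Fact.out : P.Prime).ne_zero) : ((P : ℚ_[P]) ^ k) ≠ 0) ?_
  show ((P : ℚ_[P]) ^ k) • galV M hG σ (galV M hG σ v - v) = ((P : ℚ_[P]) ^ k) • _
  rw [← galV_scalar_smul M hG, smul_sub, ← galV_scalar_smul M hG, he, galV_toVt, ← map_sub,
    galV_toVt,
    sub_eq_zero.mp hx]

/-! ### Finite levels -/

/-- The points of level `Pⁿ` of the subspace. -/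
def levelPts (n : ℕ) : AddSubgroup (JZero N) := (lat M S).toAddSubgroup.map (ptP M n)

theorem mem_levelPts {n : ℕ} {z : JZero N} :
    z ∈ levelPts M S n ↔ ∃ x ∈ lat M S, ptP M n x = z := Iff.rfl

theorem finite_levelPts (n : ℕ) : Finite (levelPts M S n) := by
  have : NeZero (P ^ n) := ⟨pow_ne_zero n (Fact.out : P.Prime).ne_zero⟩
  refine Set.Finite.to_subtype (Set.Finite.subset
    (Set.finite_range fun w : Fin M.rk → ZMod (P ^ n) => M.pt n fun i => ((w i).val : ℤ)) ?_)
  rintro _ ⟨x, -, rfl⟩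
  exact ⟨fun i => PadicInt.toZModPow n (x i), rfl⟩

variable {S} (hS : GalStable M hG S)

include hS in
theorem smul_mem_levelPts (n : ℕ) (σ : Γℚ) (z : levelPts M S n) :
    σ • (z : JZero N) ∈ levelPts M S n := by
  obtain ⟨x, hx, he⟩ := (mem_levelPts M S).mp z.2
  exact ⟨_, hS.repPadic_mem σ hx, by rw [← smul_ptP, he]⟩

/-- Galois permutes the points of a level. -/
def levelHom (n : ℕ) : Γℚ →* Equiv.Perm (levelPts M S n) where
  toFun σ :=
    { toFun := fun z => ⟨σ • (z : JZero N), smul_mem_levelPts M hG hS n σ z⟩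
      invFun := fun z => ⟨σ⁻¹ • (z : JZero N), smul_mem_levelPts M hG hS n σ⁻¹ z⟩
      left_inv := fun z => Subtype.ext (inv_smul_smul σ (z : JZero N))
      right_inv := fun z => Subtype.ext (smul_inv_smul σ (z : JZero N)) }
  map_one' := Equiv.ext fun _ => Subtype.ext (one_smul _ _)
  map_mul' _ _ := Equiv.ext fun _ => Subtype.ext (mul_smul _ _ _)

theorem levelHom_finite_level (n : ℕ) :
    ∃ E : IntermediateField ℚ Qbar, FiniteDimensional ℚ E ∧
      ∀ σ : Γℚ, (∀ a ∈ E, σ a = a) → levelHom M hG hS n σ = 1 := by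
  obtain ⟨E, hE, h⟩ := M.rep_eq_one_of_finite_level hG n
  refine ⟨E, hE, fun σ hσ => Equiv.ext fun z => Subtype.ext ?_⟩
  obtain ⟨x, -, he⟩ := (mem_levelPts M S).mp z.2
  show σ • (z : JZero N) = z
  rw [← he, smul_ptP]
  refine sub_eq_zero.mp ?_
  rw [← map_sub, ptP_eq_zero_iff]
  intro i
  rw [Pi.sub_apply, map_sub, RingHom.map_mulVec, sub_eq_zero]
  have hm : (M.repPadic σ).map (PadicInt.toZModPow n) = 1 := (M.repPadic_mod n σ).trans (h σ hσ)
  rw [hm, Matrix.one_mulVec]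
  rfl

variable {M hG} in
theorem eq_on_lat_of_levelHom {σ τ : Γℚ} (h : ∀ n, levelHom M hG hS n σ = levelHom M hG hS n τ)
    {x : Tlat M} (hx : x ∈ lat M S) : (M.repPadic σ).mulVec x = (M.repPadic τ).mulVec x :=
  sub_eq_zero.mp (eq_zero_of_forall_ptP M fun n => by
    rw [map_sub, ← smul_ptP, ← smul_ptP, sub_eq_zero]
    exact congrArg Subtype.val
      (Equiv.congr_fun (h n) ⟨ptP M n x, x, hx, rfl⟩))

include hS in
/-- A subspace unramified at `N` and at `P` is fixed by Galois. -/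
theorem galV_eq_self_of_unramified
    (hbad : ∀ q : ℕ, q.Prime → (q ∣ N ∨ q = P) → ∀ A : ValuationSubring Qbar, A.LiesOverPrime q →
      ∀ σ ∈ A.inertiaSubgroupIn ℚ, ∀ v ∈ S, galV M hG σ v = v)
    (g : Γℚ) {v : Vt M} (hv : v ∈ S) : galV M hG g v = v := by
  refine galV_eq_self_of_lat M hG S (fun x hx => ?_) hv
  have h1 : ∀ n, levelHom M hG hS n g = levelHom M hG hS n 1 := fun n => by
    rw [map_one]
    refine Gal.eq_one_of_unramified _ (levelHom_finite_level M hG hS n) (fun q hq A hA σ hσ => ?_) g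
    refine Equiv.ext fun z => Subtype.ext ?_
    obtain ⟨y, hy, he⟩ := (mem_levelPts M S).mp z.2
    show σ • (z : JZero N) = z
    rw [← he, smul_ptP]
    congr 1
    by_cases hb : q ∣ N ∨ q = P
    · refine toVt_injective M ?_
      rw [← galV_toVt M hG]
      exact hbad q hq hb A hA σ hσ _ hy
    · push Not at hb
      exact repPadic_inertia M hG hq hb.1 hb.2 hA hσ y
  rw [eq_on_lat_of_levelHom hS h1 hx, map_one, Matrix.one_mulVec]

include hS in
/-- The tame relation on a stable lattice. -/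
theorem galV_tame (hT : TameInertia N P) (hU : UnipotentInertia N P)
    {A : ValuationSubring Qbar} (hA : A.LiesOverPrime N) {φ : Γℚ} (hφ : A.IsFrobeniusAt φ N)
    {σ : Γℚ} (hσ : σ ∈ A.inertiaSubgroupIn ℚ) {v : Vt M} (hv : v ∈ S) :
    galV M hG (φ * σ * φ⁻¹) v = galV M hG (σ ^ N) v := by
  obtain ⟨t, φ₀, ht, hφ₀, hrel⟩ := hT A hA
  have hun : ∀ n, levelHom M hG hS n (φ * σ * φ⁻¹) = levelHom M hG hS n (σ ^ N) := fun n => by
    have := finite_levelPts M S n
    have hIP : IsPGroup P ((A.inertiaSubgroupIn ℚ).map (levelHom M hG hS n)) := by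
      rintro ⟨_, i, hi, rfl⟩
      refine ⟨n, Subtype.ext ?_⟩
      rw [SubmonoidClass.coe_pow, OneMemClass.coe_one]
      refine Equiv.ext fun z => Subtype.ext ?_
      rw [← map_pow]
      show (i ^ (P ^ n)) • (z : JZero N) = z
      obtain ⟨y, hy, he⟩ := (mem_levelPts M S).mp z.2
      have hn : P ^ n • (z : JZero N) = 0 := by rw [← he]; exact ptP_torsion M n y
      exact pow_smul_eq_self_of_unipotent i _ _ hn (hU A hA i hi _ ⟨n, hn⟩)
    obtain ⟨hgen, hconj⟩ := hrel _ inferInstance inferInstance _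
      (levelHom_finite_level M hG hS n) hIP
    rw [map_pow]
    exact tame_relation _ (A.inertiaSubgroupIn ℚ) hgen hconj
      (Gal.inv_mul_mem_inertia hφ₀ hφ) hσ
  obtain ⟨k, x, hx, he⟩ := exists_pow_smul_mem_lat M S hv
  refine smul_right_injective (Vt M)
    (pow_ne_zero k (by exact_mod_cast (Fact.out : P.Prime).ne_zero) : ((P : ℚ_[P]) ^ k) ≠ 0) ?_
  show ((P : ℚ_[P]) ^ k) • galV M hG _ v = ((P : ℚ_[P]) ^ k) • galV M hG _ v
  rw [← galV_scalar_smul M hG, ← galV_scalar_smul M hG, he, galV_toVt, galV_toVt,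
    eq_on_lat_of_levelHom hS hun hx]

end Fermat.Agent.Mazur
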