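import Fermat.Agent.Mazur.EisensteinComponent.Global

/-!
# The ordinary line of the Eisenstein component

Inside `V[𝔭]` the reduction kernel at a place above `P` cuts out a line, together with a socle
element of the Hecke algebra projecting onto it.
-/

noncomputable section

open ModularCurve CongruenceSubgroup

namespace Fermat.Agent.Mazur

local notation "Qbar" => AlgebraicClosure ℚ
local notation "Γℚ" => AlgebraicClosure ℚ ≃ₐ[ℚ] AlgebraicClosure ℚ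

variable {N : ℕ} [NeZero N] {P : ℕ} [Fact P.Prime] (M : Attach.TorsionModel N P)
  (hG : Attach.TorsionGalois N P) (𝔭 : Ideal (algA M))

/-- The degree of the residue field of the prime over `ℚ_P`. -/
def resDeg : ℕ := Module.finrank ℚ_[P] (algA M ⧸ 𝔭)

theorem resDeg_pos (h𝔭 : 𝔭.IsMaximal) : 0 < resDeg M 𝔭 := by
  have := h𝔭
  let := Ideal.Quotient.field 𝔭
  exact Module.finrank_pos

/-- `e` and `C` cut out the ordinary line of `V[𝔭]` at `A`. -/
structure IsComponent (A : ValuationSubring Qbar) (C₀ : Submodule (algA M) (Vt M)) (e : algA M)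
    (C : Submodule (algA M) (Vt M)) : Prop where
  isMaximal : 𝔭.IsMaximal
  e_ne : e ≠ 0
  e_kills : ∀ p ∈ 𝔭, p * e = 0
  surj : ∀ w ∈ torV M 𝔭, ∃ v, e • v = w
  le_torV : C ≤ torV M 𝔭
  finrank_torV : Module.finrank ℚ_[P] ((torV M 𝔭).restrictScalars ℚ_[P]) = 2 * resDeg M 𝔭
  finrank_C : Module.finrank ℚ_[P] (C.restrictScalars ℚ_[P]) = resDeg M 𝔭
  stable_C : ∀ σ ∈ A.decompositionSubgroup ℚ, ∀ x ∈ C, galV M hG σ x ∈ C
  inertia_C : ∀ σ ∈ A.inertiaSubgroupIn ℚ, ∀ x ∈ C, galV M hG σ x = chiQ P σ • x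
  inertia_quot : ∀ σ ∈ A.inertiaSubgroupIn ℚ, ∀ w ∈ torV M 𝔭, galV M hG σ w - w ∈ C
  map_red : ∀ v ∈ C₀, e • v ∈ C
  exists_ne : ∃ σ ∈ A.inertiaSubgroupIn ℚ, chiQ P σ ≠ 1

variable {M 𝔭}

theorem resDeg_le_of_ne_bot (h𝔭 : 𝔭.IsMaximal) {S : Submodule (algA M) (Vt M)} (hS : S ≤ torV M 𝔭)
    {x : Vt M} (hx : x ∈ S) (hx0 : x ≠ 0) :
    resDeg M 𝔭 ≤ Module.finrank ℚ_[P] (S.restrictScalars ℚ_[P]) := by
  have := h𝔭
  exact finrank_quot_le 𝔭 hx hx0 fun y hy => (mem_torV M 𝔭).mp (hS hy)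

/-- A line of `V[𝔭]` is generated by any of its nonzero vectors. -/
theorem exists_smul_of_mem_line (h𝔭 : 𝔭.IsMaximal) {S : Submodule (algA M) (Vt M)}
    (hS : S ≤ torV M 𝔭) (hd : Module.finrank ℚ_[P] (S.restrictScalars ℚ_[P]) ≤ resDeg M 𝔭)
    {x : Vt M} (hx : x ∈ S) (hx0 : x ≠ 0) {y : Vt M} (hy : y ∈ S) : ∃ a : algA M, a • x = y := by
  have hle : Submodule.span (algA M) {x} ≤ S :=
    Submodule.span_le.mpr (Set.singleton_subset_iff.mpr hx)
  have h1 := Submodule.eq_of_le_of_finrank_le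
    (show (Submodule.span (algA M) {x}).restrictScalars ℚ_[P] ≤ S.restrictScalars ℚ_[P] from hle)
    (hd.trans (resDeg_le_of_ne_bot h𝔭 (hle.trans hS) (Submodule.mem_span_singleton_self x) hx0))
  have h2 : y ∈ (Submodule.span (algA M) {x}).restrictScalars ℚ_[P] := h1 ▸ hy
  exact Submodule.mem_span_singleton.mp h2

/-- Coordinates modulo a proper submodule. -/
theorem mem_of_smul_mem (h𝔭 : 𝔭.IsMaximal) {S : Submodule (algA M) (Vt M)} {w : Vt M}
    (hw : w ∈ torV M 𝔭) (hwS : w ∉ S) {a : algA M} (ha : a • w ∈ S) : a ∈ 𝔭 := by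
  by_contra hna
  obtain ⟨b, i, hi, hbi⟩ := h𝔭.exists_inv hna
  refine hwS ?_
  have h1 : w = b • a • w := by
    conv_lhs => rw [← one_smul (algA M) w, ← hbi, add_smul, (mem_torV M 𝔭).mp hw i hi, add_zero,
      mul_smul]
  rw [h1]
  exact S.smul_mem _ ha

theorem finrank_le_of_ne_top (h𝔭 : 𝔭.IsMaximal)
    (hW : Module.finrank ℚ_[P] ((torV M 𝔭).restrictScalars ℚ_[P]) = 2 * resDeg M 𝔭)
    {S : Submodule (algA M) (Vt M)} (hS : S ≤ torV M 𝔭) (hne : S ≠ torV M 𝔭) :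
    Module.finrank ℚ_[P] (S.restrictScalars ℚ_[P]) ≤ resDeg M 𝔭 := by
  obtain ⟨w, hw, hwS⟩ := SetLike.exists_of_lt (lt_of_le_of_ne hS hne)
  have hdis : S.restrictScalars ℚ_[P] ⊓ (Submodule.span (algA M) {w}).restrictScalars ℚ_[P] =
      ⊥ := by
    refine eq_bot_iff.mpr fun x hx => ?_
    obtain ⟨hxS, hxw⟩ := hx
    obtain ⟨a, rfl⟩ := Submodule.mem_span_singleton.mp hxw
    exact (Submodule.mem_bot _).mpr ((mem_torV M 𝔭).mp hw a (mem_of_smul_mem h𝔭 hw hwS hxS))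
  have hsum := Submodule.finrank_sup_add_finrank_inf_eq (S.restrictScalars ℚ_[P])
    ((Submodule.span (algA M) {w}).restrictScalars ℚ_[P])
  rw [hdis, finrank_bot, add_zero] at hsum
  have hw' : Submodule.span (algA M) {w} ≤ torV M 𝔭 :=
    Submodule.span_le.mpr (Set.singleton_subset_iff.mpr hw)
  have h1 := Submodule.finrank_mono (show S.restrictScalars ℚ_[P] ⊔
    (Submodule.span (algA M) {w}).restrictScalars ℚ_[P] ≤ (torV M 𝔭).restrictScalars ℚ_[P] from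
      sup_le hS hw')
  have h2 := resDeg_le_of_ne_bot h𝔭 hw' (Submodule.mem_span_singleton_self w)
    (fun h0 => hwS (h0 ▸ S.zero_mem))
  omega

/-- A decomposition along a line. -/
theorem exists_smul_add_of_notMem (h𝔭 : 𝔭.IsMaximal)
    (hW : Module.finrank ℚ_[P] ((torV M 𝔭).restrictScalars ℚ_[P]) = 2 * resDeg M 𝔭)
    {S : Submodule (algA M) (Vt M)} (hS : S ≤ torV M 𝔭)
    (hdim : Module.finrank ℚ_[P] (S.restrictScalars ℚ_[P]) = resDeg M 𝔭) {w : Vt M}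
    (hw : w ∈ torV M 𝔭) (hwS : w ∉ S) {y : Vt M} (hy : y ∈ torV M 𝔭) :
    ∃ a : algA M, y - a • w ∈ S := by
  have hle : S ⊔ Submodule.span (algA M) {w} ≤ torV M 𝔭 :=
    sup_le hS (Submodule.span_le.mpr (Set.singleton_subset_iff.mpr hw))
  have heq : S ⊔ Submodule.span (algA M) {w} = torV M 𝔭 := by
    by_contra hne
    have h1 := finrank_le_of_ne_top h𝔭 hW hle hne
    have h2 : S.restrictScalars ℚ_[P] <
        (S ⊔ Submodule.span (algA M) {w}).restrictScalars ℚ_[P] :=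
      lt_of_le_of_ne (fun x hx => Submodule.mem_sup_left (T := Submodule.span (algA M) {w}) hx)
        fun e => hwS (e.ge (Submodule.mem_sup_right (Submodule.mem_span_singleton_self w)))
    have := Submodule.finrank_lt_finrank_of_lt h2
    omega
  rw [← heq] at hy
  obtain ⟨s, hs, z, hz, rfl⟩ := Submodule.mem_sup.mp hy
  obtain ⟨a, rfl⟩ := Submodule.mem_span_singleton.mp hz
  exact ⟨a, by rwa [add_sub_cancel_right]⟩

variable (M 𝔭)
variable (A : ValuationSubring Qbar) (hh : HeckeOperatorsCommuteBar N)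
  (hker : HeckePreservesKernel N) (hA : A.LiesOverPrime P) (hPN : ¬ P ∣ N)
  (hred : ReductionFacts N) (hU : UnipotentInertia N P) (hNp : N.Prime)
  (h𝔭 : IsEisPrime M A hh hker hA hPN 𝔭)

include hG hh hker hA hPN hred hU hNp h𝔭 in
/-- A rank two action gives an ordinary line in `V[𝔭]` with its socle element. -/
theorem exists_isComponent (hR : RankTwoAction N M.hecke) :
    ∃ e C, IsComponent M hG 𝔭 A (redKerV M A hh hker hA hPN) e C := by
  have := h𝔭.isMaximal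
  obtain ⟨η, hη⟩ := isDualPair_of_rankTwo M hR
  have hW : Module.finrank ℚ_[P] ((torV M 𝔭).restrictScalars ℚ_[P]) = 2 * resDeg M 𝔭 :=
    hη.finrank_torsion 𝔭
  have hd0 := resDeg_pos M 𝔭 h𝔭.isMaximal
  obtain ⟨w₀, hw₀, hw₀0⟩ := Submodule.exists_mem_ne_zero_of_ne_bot (p := torV M 𝔭) (fun h => by
    rw [h, Submodule.restrictScalars_bot, finrank_bot] at hW; omega)
  obtain ⟨s, hs, hsχ, w₁, hw₁, hw₁'⟩ :=
    exists_inertia_ne M hG 𝔭 A hh hker hA hPN hred h𝔭 hU hNp hw₀ hw₀0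
  set C₀ := redKerV M A hh hker hA hPN with hC₀
  let π : Module.End (algA M) (Vt M) := galV M hG s - 1
  have hπ : ∀ v, π v = galV M hG s v - v := fun v => rfl
  have hc0 : chiQ P s - 1 ≠ 0 := sub_ne_zero.mpr hsχ
  obtain ⟨e, he, hpe, hmap, hdim⟩ := hη.exists_socle_element 𝔭 C₀ h𝔭.visible π
    (fun v => galV_sub_mem_redKerV M A hh hker hA hPN hG hred hs v) (chiQ P s - 1) hc0
    (fun w hw => by
      rw [hπ, hπ, inertia_quad M hG 𝔭 A hh hker hA hPN hred h𝔭 hs ((mem_torV M 𝔭).mpr hw),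
        sub_smul, one_smul])
    ⟨w₁, (mem_torV M 𝔭).mp hw₁, fun h0 => hw₁' (sub_eq_zero.mp h0)⟩
  have hsurj : ∀ w ∈ torV M 𝔭, ∃ v, e • v = w := fun w hw =>
    hη.exists_smul_eq 𝔭 he hpe ((mem_torV M 𝔭).mp hw)
  let C : Submodule (algA M) (Vt M) := C₀.map (LinearMap.lsmul (algA M) (Vt M) e)
  have hCmem : ∀ v ∈ C₀, e • v ∈ C := fun v hv => ⟨v, hv, rfl⟩
  have hCle : C ≤ torV M 𝔭 := by
    rintro _ ⟨v, -, rfl⟩
    exact (mem_torV M 𝔭).mpr fun p hp => by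
      rw [LinearMap.lsmul_apply, ← mul_smul, hpe p hp, zero_smul]
  have hquot : ∀ σ ∈ A.inertiaSubgroupIn ℚ, ∀ w ∈ torV M 𝔭, galV M hG σ w - w ∈ C := by
    intro σ hσ w hw
    obtain ⟨v, rfl⟩ := hsurj w hw
    rw [map_smul, ← smul_sub]
    exact hCmem _ (galV_sub_mem_redKerV M A hh hker hA hPN hG hred hσ v)
  have hCs : ∀ x ∈ C, galV M hG s x = chiQ P s • x := by
    rintro _ ⟨v, hv, rfl⟩
    have h1 := hmap v hv
    rw [hπ, sub_smul, one_smul, sub_left_inj] at h1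
    exact h1
  have hCdim : Module.finrank ℚ_[P] (C.restrictScalars ℚ_[P]) = resDeg M 𝔭 := by
    refine le_antisymm ((Submodule.finrank_mono ?_).trans hdim.le)
      (resDeg_le_of_ne_bot h𝔭.isMaximal hCle (hquot s hs w₁ hw₁) fun h0 => hw₁' (sub_eq_zero.mp h0))
    intro x hx
    refine ⟨hCle hx, ?_⟩
    obtain ⟨v, hv, rfl⟩ := hx
    rw [SetLike.mem_coe, LinearMap.mem_ker, LinearMap.lsmul_apply]
    show π (e • v) - algebraMap ℚ_[P] (algA M) (chiQ P s - 1) • (e • v) = 0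
    rw [algebraMap_smul, hmap v hv, sub_self]
  have hstab : ∀ σ ∈ A.decompositionSubgroup ℚ, ∀ x ∈ C, galV M hG σ x ∈ C := by
    rintro σ hσ _ ⟨v, hv, rfl⟩
    rw [LinearMap.lsmul_apply, map_smul]
    exact hCmem _ (galV_mem_redKerV M A hh hker hA hPN hG hred hσ hv)
  obtain ⟨x₁, hx₁, hx₁0⟩ : ∃ x ∈ C, x ≠ 0 :=
    ⟨_, hquot s hs w₁ hw₁, fun h0 => hw₁' (sub_eq_zero.mp h0)⟩
  have hline := fun {y} (hy : y ∈ C) =>
    exists_smul_of_mem_line h𝔭.isMaximal hCle hCdim.le hx₁ hx₁0 hy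
  have hdich : ∀ σ ∈ A.inertiaSubgroupIn ℚ,
      galV M hG σ x₁ = x₁ ∨ galV M hG σ x₁ = chiQ P σ • x₁ := by
    intro σ hσ
    obtain ⟨a, ha⟩ := hline (hstab σ (Gal.mem_inertia_iff.mp hσ).1 x₁ hx₁)
    have h1 := inertia_quad M hG 𝔭 A hh hker hA hPN hred h𝔭 hσ (hCle hx₁)
    rw [← ha, map_sub, map_smul, ← ha, ← algebraMap_smul (algA M) (chiQ P σ)] at h1
    have h2 : ((a - 1) * (a - algebraMap ℚ_[P] (algA M) (chiQ P σ))) • x₁ = 0 := by
      rw [mul_comm, mul_smul, sub_smul a (algebraMap ℚ_[P] (algA M) (chiQ P σ)), sub_smul a 1,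
        one_smul, ← h1, smul_sub, sub_self]
    rcases h𝔭.isMaximal.isPrime.mem_or_mem
      (ker_smul_eq 𝔭 hx₁0 ((mem_torV M 𝔭).mp (hCle hx₁)) _ h2) with h | h
    · left
      have h3 := (mem_torV M 𝔭).mp (hCle hx₁) _ h
      rwa [sub_smul, one_smul, sub_eq_zero, ha] at h3
    · right
      have h3 := (mem_torV M 𝔭).mp (hCle hx₁) _ h
      rwa [sub_smul_eq, sub_eq_zero, ha] at h3
  refine ⟨e, C, ⟨h𝔭.isMaximal, he, hpe, hsurj, hCle, hW, hCdim, hstab, fun σ hσ x hx => ?_, hquot,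
    hCmem, s, hs, hsχ⟩⟩
  obtain ⟨b, rfl⟩ := hline hx
  rw [map_smul, smul_comm (chiQ P σ) b x₁]
  congr 1
  rcases hdich σ hσ with h | h
  · by_cases hχ : chiQ P σ = 1
    · rw [h, hχ, one_smul]
    exfalso
    have hσs := hdich (σ * s) (mul_mem hσ hs)
    rw [galV_mul_apply, hCs x₁ hx₁, galV_scalar_smul, h, map_mul] at hσs
    rcases hσs with e1 | e1
    · exact hc0 (sub_eq_zero.mpr (smul_left_injective ℚ_[P] hx₁0
        (e1.trans (one_smul ℚ_[P] x₁).symm)))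
    · have e2 := smul_left_injective ℚ_[P] hx₁0 e1
      exact hχ (mul_right_cancel₀ (IsUnit.map (chiQ P) (Group.isUnit s)).ne_zero
        (e2.symm.trans (one_mul _).symm))
  · exact h

end Fermat.Agent.Mazur
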