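import Mathlib.Algebra.Module.Torsion.Basic
import Mathlib.LinearAlgebra.Dual.Lemmas
import Mathlib.LinearAlgebra.FiniteDimensional.Lemmas
import Mathlib.RingTheory.Finiteness.Nakayama
import Mathlib.RingTheory.Ideal.Quotient.Operations

/-!
# Modules which are two copies of the dual of an algebra

Linear algebra over a finite commutative algebra `A` for a module identified with two copies of
the dual of `A`: torsion by a maximal ideal, its dimension, and a socle element adapted to a
submodule.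
-/

noncomputable section

namespace Fermat.Agent.Mazur

variable {k A V : Type*} [Field k] [CommRing A] [Algebra k A] [Module.Finite k A]
  [AddCommGroup V] [Module k V] [Module A V] [IsScalarTower k A V] [Module.Finite k V]

/-- A functional with value one at a nonzero vector. -/
theorem exists_dual_eq_one {K M : Type*} [Field K] [AddCommGroup M] [Module K M] {x : M}
    (hx : x ≠ 0) : ∃ f : Module.Dual K M, f x = 1 := by
  obtain ⟨φ, hφ, -⟩ := Submodule.exists_dual_map_eq_bot_of_notMem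
    (show x ∉ (⊥ : Submodule K M) from fun hm => hx ((Submodule.mem_bot K).mp hm)) inferInstance
  exact ⟨(φ x)⁻¹ • φ, inv_mul_cancel₀ hφ⟩

/-- `η` identifies `V` with two copies of the dual of `A`. -/
structure IsDualPair (A : Type*) [CommRing A] [Algebra k A] [Module A V]
    (η : Fin 2 → (V →ₗ[k] k)) : Prop where
  sep : ∀ v : V, (∀ i (a : A), η i (a • v) = 0) → v = 0
  rank : Module.finrank k V = 2 * Module.finrank k A

/-- `v ↦ (a ↦ ηᵢ (a v))`. -/
def pairMap (η : Fin 2 → (V →ₗ[k] k)) : V →ₗ[k] (Fin 2 → Module.Dual k A) :=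
  LinearMap.pi fun i => ((η i).compRight k).comp
    (LinearMap.flip (Algebra.lsmul k k V).toLinearMap : V →ₗ[k] (A →ₗ[k] V))

omit [Module.Finite k A] [Module.Finite k V] in
theorem pairMap_apply (η : Fin 2 → (V →ₗ[k] k)) (v : V) (i : Fin 2) (a : A) :
    pairMap η v i a = η i (a • v) := rfl

variable {η : Fin 2 → (V →ₗ[k] k)} (h : IsDualPair A η)
include h

omit [Module.Finite k A] [Module.Finite k V] in
theorem IsDualPair.pairMap_injective : Function.Injective (pairMap (A := A) η) :=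
  (injective_iff_map_eq_zero _).mpr fun v hv => h.sep v fun i a => by
    rw [← pairMap_apply, hv]; rfl

theorem IsDualPair.pairMap_surjective : Function.Surjective (pairMap (A := A) η) :=
  (LinearMap.injective_iff_surjective_of_finrank_eq_finrank (by
    rw [h.rank, Module.finrank_pi_fintype, Fin.sum_univ_two, Subspace.dual_finrank_eq]
    omega)).mp h.pairMap_injective

/-- A vector killed by every element of `A[𝔭]` lies in `𝔭 V`. -/
theorem IsDualPair.mem_smul_top (𝔭 : Ideal A) (v : V)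
    (hv : ∀ e : A, (∀ p ∈ 𝔭, p * e = 0) → e • v = 0) : v ∈ 𝔭 • (⊤ : Submodule A V) := by
  classical
  set M : Submodule A V := 𝔭 • ⊤ with hM
  by_contra hvM
  -- a functional killing `M` but not `v`
  have hvM' : v ∉ M.restrictScalars k := hvM
  obtain ⟨φ, hφv, hφM⟩ := Submodule.exists_dual_map_eq_bot_of_notMem hvM' inferInstance
  -- it comes from a pair of elements of `A`
  let Φ : (Fin 2 → A) →ₗ[k] Module.Dual k V :=
    LinearMap.mk₂ k (fun e w => ∑ i, η i (e i • w))
      (fun e e' w => by simp [add_smul, Finset.sum_add_distrib])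
      (fun r e w => by simp [mul_add])
      (fun e w w' => by simp [smul_add, Finset.sum_add_distrib])
      (fun r e w => by simp [smul_comm _ r w, mul_add])
  have hΦ : ∀ (e : Fin 2 → A) (w : V), Φ e w = ∑ i, η i (e i • w) := fun e w => rfl
  have hΦs : Function.Surjective Φ := by
    have hinj : Function.Injective Φ := by
      refine (injective_iff_map_eq_zero _).mpr fun e he => ?_
      by_contra hne
      obtain ⟨j, hj⟩ := Function.ne_iff.mp hne
      obtain ⟨f, hf⟩ := exists_dual_eq_one (K := k) (show e j ≠ 0 from hj)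
      obtain ⟨w, hw⟩ := h.pairMap_surjective (Pi.single j f)
      have h1 := LinearMap.congr_fun he w
      rw [hΦ, Finset.sum_eq_single j (fun i _ hij => by
          rw [← pairMap_apply, hw, Pi.single_eq_of_ne hij]; rfl) (by simp),
        ← pairMap_apply, hw, Pi.single_eq_same, hf] at h1
      exact one_ne_zero h1
    exact (LinearMap.injective_iff_surjective_of_finrank_eq_finrank (by
      rw [Subspace.dual_finrank_eq, h.rank, Module.finrank_pi_fintype, Fin.sum_univ_two]
      omega)).mp hinj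
  obtain ⟨e, rfl⟩ := hΦs φ
  have hzero : ∀ x ∈ M, Φ e x = 0 := fun x hx => by
    have h2 : Φ e x ∈ (M.restrictScalars k).map (Φ e) := Submodule.mem_map_of_mem hx
    rw [hφM] at h2
    exact (Submodule.mem_bot k).mp h2
  clear_value Φ
  refine hφv ?_
  rw [hΦ]
  refine Finset.sum_eq_zero fun i _ => ?_
  rw [hv (e i) fun p hp => ?_, map_zero]
  -- `p * e i = 0`
  by_contra hne
  obtain ⟨f, hf⟩ := exists_dual_eq_one (K := k) hne
  obtain ⟨w, hw⟩ := h.pairMap_surjective (Pi.single i f)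
  have hmem : Φ e (p • w) = 0 := hzero _ (Submodule.smul_mem_smul hp Submodule.mem_top)
  rw [hΦ, Finset.sum_eq_single i (fun j _ hji => by
      rw [← mul_smul, ← pairMap_apply, hw, Pi.single_eq_of_ne hji]; rfl) (by simp),
    ← mul_smul, mul_comm (e i) p, ← pairMap_apply, hw, Pi.single_eq_same, hf] at hmem
  exact one_ne_zero hmem

variable (𝔭 : Ideal A) [h𝔭 : 𝔭.IsMaximal]

omit h in
/-- The annihilator of a nonzero vector killed by `𝔭` is `𝔭`. -/
theorem ker_smul_eq {M : Type*} [AddCommGroup M] [Module A M] {w : M} (hw : w ≠ 0)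
    (hp : ∀ p ∈ 𝔭, p • w = 0) (a : A) (ha : a • w = 0) : a ∈ 𝔭 := by
  let I : Ideal A := LinearMap.ker (LinearMap.toSpanSingleton A M w)
  have hle : 𝔭 ≤ I := fun p hp' => hp p hp'
  have hne : I ≠ ⊤ := fun e => hw (by
    simpa [I] using (e ▸ Submodule.mem_top : (1 : A) ∈ I))
  rw [h𝔭.eq_of_le hne hle]
  exact ha

omit [Module.Finite k A] h in
/-- A nonzero submodule killed by `𝔭` has dimension at least that of `A/𝔭`. -/
theorem finrank_quot_le {W : Submodule A V} {w : V} (hwW : w ∈ W) (hw : w ≠ 0)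
    (hW : ∀ x ∈ W, ∀ p ∈ 𝔭, p • x = 0) :
    Module.finrank k (A ⧸ 𝔭) ≤ Module.finrank k (W.restrictScalars k) := by
  let f : A →ₗ[A] W := LinearMap.toSpanSingleton A W ⟨w, hwW⟩
  have hk : LinearMap.ker f = 𝔭 := le_antisymm
    (fun a ha => ker_smul_eq 𝔭 hw (hW w hwW) a (congrArg Subtype.val ha))
    (fun p hp => Subtype.ext (hW w hwW p hp))
  let g : (A ⧸ 𝔭) →ₗ[A] W := Submodule.liftQ 𝔭 f hk.ge
  have hg : Function.Injective g :=
    LinearMap.ker_eq_bot.mp (Submodule.ker_liftQ_eq_bot _ _ _ hk.le)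
  exact LinearMap.finrank_le_finrank_of_injective (f := (g.restrictScalars k :
    (A ⧸ 𝔭) →ₗ[k] W.restrictScalars k)) hg

/-- `A[𝔭] • V = V[𝔭]`: every vector killed by `𝔭` is a multiple of a given socle element. -/
theorem IsDualPair.exists_smul_eq {e : A} (he : e ≠ 0) (hpe : ∀ p ∈ 𝔭, p * e = 0) {w : V}
    (hw : ∀ p ∈ 𝔭, p • w = 0) : ∃ v : V, e • v = w := by
  classical
  let me : A →ₗ[k] A := LinearMap.mulLeft k e
  have hker : LinearMap.ker me ≤ 𝔭.restrictScalars k := fun a ha =>
    ker_smul_eq 𝔭 he hpe a (by rw [smul_eq_mul, mul_comm]; exact ha)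
  obtain ⟨g, hg⟩ : ∃ g : Fin 2 → Module.Dual k A, ∀ i, (g i).comp me = pairMap η w i := by
    suffices hex : ∀ i, ∃ g : Module.Dual k A, g.comp me = pairMap η w i from
      ⟨fun i => (hex i).choose, fun i => (hex i).choose_spec⟩
    intro i
    have hle : LinearMap.ker me ≤ LinearMap.ker (pairMap (A := A) η w i) := fun a ha => by
      rw [LinearMap.mem_ker, pairMap_apply, hw a (hker ha), map_zero]
    let φ : LinearMap.range me →ₗ[k] k :=
      (Submodule.liftQ _ (pairMap (A := A) η w i) hle).comp me.quotKerEquivRange.symm.toLinearMap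
    obtain ⟨g, hg⟩ := φ.exists_extend
    refine ⟨g, LinearMap.ext fun a => ?_⟩
    have h1 := LinearMap.congr_fun hg ⟨me a, LinearMap.mem_range_self me a⟩
    refine h1.trans ?_
    show Submodule.liftQ _ _ hle (me.quotKerEquivRange.symm ⟨me a, _⟩) = _
    rw [LinearMap.quotKerEquivRange_symm_apply_image, Submodule.mkQ_apply, Submodule.liftQ_apply]
  obtain ⟨v, hv⟩ := h.pairMap_surjective g
  refine ⟨v, h.pairMap_injective (funext fun i => LinearMap.ext fun a => ?_)⟩
  rw [← hg i, ← hv, LinearMap.comp_apply, pairMap_apply, pairMap_apply, ← mul_smul, mul_comm a e]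
  rfl

omit h𝔭 in
/-- `dim V[𝔭] = 2 dim A/𝔭`. -/
theorem IsDualPair.finrank_torsion :
    Module.finrank k ((Submodule.torsionBySet A V (𝔭 : Set A)).restrictScalars k) =
      2 * Module.finrank k (A ⧸ 𝔭) := by
  set W := (Submodule.torsionBySet A V (𝔭 : Set A)).restrictScalars k
  have hmem : ∀ x : V, x ∈ W ↔ ∀ p ∈ 𝔭, p • x = 0 := fun x =>
    (Submodule.mem_torsionBySet_iff _ _).trans ⟨fun h p hp => h ⟨p, hp⟩, fun h p => h p p.2⟩
  let F : W →ₗ[k] (Fin 2 → Module.Dual k (A ⧸ 𝔭)) :=
    LinearMap.pi fun i =>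
      { toFun := fun w => Submodule.liftQ (𝔭.restrictScalars k) (pairMap (A := A) η (w : V) i)
          (fun p hp => by rw [LinearMap.mem_ker, pairMap_apply, (hmem _).mp w.2 p hp, map_zero])
        map_add' := fun w w' => LinearMap.ext fun q => by
          obtain ⟨a, rfl⟩ := Submodule.Quotient.mk_surjective _ q
          show η i (a • ((w : V) + (w' : V))) = η i (a • (w : V)) + η i (a • (w' : V))
          rw [smul_add, map_add]
        map_smul' := fun c w => LinearMap.ext fun q => by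
          obtain ⟨a, rfl⟩ := Submodule.Quotient.mk_surjective _ q
          show η i (a • (c • (w : V))) = c • η i (a • (w : V))
          rw [smul_comm, map_smul] }
  have hFa : ∀ (w : W) i (a : A), F w i (Ideal.Quotient.mk 𝔭 a) = η i (a • (w : V)) :=
    fun w i a => rfl
  have hinj : Function.Injective F := (injective_iff_map_eq_zero _).mpr fun w hw =>
    Subtype.ext (h.sep _ fun i a => by rw [← hFa, hw]; rfl)
  have hsurj : Function.Surjective F := by
    intro g
    obtain ⟨v, hv⟩ := h.pairMap_surjective fun i =>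
      (g i).comp ((Ideal.Quotient.mkₐ k 𝔭).toLinearMap)
    have hvW : v ∈ W := (hmem v).mpr fun p hp => h.sep _ fun i a => by
      have hpa : Ideal.Quotient.mk 𝔭 (a * p) = 0 :=
        Ideal.Quotient.eq_zero_iff_mem.mpr (𝔭.mul_mem_left a hp)
      rw [← mul_smul, ← pairMap_apply, hv]
      show g i (Ideal.Quotient.mk 𝔭 (a * p)) = 0
      rw [hpa, map_zero]
    refine ⟨⟨v, hvW⟩, funext fun i => LinearMap.ext fun q => ?_⟩
    obtain ⟨a, rfl⟩ := Ideal.Quotient.mk_surjective q
    rw [hFa, ← pairMap_apply, hv]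
    rfl
  rw [LinearEquiv.finrank_eq (LinearEquiv.ofBijective F ⟨hinj, hsurj⟩), Module.finrank_pi_fintype,
    Fin.sum_univ_two, Subspace.dual_finrank_eq]
  omega

/-- **Choice of the socle element.** `π` has image in `C₀`, is `0` or `c` modulo `𝔭`, and is not
zero on `V[𝔭]`: then some nonzero `e` killed by `𝔭` maps `C₀` into the `c`-eigenspace of `π`. -/
theorem IsDualPair.exists_socle_element (C₀ : Submodule A V)
    (hC : C₀ ⊔ 𝔭 • (⊤ : Submodule A V) ≠ ⊤) (π : V →ₗ[A] V) (hπ : ∀ v, π v ∈ C₀) (c : k)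
    (hc : c ≠ 0) (hquad : ∀ w, (∀ p ∈ 𝔭, p • w = 0) → π (π w) = c • π w)
    (hne : ∃ w, (∀ p ∈ 𝔭, p • w = 0) ∧ π w ≠ 0) :
    ∃ e : A, e ≠ 0 ∧ (∀ p ∈ 𝔭, p * e = 0) ∧ (∀ x ∈ C₀, π (e • x) = c • (e • x)) ∧
      Module.finrank k
        ((Submodule.torsionBySet A V (𝔭 : Set A) ⊓
          LinearMap.ker (π - algebraMap k A c • (LinearMap.id : V →ₗ[A] V))).restrictScalars k) =
        Module.finrank k (A ⧸ 𝔭) := by
  classical
  set W := Submodule.torsionBySet A V (𝔭 : Set A) with hWdef
  have hmemW : ∀ x : V, x ∈ W ↔ ∀ p ∈ 𝔭, p • x = 0 := fun x =>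
    (Submodule.mem_torsionBySet_iff _ _).trans ⟨fun h p hp => h ⟨p, hp⟩, fun h p => h p p.2⟩
  set W0 := W ⊓ LinearMap.ker π with hW0
  set Wc := W ⊓ LinearMap.ker (π - algebraMap k A c • (LinearMap.id : V →ₗ[A] V)) with hWc
  have hker : ∀ v : V, (π - algebraMap k A c • (LinearMap.id : V →ₗ[A] V)) v =
      π v - c • v := fun v => by
    show π v - algebraMap k A c • v = _
    rw [algebraMap_smul]
  have hmemc : ∀ v, v ∈ Wc ↔ v ∈ W ∧ π v = c • v := fun v => by
    rw [hWc, Submodule.mem_inf, LinearMap.mem_ker, hker, sub_eq_zero]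
  have hsockill : ∀ e : A, (∀ p ∈ 𝔭, p * e = 0) → ∀ v : V, e • v ∈ W := fun e he v =>
    (hmemW _).mpr fun p hp => by rw [← mul_smul, he p hp, zero_smul]
  have hπsmul : ∀ v : V, π (c • v) = c • π v := fun v => by
    rw [← algebraMap_smul A c v, map_smul, algebraMap_smul]
  -- `(π - c) V` is not inside `𝔭 V`
  have hbad : ∀ U : Submodule A V, U ≤ C₀ →
      (∀ v, ∃ u ∈ U, ∀ e : A, (∀ p ∈ 𝔭, p * e = 0) → e • (π v - c • v - u) = 0) → False := by
    intro U hU hall
    refine hC (eq_top_iff.mpr fun v _ => ?_)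
    obtain ⟨u, hu, hu0⟩ := hall v
    have h1 := h.mem_smul_top 𝔭 _ hu0
    have h2 : c • v = (π v - u) + -(π v - c • v - u) := by abel
    have h3 : c • v ∈ C₀ ⊔ 𝔭 • (⊤ : Submodule A V) := by
      rw [h2]
      exact Submodule.add_mem _ (Submodule.mem_sup_left (C₀.sub_mem (hπ v) (hU hu)))
        (Submodule.mem_sup_right (Submodule.neg_mem _ h1))
    have h4 := ((C₀ ⊔ 𝔭 • (⊤ : Submodule A V)).restrictScalars k).smul_mem c⁻¹ h3
    rwa [smul_smul, inv_mul_cancel₀ hc, one_smul] at h4
  -- the two eigenspaces are lines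
  obtain ⟨w₁, hw₁, hw₁'⟩ := hne
  have hπw : π w₁ ∈ Wc := (hmemc _).mpr ⟨(hmemW _).mpr fun p hp => by
    rw [← map_smul, hw₁ p hp, map_zero], hquad w₁ hw₁⟩
  have hW0ne : W0 ≠ ⊥ := by
    intro hbot
    refine hbad ⊥ bot_le fun v => ⟨0, Submodule.zero_mem _, fun e he => ?_⟩
    have hmem : e • (π v - c • v) ∈ W0 := by
      refine ⟨hsockill e he _, ?_⟩
      rw [SetLike.mem_coe, LinearMap.mem_ker, smul_sub, map_sub, ← map_smul π e v,
        smul_comm e c v, hπsmul, hquad _ ((hmemW _).mp (hsockill e he v)), sub_self]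
    rw [hbot, Submodule.mem_bot] at hmem
    rw [sub_zero, hmem]
  obtain ⟨w₀, hw₀, hw₀'⟩ := Submodule.exists_mem_ne_zero_of_ne_bot hW0ne
  have hkill : ∀ S : Submodule A V, S ≤ W → ∀ x ∈ S, ∀ p ∈ 𝔭, p • x = 0 := fun S hS x hx =>
    (hmemW x).mp (hS hx)
  have d0 := finrank_quot_le (k := k) 𝔭 hw₀ hw₀' (hkill W0 inf_le_left)
  have dc := finrank_quot_le (k := k) 𝔭 hπw hw₁' (hkill Wc inf_le_left)
  have hdis : W0.restrictScalars k ⊓ Wc.restrictScalars k = ⊥ := by
    refine eq_bot_iff.mpr fun x hx => ?_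
    obtain ⟨hx0, hxc⟩ := hx
    have e1 : π x = 0 := LinearMap.mem_ker.mp hx0.2
    have e2 := ((hmemc x).mp hxc).2
    rw [e1] at e2
    exact (Submodule.mem_bot k).mpr ((smul_eq_zero.mp e2.symm).resolve_left hc)
  have hsum := Submodule.finrank_sup_add_finrank_inf_eq (W0.restrictScalars k)
      (Wc.restrictScalars k)
  rw [hdis, finrank_bot, add_zero] at hsum
  have hle : W0.restrictScalars k ⊔ Wc.restrictScalars k ≤ W.restrictScalars k :=
    sup_le (fun x hx => hx.1) (fun x hx => hx.1)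
  have hWd := Submodule.finrank_mono hle
  rw [h.finrank_torsion 𝔭] at hWd
  have e0 : Module.finrank k (W0.restrictScalars k) = Module.finrank k (A ⧸ 𝔭) := by omega
  have ec : Module.finrank k (Wc.restrictScalars k) = Module.finrank k (A ⧸ 𝔭) := by omega
  -- simplicity of `W0`
  have hsimple : ∀ S : Submodule A V, S ≤ W0 → ∀ x ∈ S, x ≠ 0 → S = W0 := by
    intro S hS x hx hx0
    have h1 := finrank_quot_le (k := k) 𝔭 hx hx0 (hkill S (hS.trans inf_le_left))
    have h2 : S.restrictScalars k = W0.restrictScalars k :=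
      Submodule.eq_of_le_of_finrank_le hS (by omega)
    exact Submodule.restrictScalars_injective k A V h2
  set D : V →ₗ[A] V := π - algebraMap k A c • (LinearMap.id : V →ₗ[A] V) with hD
  set U := C₀.map D with hU
  have hUC : U ≤ C₀ := by
    rintro _ ⟨x, hx, rfl⟩
    rw [hker]
    exact C₀.sub_mem (hπ x) ((C₀.restrictScalars k).smul_mem c hx)
  have hUW0 : ∀ e : A, (∀ p ∈ 𝔭, p * e = 0) → ∀ v : V, e • D v ∈ W0 := fun e he v => by
    refine ⟨hsockill e he _, ?_⟩
    rw [SetLike.mem_coe, LinearMap.mem_ker, hker, smul_sub, map_sub, ← map_smul π e v,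
      smul_comm e c v, hπsmul, hquad _ ((hmemW _).mp (hsockill e he v)), sub_self]
  by_contra hcon
  push Not at hcon
  have hgood : ∀ e : A, e ≠ 0 → (∀ p ∈ 𝔭, p * e = 0) → ∃ u ∈ U, e • u ≠ 0 := by
    intro e he hpe
    by_contra hall
    push Not at hall
    refine hcon e he hpe (fun x hx => ?_) ec
    have := hall (D x) ⟨x, hx, rfl⟩
    rw [hker, smul_sub, sub_eq_zero, smul_comm, ← map_smul] at this
    exact this
  -- a functional on `W0`
  obtain ⟨ω, hω, -⟩ := Submodule.exists_dual_map_eq_bot_of_notMem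
    (show w₀ ∉ (⊥ : Submodule k V) from fun hm => hw₀' ((Submodule.mem_bot k).mp hm)) inferInstance
  have hωS : ∀ S : Submodule A V, S ≤ W0 → (∀ x ∈ S, ω x = 0) → S = ⊥ := by
    intro S hS hS0
    by_contra hne'
    obtain ⟨x, hx, hx0⟩ := Submodule.exists_mem_ne_zero_of_ne_bot hne'
    exact hω (hS0 w₀ (hsimple S hS x hx hx0 ▸ hw₀))
  let E : Submodule A A := Submodule.torsionBySet A A (𝔭 : Set A)
  have hE : ∀ e : A, e ∈ E ↔ ∀ p ∈ 𝔭, p * e = 0 := fun e =>
    (Submodule.mem_torsionBySet_iff _ _).trans ⟨fun h p hp => h ⟨p, hp⟩, fun h p => h p p.2⟩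
  let P : U.restrictScalars k →ₗ[k] Module.Dual k (E.restrictScalars k) :=
    LinearMap.mk₂ k (fun u e => ω ((e : A) • (u : V)))
      (fun u u' e => by simp [smul_add]) (fun r u e => by simp [smul_comm (e : A) r])
      (fun u e e' => by simp [add_smul]) (fun r u e => by simp)
  have hP : Function.Surjective P := by
    rw [← LinearMap.range_eq_top, ← Subspace.dualCoannihilator_dualAnnihilator_eq
      (W := LinearMap.range P), ← Submodule.dualAnnihilator_bot]
    congr 1
    refine eq_bot_iff.mpr fun e he => (Submodule.mem_bot k).mpr ?_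
    rw [Submodule.mem_dualCoannihilator] at he
    by_contra he0
    obtain ⟨u, hu, hu0⟩ := hgood e (fun h => he0 (Subtype.ext h)) ((hE _).mp e.2)
    refine hu0 ((Submodule.mem_bot A).mp ((hωS (U.map ((e : A) • LinearMap.id)) ?_ ?_) ▸
      Submodule.mem_map_of_mem hu : (e : A) • u ∈ (⊥ : Submodule A V)))
    · rintro _ ⟨x, hx, rfl⟩
      obtain ⟨y, -, rfl⟩ := hx
      exact hUW0 e ((hE _).mp e.2) y
    · rintro _ ⟨x, hx, rfl⟩
      exact he _ ⟨⟨x, hx⟩, rfl⟩
  refine hbad U hUC fun v => ?_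
  let Pv : Module.Dual k (E.restrictScalars k) :=
    { toFun := fun e => ω ((e : A) • D v)
      map_add' := fun e e' => by simp [add_smul]
      map_smul' := fun r e => by simp }
  obtain ⟨⟨u, hu⟩, hu'⟩ := hP Pv
  refine ⟨u, hu, fun e he => ?_⟩
  rw [← hker v]
  refine (Submodule.mem_bot A).mp ((hωS (E.map (LinearMap.toSpanSingleton A V (D v - u))) ?_ ?_) ▸
    Submodule.mem_map_of_mem ((hE e).mpr he) : e • (D v - u) ∈ (⊥ : Submodule A V))
  · rintro _ ⟨a, ha, rfl⟩
    rw [LinearMap.toSpanSingleton_apply, smul_sub]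
    obtain ⟨y, -, rfl⟩ := hu
    exact W0.sub_mem (hUW0 a ((hE a).mp ha) v) (hUW0 a ((hE a).mp ha) y)
  · rintro _ ⟨a, ha, rfl⟩
    rw [LinearMap.toSpanSingleton_apply, smul_sub, map_sub, sub_eq_zero]
    exact (LinearMap.congr_fun hu' ⟨a, ha⟩).symm

end Fermat.Agent.Mazur
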