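import Mathlib.NumberTheory.ModularForms.LevelOne.DimensionFormula
import Fermat.Agent.Eis.CuspCoeff

/-!
# Multiplicity one at prime level

A weight two cusp form of prime level `N` whose coefficients vanish outside the multiples of `N`
is zero.
-/

noncomputable section

open UpperHalfPlane hiding I
open CongruenceSubgroup ModularFormClass Matrix.SpecialLinearGroup
open scoped MatrixGroups ModularForm Manifold

namespace Fermat.Agent.Mazur

variable {N : ℕ} [NeZero N]

theorem vadd_inv_eq_self (f : CuspForm (Gamma0 N) 2) (h : ∀ n : ℕ, ¬ N ∣ n → qCoeff f n = 0)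
    (τ σ : ℍ) (hσ : (σ : ℂ) = (τ : ℂ) + 1 / (N : ℂ)) : f σ = f τ := by
  have e : ∀ n, (qExpansion 1 f).coeff n * Function.Periodic.qParam 1 (σ : ℂ) ^ n =
      (qExpansion 1 f).coeff n * Function.Periodic.qParam 1 (τ : ℂ) ^ n := by
    intro n
    by_cases hn : N ∣ n
    · obtain ⟨m, rfl⟩ := hn
      congr 1
      rw [Function.Periodic.qParam, Function.Periodic.qParam, ← Complex.exp_nat_mul,
        ← Complex.exp_nat_mul, hσ, Complex.exp_eq_exp_iff_exists_int]
      refine ⟨m, ?_⟩
      have hN : (N : ℂ) ≠ 0 := Nat.cast_ne_zero.mpr (NeZero.ne N)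
      push_cast
      field_simp
    · rw [show (qExpansion 1 f).coeff n = 0 from h n hn, zero_mul, zero_mul]
  have h1 := ModularForm.hasSum_qExpansion (f := f) one_pos (one_mem_strictPeriods_Gamma0 N) σ
  have h2 := ModularForm.hasSum_qExpansion (f := f) one_pos (one_mem_strictPeriods_Gamma0 N) τ
  simp only [e] at h1
  exact h1.unique h2

/-- **Multiplicity one at level `N`**: no nonzero form lives on the multiples of `N`. -/
theorem eq_zero_of_qCoeff_eq_zero_of_not_dvd (f : CuspForm (Gamma0 N) 2)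
    (h : ∀ n : ℕ, ¬ N ∣ n → qCoeff f n = 0) : f = 0 := by
  have hN : N ≠ 0 := NeZero.ne N
  set D := ModularForm.heckeMatrix N 0 with hD
  set G : ℍ → ℂ := (⇑f : ℍ → ℂ) ∣[(2 : ℤ)] D with hG
  have hT : G ∣[(2 : ℤ)] ModularGroup.T = G := by
    funext τ
    rw [ModularForm.SL_slash, hG, ← SlashAction.slash_mul]
    have e : D * (ModularGroup.T : GL (Fin 2) ℝ) = ModularForm.heckeMatrix N 1 := by
      apply Units.ext
      rw [Units.val_mul, hD, ModularForm.val_heckeMatrix hN, ModularForm.val_heckeMatrix hN]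
      ext i j
      fin_cases i <;> fin_cases j <;>
        simp [Matrix.mul_apply, Fin.sum_univ_two, ModularGroup.coe_T]
    rw [e, ModularForm.slash_heckeMatrix_apply _ hN, ModularForm.slash_heckeMatrix_apply _ hN,
      vadd_inv_eq_self f h (ModularForm.heckeMatrix N 0 • τ) _ (by
        rw [ModularForm.coe_heckeMatrix_smul hN, ModularForm.coe_heckeMatrix_smul hN]
        push_cast
        ring)]
  set U : SL(2, ℤ) := ⟨!![1, 0; 1, 1], by norm_num [Matrix.det_fin_two_of]⟩ with hU
  set U' : SL(2, ℤ) := ⟨!![1, 0; (N : ℤ), 1], by norm_num [Matrix.det_fin_two_of]⟩ with hU'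
  have hUG : G ∣[(2 : ℤ)] U = G := by
    have hval : ∀ γ : SL(2, ℤ), (γ : GL (Fin 2) ℝ).val =
        γ.1.map (fun x : ℤ => (x : ℝ)) := fun γ => by
      ext i j
      rfl
    have e : D * (U : GL (Fin 2) ℝ) = (U' : GL (Fin 2) ℝ) * D := by
      apply Units.ext
      rw [Units.val_mul, Units.val_mul, hD, ModularForm.val_heckeMatrix hN, hval, hval]
      ext i j
      fin_cases i <;> fin_cases j <;> simp [Matrix.mul_apply, Fin.sum_univ_two, hU, hU']
    rw [ModularForm.SL_slash, hG, ← SlashAction.slash_mul, e, SlashAction.slash_mul]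
    congr 1
    refine SlashInvariantFormClass.slash_action_eq f _ ⟨U', ?_, rfl⟩
    rw [SetLike.mem_coe, Gamma0_mem]
    simp [hU']
  have hinv : ∀ γ : SL(2, ℤ), G ∣[(2 : ℤ)] γ = G := by
    let Γ : Subgroup SL(2, ℤ) :=
      { carrier := {γ | G ∣[(2 : ℤ)] γ = G}
        mul_mem' := fun {a b} (ha : G ∣[(2 : ℤ)] a = G) (hb : G ∣[(2 : ℤ)] b = G) => by
          show G ∣[(2 : ℤ)] (a * b) = G
          rw [SlashAction.slash_mul, ha, hb]
        one_mem' := SlashAction.slash_one _ _
        inv_mem' := fun {a} (ha : G ∣[(2 : ℤ)] a = G) => by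
          show G ∣[(2 : ℤ)] a⁻¹ = G
          conv_lhs => rw [← ha]
          rw [← SlashAction.slash_mul, mul_inv_cancel, SlashAction.slash_one] }
    have hS : ModularGroup.S ∈ Γ := by
      have e : ModularGroup.S = ModularGroup.T⁻¹ * U * ModularGroup.T⁻¹ := by
        apply Subtype.ext
        rw [Matrix.SpecialLinearGroup.coe_mul, Matrix.SpecialLinearGroup.coe_mul,
          ModularGroup.coe_T_inv, ModularGroup.coe_S, hU]
        ext i j
        fin_cases i <;> fin_cases j <;> simp [Matrix.mul_apply, Fin.sum_univ_two]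
      rw [e]
      exact Γ.mul_mem (Γ.mul_mem (Γ.inv_mem hT) hUG) (Γ.inv_mem hT)
    intro γ
    have htop : (⊤ : Subgroup SL(2, ℤ)) ≤ Γ := by
      rw [← SpecialLinearGroup.SL2Z_generators]
      refine (Subgroup.closure_le _).mpr ?_
      rintro x (rfl | rfl)
      exacts [hS, hT]
    exact htop (Subgroup.mem_top γ)
  have hzero : IsZeroAtImInfty G := by
    have hc : ∀ τ : ℍ, G τ = (N : ℂ)⁻¹ * f (D • τ) := fun τ =>
      ModularForm.slash_heckeMatrix_apply _ hN _ _ τ
    have hlim : Filter.Tendsto (fun τ : ℍ => D • τ) atImInfty atImInfty := by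
      refine Filter.tendsto_comap_iff.mpr ?_
      have : (UpperHalfPlane.im ∘ fun τ : ℍ => D • τ) = fun τ : ℍ => τ.im / N := by
        funext τ
        show (D • τ : ℍ).im = _
        rw [← UpperHalfPlane.coe_im, ModularForm.coe_heckeMatrix_smul hN]
        simp [Complex.div_natCast_im]
      rw [this]
      exact Filter.tendsto_comap.atTop_div_const (by exact_mod_cast Nat.pos_of_ne_zero hN)
    have hf0 : IsZeroAtImInfty (⇑f : ℍ → ℂ) := CuspFormClass.zero_at_infty f
    rw [UpperHalfPlane.IsZeroAtImInfty, Filter.ZeroAtFilter] at hf0 ⊢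
    simpa [funext hc] using (hf0.comp hlim).const_mul (N : ℂ)⁻¹
  let G1 : CuspForm 𝒮ℒ 2 :=
    { toFun := G
      slash_action_eq' := by
        rintro _ ⟨γ, rfl⟩
        have := hinv γ
        rwa [ModularForm.SL_slash] at this
      holo' := (CuspFormClass.holo f).slash 2 D
      zero_at_cusps' := fun hc =>
        (OnePoint.isZeroAt_iff_forall_SL2Z
            ((Subgroup.IsArithmetic.isCusp_iff_isCusp_SL2Z _).mp hc)).mpr
          fun γ _ => by rw [hinv γ]; exact hzero }
  have hG1 : G1 = 0 :=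
    rank_zero_iff_forall_zero.mp (CuspForm.rank_eq_zero_of_weight_lt_twelve (by norm_num)) G1
  refine DFunLike.coe_injective ?_
  funext τ
  have h1 : G (D⁻¹ • τ) = 0 := congrFun (congrArg (fun F : CuspForm 𝒮ℒ 2 => (⇑F : ℍ → ℂ)) hG1) _
  rw [hG, ModularForm.slash_heckeMatrix_apply _ hN, hD, smul_inv_smul] at h1
  simpa [hN] using h1

end Fermat.Agent.Mazur
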