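import Mathlib.LinearAlgebra.Dual.Lemmas
import Mathlib.RingTheory.Localization.Module
import Fermat.Agent.Attach.HeckeLattice
import Fermat.Agent.Attach.Lattice
import Fermat.Agent.Mazur.Defs
import Fermat.Agent.Mazur.EisensteinComponent.MultOne

/-!
# The pairing of cusp forms with the anemic Hecke algebra

At prime level `(f, X) ↦ a₁(X f)` is perfect between weight two forms and the complex span of the
anemic algebra, which is finite free over `ℤ`.
-/

noncomputable section

open CongruenceSubgroup ModularFormClass ModularCurve ModularCurve.Period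
open scoped MatrixGroups

namespace Fermat.Agent.Mazur

/-- Integral vectors which are independent over `ℤ` are independent over any field of
characteristic zero. -/
theorem linearIndependent_intCast {L : Type*} [Field L] [CharZero L] {ι : Type*} [Fintype ι]
    {κ : Type*} [Fintype κ] (v : ι → κ → ℤ) (hv : LinearIndependent ℤ v) :
    LinearIndependent L (fun i => fun k => ((v i k : ℤ) : L)) := by
  let e := Fintype.equivFin κ
  let c : (κ → ℤ) →ₗ[ℤ] (Fin (Fintype.card κ) → ℚ) :=
    { toFun := fun w k => (w (e.symm k) : ℚ)
      map_add' := fun w w' => funext fun k => Int.cast_add _ _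
      map_smul' := fun n w => funext fun k => by simp }
  have h1 : LinearIndependent ℤ (c ∘ v) :=
    hv.map' c (LinearMap.ker_eq_bot.mpr fun w w' h => funext fun k => by
      simpa using Int.cast_injective (congrFun h (e k) :
        ((w (e.symm (e k)) : ℤ) : ℚ) = ((w' (e.symm (e k)) : ℤ) : ℚ)))
  have h2 := Attach.linearIndependent_map_field (algebraMap ℚ L) (c ∘ v)
    ((LinearIndependent.iff_fractionRing ℤ ℚ).mp h1)
  refine Fintype.linearIndependent_iff.mpr fun a ha =>
    Fintype.linearIndependent_iff.mp h2 a (funext fun k => ?_)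
  have h3 := congrFun ha (e.symm k)
  simp only [Finset.sum_apply, Pi.smul_apply, Pi.zero_apply, Function.comp_apply] at h3 ⊢
  refine Eq.trans (Finset.sum_congr rfl fun i _ => ?_) h3
  show a i • algebraMap ℚ L ((v i (e.symm k) : ℤ) : ℚ) = _
  rw [map_intCast]

variable {N : ℕ} [NeZero N]

/-- The first coefficient. -/
abbrev aOne : CuspForm (Gamma0 N) 2 →ₗ[ℂ] ℂ := Eis.coeffLin N 2 1

/-- The first coefficient separates forms along the anemic algebra. -/
theorem eq_zero_of_forall_aOne (hN : N.Prime) (f : CuspForm (Gamma0 N) 2)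
    (h : ∀ b : TGood N, aOne ((b : Module.End ℂ (CuspForm (Gamma0 N) 2)) f) = 0) : f = 0 := by
  refine eq_zero_of_qCoeff_eq_zero_of_not_dvd f ?_
  have key : ∀ n : ℕ, ¬ N ∣ n → ∀ b : TGood N,
      qCoeff ⇑((b : Module.End ℂ (CuspForm (Gamma0 N) 2)) f) n = 0 := by
    intro n
    induction n using Nat.strong_induction_on with
    | _ n ih =>
      intro hn b
      rcases eq_or_ne n 1 with rfl | h1
      · exact h b
      have h0 : n ≠ 0 := fun e => hn (e ▸ dvd_zero N)
      obtain ⟨ℓ, hℓ, m, rfl⟩ := Nat.exists_prime_and_dvd h1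
      have hℓN : ¬ ℓ ∣ N := fun hd => hn
        (((Nat.prime_dvd_prime_iff_eq hℓ hN).mp hd) ▸ dvd_mul_right ℓ m)
      have hm0 : 0 < m := Nat.pos_of_ne_zero fun e => h0 (by rw [e, mul_zero])
      have hmlt : m < ℓ * m := lt_mul_of_one_lt_left hm0 hℓ.one_lt
      have hNm : ¬ N ∣ m := fun hd => hn (hd.trans (dvd_mul_left m ℓ))
      have e1 := ih m hmlt hNm (CuspForm.heckeAlgebra.T hℓ hℓN hℓN * b)
      rw [MulMemClass.coe_mul, CuspForm.heckeAlgebra.coe_T, Module.End.mul_apply,
        Eis.qCoeff_heckeTLin hℓ hℓN] at e1
      split_ifs at e1 with hd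
      · rw [ih (m / ℓ) ((Nat.div_le_self m ℓ).trans_lt hmlt)
          (fun hd' => hNm (hd'.trans (Nat.div_dvd_of_dvd hd))) b, mul_zero, add_zero] at e1
        exact e1
      · rw [mul_zero, add_zero] at e1
        exact e1
  intro n hn
  have := key n hn 1
  rwa [OneMemClass.coe_one, Module.End.one_apply] at this

variable (N)

/-- A `ℤ`-basis of the period lattice, independent over `ℂ` in `S₂ × S₂`. -/
theorem exists_clBasis : ∃ bs : Module.Basis (Fin (Grp.clRank (Gamma0 N))) ℤ (Attach.clLattice N),
    LinearIndependent ℂ (Attach.periodCoords N ∘ bs) := by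
  obtain ⟨γ, e, he, hδ, hdec⟩ := Grp.clBasis_exists (Gamma0 N) (Grp.neg_one_mem_Gamma0 N)
  let w : Fin (Grp.clRank (Gamma0 N)) → Attach.clLattice N := fun i => ⟨e i, he i⟩
  have hC : LinearIndependent ℂ (Attach.periodCoords N ∘ w) := by
    refine Fintype.linearIndependent_iff.mpr fun c hc j => ?_
    have h2 := DFunLike.congr_fun (congrArg (periodHomPair N) hc) (Additive.ofMul (γ j))
    simp only [map_sum, map_smul, Function.comp_apply, Attach.periodHomPair_periodCoords, map_zero,
      AddMonoidHom.finsetSum_apply, AddMonoidHom.zero_apply] at h2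
    have e2 : ∀ i, (c i • Attach.clToComplex N (w i)) (Additive.ofMul (γ j)) =
        if i = j then c i else 0 := fun i => by
      show c i * ((e i (Additive.ofMul (γ j)) : ℤ) : ℂ) = _
      rw [hδ]
      split <;> simp
    simpa [e2] using h2
  have hZ : LinearIndependent ℤ w := by
    refine Fintype.linearIndependent_iff.mpr fun c hc j => ?_
    have h2 := congrArg (fun v : Attach.clLattice N => v.1 (Additive.ofMul (γ j))) hc
    simpa [w, hδ, mul_ite] using h2
  have hspan : ⊤ ≤ Submodule.span ℤ (Set.range w) := fun v _ => by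
    have e3 : v = ∑ i, v.1 (Additive.ofMul (γ i)) • w i := by
      refine Subtype.ext (AddMonoidHom.ext fun x => ?_)
      rw [hdec ℤ v.1 v.2 x]
      simp [w, mul_comm]
    rw [e3]
    exact Submodule.sum_mem _ fun i _ => Submodule.smul_mem _ _ (Submodule.subset_span ⟨i, rfl⟩)
  exact ⟨Module.Basis.mk hZ hspan, by rwa [Module.Basis.coe_mk]⟩

theorem finite_clLattice : Module.Finite ℤ (Attach.clLattice N) :=
  Module.Finite.of_basis (exists_clBasis N).choose

theorem free_clLattice : Module.Free ℤ (Attach.clLattice N) :=
  Module.Free.of_basis (exists_clBasis N).choose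

/-- Matrix entries of the action on the lattice. -/
def latticeEntry {ι : Type*} [Fintype ι] (bs : Module.Basis ι ℤ (Attach.clLattice N)) :
    TGood N →ₗ[ℤ] (ι × ι → ℤ) :=
  (AddMonoidHom.mk' (fun t p => bs.repr (Attach.latticeHecke N t (bs p.1)) p.2) fun s t =>
    funext fun p => by
      rw [Pi.add_apply, map_add (Attach.latticeHecke N), LinearMap.add_apply, map_add,
        Finsupp.add_apply]).toIntLinearMap

theorem latticeEntry_injective {ι : Type*} [Fintype ι]
    (bs : Module.Basis ι ℤ (Attach.clLattice N)) : Function.Injective (latticeEntry N bs) :=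
  fun _ _ h => Attach.latticeHecke_injective N
    (bs.ext fun k => bs.repr.injective (Finsupp.ext fun l => congrFun h (k, l)))

theorem diagEnd_periodCoords_basis {ι : Type*} [Fintype ι]
    (bs : Module.Basis ι ℤ (Attach.clLattice N)) (t : TGood N) (k : ι) :
    Attach.diagEnd N (t : Module.End ℂ (CuspForm (Gamma0 N) 2)) (Attach.periodCoords N (bs k)) =
      ∑ l, ((latticeEntry N bs t (k, l) : ℤ) : ℂ) • Attach.periodCoords N (bs l) := by
  have h1 : Attach.periodCoords N (∑ l, latticeEntry N bs t (k, l) • bs l) =
      Attach.periodCoords N (Attach.latticeAct N t (bs k)) :=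
    congrArg _ (bs.sum_repr (Attach.latticeHecke N t (bs k)))
  rw [← Attach.periodCoords_latticeAct, ← h1, map_sum]
  exact Finset.sum_congr rfl fun l _ => by rw [map_zsmul, Int.cast_smul_eq_zsmul]

/-- Elements of the anemic algebra independent over `ℤ` are independent over `ℂ`. -/
theorem linearIndependent_coe {ι : Type*} [Fintype ι] (b : ι → TGood N)
    (hb : LinearIndependent ℤ b) :
    LinearIndependent ℂ fun i => (b i : Module.End ℂ (CuspForm (Gamma0 N) 2)) := by
  obtain ⟨bs, hbs⟩ := exists_clBasis N
  have hv := linearIndependent_intCast (L := ℂ) (latticeEntry N bs ∘ b)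
    (hb.map' (latticeEntry N bs) (LinearMap.ker_eq_bot.mpr (latticeEntry_injective N bs)))
  refine Fintype.linearIndependent_iff.mpr fun c hc => Fintype.linearIndependent_iff.mp hv c
    (funext fun q => ?_)
  obtain ⟨k, l⟩ := q
  have h3 : ∑ i, c i • Attach.diagEnd N (b i : Module.End ℂ (CuspForm (Gamma0 N) 2))
      (Attach.periodCoords N (bs k)) = 0 := by
    refine Prod.ext ?_ ?_
    · rw [Prod.fst_sum, Prod.fst_zero]
      have := LinearMap.congr_fun hc (Attach.periodCoords N (bs k)).1
      rw [LinearMap.sum_apply, LinearMap.zero_apply] at this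
      exact this
    · rw [Prod.snd_sum, Prod.snd_zero]
      have := LinearMap.congr_fun hc (Attach.periodCoords N (bs k)).2
      rw [LinearMap.sum_apply, LinearMap.zero_apply] at this
      exact this
  simp only [diagEnd_periodCoords_basis, Finset.smul_sum, smul_smul] at h3
  rw [Finset.sum_comm] at h3
  simp only [← Finset.sum_smul] at h3
  have h4 := Fintype.linearIndependent_iff.mp hbs _ h3 l
  simp only [Finset.sum_apply, Pi.smul_apply, Pi.zero_apply, smul_eq_mul, Function.comp_apply]
  exact h4

/-- The complex span of the anemic algebra. -/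
abbrev spanC : Submodule ℂ (Module.End ℂ (CuspForm (Gamma0 N) 2)) :=
  Submodule.span ℂ (TGood N : Set (Module.End ℂ (CuspForm (Gamma0 N) 2)))

/-- Every element of the complex span commutes with the anemic algebra. -/
theorem commute_of_mem_spanC {X : Module.End ℂ (CuspForm (Gamma0 N) 2)} (hX : X ∈ spanC N)
    (b : TGood N) : Commute (b : Module.End ℂ (CuspForm (Gamma0 N) 2)) X := by
  induction hX using Submodule.span_induction with
  | mem x hx => exact congrArg Subtype.val (mul_comm b ⟨x, hx⟩)
  | zero => exact Commute.zero_right _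
  | add x y _ _ hx hy => exact hx.add_right hy
  | smul c x _ hx => exact hx.smul_right c

/-- The pairing `(f, X) ↦ a₁(X f)`. -/
def pairC : CuspForm (Gamma0 N) 2 →ₗ[ℂ] Module.Dual ℂ (spanC N) :=
  LinearMap.mk₂ ℂ (fun f X => aOne ((X : Module.End ℂ (CuspForm (Gamma0 N) 2)) f))
    (fun f g X => by simp [map_add])
    (fun c f X => by simp [map_smul])
    (fun f X Y => by rw [Submodule.coe_add, LinearMap.add_apply, map_add])
    (fun c f X => by simp)

variable {N}

theorem pairC_injective (hN : N.Prime) : Function.Injective (pairC N) :=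
  (injective_iff_map_eq_zero _).mpr fun f hf => eq_zero_of_forall_aOne hN f fun b =>
    LinearMap.congr_fun hf ⟨_, Submodule.subset_span b.2⟩

theorem pairC_bijective (hN : N.Prime) : Function.Bijective (pairC N) := by
  have := Periods.finiteDimensional_cuspForm_two N
  have : FiniteDimensional ℂ (spanC N) := inferInstance
  refine ⟨pairC_injective hN, ?_⟩
  have h2 : Function.Injective (pairC N).flip :=
    (injective_iff_map_eq_zero _).mpr fun X hX => Subtype.ext (LinearMap.ext fun f =>
      eq_zero_of_forall_aOne hN _ fun b => by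
        have e := LinearMap.congr_fun hX ((b : Module.End ℂ (CuspForm (Gamma0 N) 2)) f)
        have hc := LinearMap.congr_fun (commute_of_mem_spanC N X.2 b).eq f
        simp only [Module.End.mul_apply] at hc
        rw [hc]
        exact e)
  have d1 := LinearMap.finrank_le_finrank_of_injective h2
  rw [Subspace.dual_finrank_eq] at d1
  have d2 := LinearMap.finrank_le_finrank_of_injective (pairC_injective hN)
  rw [Subspace.dual_finrank_eq] at d2
  exact (LinearMap.injective_iff_surjective_of_finrank_eq_finrank
    (by rw [Subspace.dual_finrank_eq]; omega)).mp (pairC_injective hN)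

/-- The anemic algebra is finite free over `ℤ`. -/
theorem finite_TGood : Module.Finite ℤ (TGood N) := by
  have := finite_clLattice N
  have := free_clLattice N
  exact Module.Finite.of_injective (Attach.latticeHecke N).toIntAlgHom.toLinearMap
    (Attach.latticeHecke_injective N)

theorem free_TGood : Module.Free ℤ (TGood N) := by
  have := finite_TGood (N := N)
  exact Module.free_of_finite_type_torsion_free'

/-- A basis of the anemic algebra gives a basis of its complex span. -/
theorem span_range_basis {ι : Type*} [Fintype ι] (b : Module.Basis ι ℤ (TGood N)) :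
    Submodule.span ℂ (Set.range fun i => (b i : Module.End ℂ (CuspForm (Gamma0 N) 2))) =
        spanC N := by
  refine le_antisymm (Submodule.span_mono ?_) (Submodule.span_le.mpr ?_)
  · rintro _ ⟨i, rfl⟩
    exact (b i).2
  · intro x hx
    have e := congrArg Subtype.val (b.sum_repr ⟨x, hx⟩)
    simp only [AddSubmonoidClass.coe_finsetSum, SetLike.val_smul] at e
    rw [← e]
    refine Submodule.sum_mem _ fun i _ => ?_
    rw [← Int.cast_smul_eq_zsmul ℂ]
    exact Submodule.smul_mem _ _ (Submodule.subset_span ⟨i, rfl⟩)

end Fermat.Agent.Mazur
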