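import Mathlib.Analysis.Complex.Polynomial.Basic
import Mathlib.FieldTheory.IntermediateField.Adjoin.Basic
import Mathlib.FieldTheory.IsAlgClosed.Basic
import Mathlib.LinearAlgebra.Charpoly.ToMatrix
import Mathlib.LinearAlgebra.Matrix.Charpoly.LinearMap
import Mathlib.LinearAlgebra.Matrix.ToLinearEquiv
import Fermat.Agent.Mazur.EisensteinComponent.Bound
import Fermat.Agent.Mazur.EisensteinComponent.Pairing

/-!
# Eigenvalues of the Hecke algebra in characteristic zero

The roots of the characteristic polynomial of an element of the anemic algebra are eigenvalues;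
consequently no homomorphism to a field of characteristic zero sends `T_ℓ` to `1 + ℓ`.
-/

noncomputable section

open ModularCurve CongruenceSubgroup Polynomial

namespace Fermat.Agent.Mazur

/-- An eigenvector of the matrix of a left multiplication gives an eigenvector. -/
theorem mulLeft_combination {R E ι : Type*} [CommRing R] [Ring E] [Algebra R E] [Fintype ι] (t : E)
    (v : ι → E) (B : ι → ι → R) (c : ι → R) (z : R) (hb : ∀ k, t * v k = ∑ j, B j k • v j)
    (hc : ∀ j, z * c j = ∑ k, B j k * c k) :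
    t * ∑ k, c k • v k = z • ∑ k, c k • v k := by
  simp only [Finset.mul_sum, mul_smul_comm, hb, Finset.smul_sum, smul_smul]
  rw [Finset.sum_comm]
  refine Finset.sum_congr rfl fun j _ => ?_
  rw [← Finset.sum_smul, hc j]
  exact congrArg (· • v j) (Finset.sum_congr rfl fun k _ => mul_comm _ _)

variable {N : ℕ} [NeZero N]

/-- A root of the characteristic polynomial of an element of the anemic algebra is an eigenvalue. -/
theorem exists_int_poly (t : TGood N) :
    ∃ m : Polynomial ℤ, m.Monic ∧ aeval t m = 0 ∧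
      ∀ z : ℂ, aeval z m = 0 → ∃ f : CuspForm (Gamma0 N) 2, f ≠ 0 ∧
        (t : Module.End ℂ (CuspForm (Gamma0 N) 2)) f = z • f := by
  classical
  have := finite_TGood (N := N)
  have := free_TGood (N := N)
  let b := Module.Free.chooseBasis ℤ (TGood N)
  let B := LinearMap.toMatrix b b (Algebra.lmul ℤ (TGood N) t)
  refine ⟨B.charpoly, Matrix.charpoly_monic _, ?_, fun z hz => ?_⟩
  · have h := LinearMap.aeval_self_charpoly (Algebra.lmul ℤ (TGood N) t)
    rw [← LinearMap.charpoly_toMatrix _ b, aeval_algHom_apply] at h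
    have h1 := LinearMap.congr_fun h 1
    simpa [B] using h1
  · have hd : (Matrix.scalar _ z - B.map (Int.cast : ℤ → ℂ)).det = 0 := by
      rw [← Matrix.eval_charpoly]
      have := Matrix.charpoly_map B (Int.castRingHom ℂ)
      rw [Int.coe_castRingHom] at this
      rw [this, eval_map]
      exact (aeval_def z _).symm.trans hz
    obtain ⟨c, hc, hc'⟩ := Matrix.exists_mulVec_eq_zero_iff.mpr hd
    rw [Matrix.sub_mulVec, sub_eq_zero] at hc'
    set s : Module.End ℂ (CuspForm (Gamma0 N) 2) := ∑ k, c k • (b k).1 with hs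
    have hb : ∀ k, (t : Module.End ℂ (CuspForm (Gamma0 N) 2)) * (b k).1 =
        ∑ j, (B j k : ℂ) • (b j).1 := fun k => by
      have h := congrArg Subtype.val (b.sum_repr (t * b k))
      rw [AddSubmonoidClass.coe_finsetSum] at h
      rw [← Subalgebra.coe_mul, ← h]
      refine Finset.sum_congr rfl fun j _ => ?_
      rw [Subalgebra.coe_smul, Int.cast_smul_eq_zsmul]
      simp [B, LinearMap.toMatrix_apply]
    have hts : (t : Module.End ℂ (CuspForm (Gamma0 N) 2)) * s = z • s :=
      mulLeft_combination _ (fun k => (b k).1) (fun j k => (B j k : ℂ)) c z hb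
        (fun j => by
          have h := congrFun hc' j
          simp only [Matrix.scalar_apply, Matrix.mulVec_diagonal] at h
          exact h)
    have hs0 : s ≠ 0 := fun h0 => hc (funext
      (Fintype.linearIndependent_iff.mp (linearIndependent_coe N b b.linearIndependent) c h0))
    obtain ⟨g, hg⟩ : ∃ g, s g ≠ 0 := by
      by_contra hall
      push Not at hall
      exact hs0 (LinearMap.ext hall)
    exact ⟨s g, hg, by rw [← Module.End.mul_apply, hts, LinearMap.smul_apply]⟩

variable {K : Type*} [Field K] [CharZero K] (φ : TGood N →+* K) {ℓ : ℕ} (hℓ : ℓ.Prime)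
  (hℓN : ¬ ℓ ∣ N)

omit [CharZero K] in
theorem aeval_map_eq_zero {t : TGood N} {m : Polynomial ℤ} (h : aeval t m = 0) :
    aeval (φ t) m = 0 := by
  have := aeval_algHom_apply φ.toIntAlgHom t m
  rw [h, map_zero] at this
  exact this

include hℓ hℓN in
/-- `T_ℓ` is never `1 + ℓ` in characteristic zero. -/
theorem map_T_ne : φ (CuspForm.heckeAlgebra.T hℓ hℓN hℓN) ≠ 1 + (ℓ : K) := by
  intro e
  obtain ⟨m, -, hm0, hroot⟩ := exists_int_poly (CuspForm.heckeAlgebra.T hℓ hℓN hℓN)
  have h1 := aeval_map_eq_zero φ hm0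
  rw [e, show (1 + (ℓ : K)) = algebraMap ℤ K (1 + ℓ) by simp,
    aeval_algebraMap_apply_eq_algebraMap_eval] at h1
  have h2 : m.eval (1 + (ℓ : ℤ)) = 0 :=
    (map_eq_zero_iff (algebraMap ℤ K) (algebraMap ℤ K).injective_int).mp h1
  obtain ⟨f, hf, hTf⟩ := hroot (algebraMap ℤ ℂ (1 + ℓ))
    (by rw [aeval_algebraMap_apply_eq_algebraMap_eval, h2, map_zero])
  exact eigenvalue_ne_one_add hℓ hℓN hf hTf (by simp)

include hℓ hℓN in
/-- `1/u + ℓ u` is not a conjugate of `T_ℓ` when `u + ℓ/u = T_ℓ`. -/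
theorem exists_poly_ne {u : K} (hu : u ^ 2 - φ (CuspForm.heckeAlgebra.T hℓ hℓN hℓN) * u + ℓ = 0) :
    ∃ m : Polynomial ℤ, aeval (CuspForm.heckeAlgebra.T hℓ hℓN hℓN : TGood N) m = 0 ∧
      aeval (u⁻¹ + (ℓ : K) * u) m ≠ 0 := by
  obtain ⟨m, hmon, hm0, hroot⟩ := exists_int_poly (CuspForm.heckeAlgebra.T hℓ hℓN hℓN)
  refine ⟨m, hm0, fun h' => ?_⟩
  set T := φ (CuspForm.heckeAlgebra.T hℓ hℓN hℓN) with hT
  have hT0 : aeval T m = 0 := aeval_map_eq_zero φ hm0
  have hu0 : u ≠ 0 := by
    rintro rfl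
    simp [hℓ.ne_zero] at hu
  have hTu : T = u + (ℓ : K) * u⁻¹ := by
    field_simp
    linear_combination -hu
  have hTint : IsIntegral ℤ T := ⟨m, hmon, hT0⟩
  have huint : IsIntegral ℚ u := by
    refine IsIntegral.tower_top (A := ℚ) (R := ℤ) ?_
    have : Algebra.IsIntegral ℤ (integralClosure ℤ K) := inferInstance
    refine isIntegral_trans (A := integralClosure ℤ K) u
      ⟨X ^ 2 - C ⟨T, hTint⟩ * X + C (ℓ : integralClosure ℤ K), by monicity!, ?_⟩
    rw [← aeval_def]
    simpa using hu
  let F : IntermediateField ℚ K := IntermediateField.adjoin ℚ {u}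
  have : FiniteDimensional ℚ F := IntermediateField.adjoin.finiteDimensional huint
  let ψ : F →ₐ[ℚ] ℂ := IsAlgClosed.lift
  let uF : F := ⟨u, IntermediateField.subset_adjoin ℚ _ rfl⟩
  have hval : ∀ x : F, aeval (x : K) m = 0 → aeval (ψ x) m = 0 := fun x hx => by
    have h1 := aeval_algHom_apply (F.val.toRingHom.toIntAlgHom) x m
    have h2 := aeval_algHom_apply (ψ.toRingHom.toIntAlgHom) x m
    have h3 : aeval x m = 0 := F.val.injective (by
      rw [map_zero]
      exact h1.symm.trans hx)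
    rw [h3, map_zero] at h2
    exact h2
  have huF : uF ≠ 0 := fun h => hu0 (congrArg Subtype.val h)
  have hz : ψ uF ≠ 0 := (map_ne_zero ψ).mpr huF
  obtain ⟨f, hf, hTf⟩ := hroot _ (hval (uF + (ℓ : F) * uF⁻¹) (by
    push_cast
    rw [← hTu]; exact hT0))
  obtain ⟨g, hg, hTg⟩ := hroot _ (hval (uF⁻¹ + (ℓ : F) * uF) (by push_cast; exact h'))
  rw [map_add, map_mul, map_natCast, map_inv₀] at hTf hTg
  have b1 := one_lt_norm_root hℓ hℓN hf hTf (v := ψ uF) (by field_simp; ring)
  have b2 := one_lt_norm_root hℓ hℓN hg hTg (v := (ψ uF)⁻¹) (by field_simp; ring)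
  rw [norm_inv] at b2
  exact absurd b2 (not_lt.mpr (inv_le_one_of_one_le₀ b1.le))

end Fermat.Agent.Mazur
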