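import Fermat.Agent.Mazur.EisensteinComponent.Component

/-!
# Frobenius on the Eisenstein component

Diagonal entries of decomposition elements on the component, the congruence relation, and the
absence of Frobenius equivariant maps from the quotient to the twisted line.
-/

noncomputable section

open ModularCurve CongruenceSubgroup

namespace Fermat.Agent.Mazur

local notation "Qbar" => AlgebraicClosure ℚ
local notation "Γℚ" => AlgebraicClosure ℚ ≃ₐ[ℚ] AlgebraicClosure ℚ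

variable {N : ℕ} [NeZero N] {P : ℕ} [Fact P.Prime] {M : Attach.TorsionModel N P}
  {hG : Attach.TorsionGalois N P} {𝔭 : Ideal (algA M)} {A : ValuationSubring Qbar}
  {C₀ : Submodule (algA M) (Vt M)} {e : algA M} {C : Submodule (algA M) (Vt M)}

theorem IsComponent.exists_ne_zero (h : IsComponent M hG 𝔭 A C₀ e C) :
    ∃ x ∈ C, x ≠ 0 := by
  refine Submodule.exists_mem_ne_zero_of_ne_bot fun hbot => ?_
  have := h.finrank_C
  rw [hbot, Submodule.restrictScalars_bot, finrank_bot] at this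
  exact (resDeg_pos M 𝔭 h.isMaximal).ne this

theorem IsComponent.exists_notMem (h : IsComponent M hG 𝔭 A C₀ e C) :
    ∃ w ∈ torV M 𝔭, w ∉ C := by
  by_contra hall
  push Not at hall
  have := Submodule.finrank_mono
    (show (torV M 𝔭).restrictScalars ℚ_[P] ≤ C.restrictScalars ℚ_[P] from hall)
  rw [h.finrank_C, h.finrank_torV] at this
  have := resDeg_pos M 𝔭 h.isMaximal
  omega

/-- The two diagonal entries of a decomposition element. -/
theorem IsComponent.exists_diag (h : IsComponent M hG 𝔭 A C₀ e C) {g : Γℚ}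
    (hg : g ∈ A.decompositionSubgroup ℚ) :
    ∃ κ u : algA M, (∀ x ∈ C, galV M hG g x = κ • x) ∧
      ∀ w ∈ torV M 𝔭, galV M hG g w - u • w ∈ C := by
  obtain ⟨x₁, hx₁, hx₁0⟩ := h.exists_ne_zero
  obtain ⟨w₁, hw₁, hw₁C⟩ := h.exists_notMem
  obtain ⟨κ, hκ⟩ := exists_smul_of_mem_line h.isMaximal h.le_torV h.finrank_C.le hx₁ hx₁0
    (h.stable_C g hg x₁ hx₁)
  obtain ⟨u, hu⟩ := exists_smul_add_of_notMem h.isMaximal h.finrank_torV h.le_torV h.finrank_C
    hw₁ hw₁C (galStable_torV M hG 𝔭 g w₁ hw₁)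
  refine ⟨κ, u, fun x hx => ?_, fun w hw => ?_⟩
  · obtain ⟨b, rfl⟩ := exists_smul_of_mem_line h.isMaximal h.le_torV h.finrank_C.le hx₁ hx₁0 hx
    rw [map_smul, ← hκ, smul_comm]
  · obtain ⟨a, ha⟩ := exists_smul_add_of_notMem h.isMaximal h.finrank_torV h.le_torV h.finrank_C
      hw₁ hw₁C hw
    have e1 : galV M hG g w - u • w = galV M hG g (w - a • w₁) - u • (w - a • w₁)
        + a • (galV M hG g w₁ - u • w₁) := by
      rw [map_sub, map_smul, smul_sub, smul_sub, smul_comm u a w₁]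
      abel
    rw [e1]
    exact Submodule.add_mem _ (Submodule.sub_mem _ (h.stable_C g hg _ ha) (C.smul_mem _ ha))
      (C.smul_mem _ hu)

/-- A quadratic relation modulo the line is a relation for the quotient entry. -/
theorem IsComponent.quad_mem (h : IsComponent M hG 𝔭 A C₀ e C) {g : Γℚ}
    (hg : g ∈ A.decompositionSubgroup ℚ) {u c : algA M} {r : ℚ_[P]} {w : Vt M}
    (hw : w ∈ torV M 𝔭) (hwC : w ∉ C) (hu : galV M hG g w - u • w ∈ C)
    (hq : galV M hG g (galV M hG g w) - c • galV M hG g w + r • w ∈ C) :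
    u ^ 2 - c * u + algebraMap ℚ_[P] (algA M) r ∈ 𝔭 := by
  refine mem_of_smul_mem h.isMaximal hw hwC ?_
  have e1 : (u ^ 2 - c * u + algebraMap ℚ_[P] (algA M) r) • w =
      (galV M hG g (galV M hG g w) - c • galV M hG g w + r • w)
        - galV M hG g (galV M hG g w - u • w) - (u - c) • (galV M hG g w - u • w) := by
    rw [add_smul, algebraMap_smul, map_sub, map_smul]
    module
  rw [e1]
  exact C.sub_mem (C.sub_mem hq (h.stable_C g hg _ hu)) (C.smul_mem _ hu)

/-- The two entries multiply to the cyclotomic character. -/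
theorem IsComponent.mul_diag (h : IsComponent M hG 𝔭 A C₀ e C) {g : Γℚ}
    (hg : g ∈ A.decompositionSubgroup ℚ) {κ u : algA M}
    (hκ : ∀ x ∈ C, galV M hG g x = κ • x)
    (hu : ∀ w ∈ torV M 𝔭, galV M hG g w - u • w ∈ C) :
    κ * u - algebraMap ℚ_[P] (algA M) (chiQ P g) ∈ 𝔭 := by
  have := h.isMaximal
  obtain ⟨x₁, hx₁, hx₁0⟩ := h.exists_ne_zero
  obtain ⟨w₁, hw₁, hw₁C⟩ := h.exists_notMem
  have key : ∀ g' ∈ A.decompositionSubgroup ℚ, ∀ κ' u' : algA M,
      galV M hG g' x₁ = κ' • x₁ → galV M hG g' w₁ - u' • w₁ ∈ C →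
      κ' ∉ 𝔭 ∧ (κ' - u' ∈ 𝔭 ∨ κ' * u' - algebraMap ℚ_[P] (algA M) (chiQ P g') ∈ 𝔭) := by
    intro g' hg' κ' u' h1 h2
    obtain ⟨c, -, hc⟩ := exists_trace_algR M hG g'
    have q2 := h.quad_mem hg' (c := c) (r := chiQ P g') hw₁ hw₁C h2 (by
      rw [← hc, galV_inv_apply, sub_add_eq_add_sub, sub_self]; exact C.zero_mem)
    have q1 : κ' ^ 2 - c * κ' + algebraMap ℚ_[P] (algA M) (chiQ P g') ∈ 𝔭 := by
      refine ker_smul_eq 𝔭 hx₁0 ((mem_torV M 𝔭).mp (h.le_torV hx₁)) _ ?_
      have h3 := hc (galV M hG g' x₁)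
      rw [galV_inv_apply, h1, map_smul, h1] at h3
      rw [add_smul, sub_smul, sq, mul_smul, mul_smul, algebraMap_smul, ← h3]
      abel
    refine ⟨fun hmem => ?_, ?_⟩
    · refine algebraMap_notMem M 𝔭 h.isMaximal
        ((IsUnit.map (chiQ P) (Group.isUnit g')).ne_zero) ?_
      have h4 := 𝔭.sub_mem q1 (𝔭.mul_mem_left (κ' - c) hmem)
      convert h4 using 1
      ring
    · have h5 : (κ' - u') * (κ' + u' - c) ∈ 𝔭 := by
        convert 𝔭.sub_mem q1 q2 using 1
        ring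
      rcases h.isMaximal.isPrime.mem_or_mem h5 with h6 | h6
      · exact Or.inl h6
      · refine Or.inr ?_
        convert 𝔭.sub_mem (𝔭.mul_mem_left κ' h6) q1 using 1
        ring
  rcases (key g hg κ u (hκ x₁ hx₁) (hu w₁ hw₁)).2 with hd | hd
  · obtain ⟨s, hs, hsχ⟩ := h.exists_ne
    have hsD := (Gal.mem_inertia_iff.mp hs).1
    have k2 := key (g * s) (mul_mem hg hsD) (algebraMap ℚ_[P] (algA M) (chiQ P s) * κ) u
      (by rw [galV_mul_apply, h.inertia_C s hs x₁ hx₁, galV_scalar_smul, hκ x₁ hx₁, mul_smul,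
        algebraMap_smul])
      (by
        have e1 : galV M hG (g * s) w₁ - u • w₁ =
            galV M hG g (galV M hG s w₁ - w₁) + (galV M hG g w₁ - u • w₁) := by
          rw [galV_mul_apply, map_sub]; abel
        rw [e1]
        exact C.add_mem (h.stable_C g hg _ (h.inertia_quot s hs w₁ hw₁)) (hu w₁ hw₁))
    rcases k2.2 with hd' | hd'
    · exfalso
      have h7 : algebraMap ℚ_[P] (algA M) (chiQ P s - 1) * κ ∈ 𝔭 := by
        convert 𝔭.sub_mem hd' hd using 1
        rw [map_sub, map_one]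
        ring
      rcases h.isMaximal.isPrime.mem_or_mem h7 with h8 | h8
      · exact algebraMap_notMem M 𝔭 h.isMaximal (sub_ne_zero.mpr hsχ) h8
      · exact (key g hg κ u (hκ x₁ hx₁) (hu w₁ hw₁)).1 h8
    · have h9 : algebraMap ℚ_[P] (algA M) (chiQ P s) *
          (κ * u - algebraMap ℚ_[P] (algA M) (chiQ P g)) ∈ 𝔭 := by
        convert hd' using 1
        rw [map_mul (chiQ P), map_mul (algebraMap ℚ_[P] (algA M))]
        ring
      exact (h.isMaximal.isPrime.mem_or_mem h9).resolve_left (algebraMap_notMem M 𝔭 h.isMaximal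
        ((IsUnit.map (chiQ P) (Group.isUnit s)).ne_zero))
  · exact hd

section Frobenius

variable {hh : HeckeOperatorsCommuteBar N}
  {hker : HeckePreservesKernel N} {hA : A.LiesOverPrime P} {hPN : ¬ P ∣ N}
  (hred : ReductionFacts N) (h𝔭 : IsEisPrime M A hh hker hA hPN 𝔭)
  (h : IsComponent M hG 𝔭 A (redKerV M A hh hker hA hPN) e C)
  {φ : Γℚ} (hφ : A.IsFrobeniusAt φ P)

include hred h hφ in
theorem IsComponent.congruence {w : Vt M} (hw : w ∈ torV M 𝔭) :
    galV M hG φ (galV M hG φ w)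
      - toA M (CuspForm.heckeAlgebra.T (Fact.out : P.Prime) hPN hPN) • galV M hG φ w
      + (P : ℚ_[P]) • w ∈ C := by
  obtain ⟨v, rfl⟩ := h.surj w hw
  have h1 := h.map_red _ (congruence_mem_redKerV M A hh hker hA hPN hG hred hφ v)
  rw [map_smul, map_smul, smul_comm (toA M _) e, smul_comm (P : ℚ_[P]) e, ← smul_sub, ← smul_add]
  exact h1

include hred h𝔭 h hφ in
/-- Frobenius has no invariant vector on the twisted line. -/
theorem IsComponent.frob_C {x : Vt M} (hx : x ∈ C) (he : galV M hG φ x = chiQ P φ • x) : x = 0 := by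
  by_contra hx0
  have := h.isMaximal
  have hφD := (Gal.isFrobeniusAt_iff.mp hφ).1
  obtain ⟨κ, u, hκ, hu⟩ := h.exists_diag hφD
  have hm := h.mul_diag hφD hκ hu
  have h1 : κ - algebraMap ℚ_[P] (algA M) (chiQ P φ) ∈ 𝔭 :=
    sub_mem_of_smul_eq M 𝔭 h.isMaximal (h.le_torV hx) hx0 (by rw [← hκ x hx, he])
  have h2 : algebraMap ℚ_[P] (algA M) (chiQ P φ) * (u - 1) ∈ 𝔭 := by
    convert 𝔭.sub_mem hm (𝔭.mul_mem_left u h1) using 1
    ring
  have h3 := (h.isMaximal.isPrime.mem_or_mem h2).resolve_left (algebraMap_notMem M 𝔭 h.isMaximal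
    ((IsUnit.map (chiQ P) (Group.isUnit φ)).ne_zero))
  obtain ⟨w, hw, hwC⟩ := h.exists_notMem
  have h4 := h.quad_mem hφD hw hwC (hu w hw) (h.congruence hred hφ hw)
  rw [map_natCast] at h4
  refine T_sub_notMem M 𝔭 A hh hker hA hPN h𝔭 (Fact.out : P.Prime) hPN ?_
  convert 𝔭.sub_mem (𝔭.mul_mem_left (u + 1 - toA M (CuspForm.heckeAlgebra.T
    (Fact.out : P.Prime) hPN hPN)) h3) h4 using 1
  ring

/-- The lattice action of Galois on a stable subspace. -/
def latGal (g : Γℚ) : lat M (torV M 𝔭) →ₗ[ℤ_[P]] lat M (torV M 𝔭) :=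
  (Matrix.mulVecLin (M.repPadic g)).restrict fun _ hx =>
    (galStable_torV M hG 𝔭).repPadic_mem g hx

theorem coe_latGal (g : Γℚ) (x : lat M (torV M 𝔭)) :
    toVt M (latGal (hG := hG) g x : Tlat M) = galV M hG g (toVt M x) := by
  rw [galV_toVt]
  rfl

/-- The lattice action of the Hecke algebra. -/
def latHecke (b : TGood N) : lat M (torV M 𝔭) →ₗ[ℤ_[P]] lat M (torV M 𝔭) :=
  (Matrix.mulVecLin (matT M b)).restrict fun x hx => by
    rw [mem_lat, Matrix.mulVecLin_apply, ← toA_smul_toVt]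
    exact Submodule.smul_mem _ _ hx

theorem coe_latHecke (b : TGood N) (x : lat M (torV M 𝔭)) :
    toVt M (latHecke b x : Tlat M) = toA M b • toVt M x := by
  rw [toA_smul_toVt]
  rfl

/-- A map intertwining a Hecke operator with a scalar intertwines its polynomials. -/
theorem latHecke_aeval (T : TGood N) (a : algA M) (F : lat M (torV M 𝔭) →ₗ[ℤ_[P]] Vt M)
    (hstep : ∀ y, F (latHecke T y) = a • F y) (m : Polynomial ℤ) (y : lat M (torV M 𝔭)) :
    F (latHecke (Polynomial.aeval T m) y) = Polynomial.aeval a m • F y := by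
  induction m using Polynomial.induction_on generalizing y with
  | C r =>
    rw [Polynomial.aeval_C, Polynomial.aeval_C, eq_intCast, eq_intCast, Int.cast_smul_eq_zsmul,
      ← map_zsmul]
    congr 1
    refine Subtype.ext (toVt_injective M ?_)
    rw [coe_latHecke, map_intCast, Submodule.coe_smul_of_tower, map_zsmul, Int.cast_smul_eq_zsmul]
  | add p q hp hq =>
    rw [map_add (Polynomial.aeval T), map_add (Polynomial.aeval a), add_smul, ← hp, ← hq,
      ← map_add F]
    congr 1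
    refine Subtype.ext (toVt_injective M ?_)
    rw [coe_latHecke, Submodule.coe_add, map_add (toVt M), coe_latHecke, coe_latHecke,
      map_add (toA M), add_smul]
  | monomial n r hp =>
    rw [pow_succ, ← mul_assoc, map_mul (Polynomial.aeval T), map_mul (Polynomial.aeval a),
      Polynomial.aeval_X, Polynomial.aeval_X, mul_smul]
    rw [← hstep, ← hp]
    congr 1
    refine Subtype.ext (toVt_injective M ?_)
    rw [coe_latHecke, coe_latHecke, coe_latHecke, map_mul (toA M), mul_smul]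

/-- The congruence relation on the lattice. -/
theorem toVt_quad_mem {T : TGood N}
    (hc : ∀ w ∈ torV M 𝔭, galV M hG φ (galV M hG φ w) - toA M T • galV M hG φ w
      + (P : ℚ_[P]) • w ∈ C) (x : lat M (torV M 𝔭)) :
    toVt M ((latGal (hG := hG) φ (latGal (hG := hG) φ x)
      - latHecke T (latGal (hG := hG) φ x) + P • x : lat M (torV M 𝔭)) : Tlat M) ∈ C := by
  rw [Submodule.coe_add, Submodule.coe_sub, map_add, map_sub, Submodule.coe_smul_of_tower,
    map_nsmul, coe_latGal, coe_latGal, coe_latHecke, coe_latGal, ← Nat.cast_smul_eq_nsmul ℚ_[P]]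
  exact hc _ x.2

/-- The twisted Frobenius trace on a map to the line. -/
theorem latHecke_step {T : TGood N}
    (hc : ∀ w ∈ torV M 𝔭, galV M hG φ (galV M hG φ w) - toA M T • galV M hG φ w
      + (P : ℚ_[P]) • w ∈ C) {κ κ' : algA M}
    (hκ : ∀ x ∈ C, galV M hG φ x = κ • x) (hκ' : ∀ x ∈ C, galV M hG φ⁻¹ x = κ' • x)
    {χ : ℚ_[P]} (hχ0 : χ ≠ 0) (F : lat M (torV M 𝔭) →ₗ[ℤ_[P]] Vt M)
    (hF0 : ∀ x : lat M (torV M 𝔭), toVt M x ∈ C → F x = 0) (hFC : ∀ x, F x ∈ C)
    (hrel : ∀ x, χ • F (latGal (hG := hG) φ x) = galV M hG φ (F x))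
    (y : lat M (torV M 𝔭)) :
    F (latHecke T y) = (algebraMap ℚ_[P] (algA M) χ⁻¹ * κ
      + (P : algA M) * (algebraMap ℚ_[P] (algA M) χ * κ')) • F y := by
  have hfwd : ∀ x, F (latGal (hG := hG) φ x) = χ⁻¹ • galV M hG φ (F x) := fun x => by
    rw [← hrel, inv_smul_smul₀ hχ0]
  set x := latGal (hG := hG) φ⁻¹ y with hx
  have hyx : latGal (hG := hG) φ x = y := Subtype.ext (toVt_injective M (by
    rw [coe_latGal, coe_latGal, galV_apply_inv]))
  have hFx : F x = χ • galV M hG φ⁻¹ (F y) := by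
    rw [← galV_scalar_smul M hG, ← hyx, hrel, galV_inv_apply]
  have h0 := hF0 _ (toVt_quad_mem hc x)
  rw [map_add F, map_sub F, map_nsmul F, hyx, sub_add_eq_add_sub, sub_eq_zero] at h0
  rw [← h0, hfwd, hFx, hκ _ (hFC y), hκ' _ (hFC y), add_smul, mul_smul, mul_smul, mul_smul,
    algebraMap_smul, algebraMap_smul, Nat.cast_smul_eq_nsmul]

include hred h hφ in
/-- There is no Frobenius equivariant map from the quotient to the twisted line. -/
theorem IsComponent.frob_hom (F : lat M (torV M 𝔭) →ₗ[ℤ_[P]] Vt M)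
    (hF0 : ∀ x : lat M (torV M 𝔭), toVt M x ∈ C → F x = 0) (hFC : ∀ x, F x ∈ C)
    (hrel : ∀ x, chiQ P φ • F (latGal (hG := hG) φ x) = galV M hG φ (F x)) : F = 0 := by
  have := h.isMaximal
  have hφD := (Gal.isFrobeniusAt_iff.mp hφ).1
  obtain ⟨κ, u, hκ, hu⟩ := h.exists_diag hφD
  obtain ⟨κ', u', hκ', -⟩ := h.exists_diag (inv_mem hφD)
  obtain ⟨w, hw, hwC⟩ := h.exists_notMem
  obtain ⟨x₁, hx₁, hx₁0⟩ := h.exists_ne_zero
  set χ := chiQ P φ with hχ
  have hχ0 : χ ≠ 0 := (IsUnit.map (chiQ P) (Group.isUnit φ)).ne_zero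
  set T := (CuspForm.heckeAlgebra.T (Fact.out : P.Prime) hPN hPN : TGood N) with hT
  set a : algA M := algebraMap ℚ_[P] (algA M) χ⁻¹ * κ
    + (P : algA M) * (algebraMap ℚ_[P] (algA M) χ * κ') with ha
  have hpow := latHecke_aeval T a F
    (latHecke_step (fun w hw => h.congruence hred hφ hw) hκ hκ' hχ0 F hF0 hFC hrel)
  let := Ideal.Quotient.field 𝔭
  have : CharZero (algA M ⧸ 𝔭) :=
    charZero_of_injective_algebraMap (algebraMap ℚ_[P] (algA M ⧸ 𝔭)).injective
  set q := Ideal.Quotient.mk 𝔭 with hq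
  have hqu := h.quad_mem hφD hw hwC (hu w hw) (h.congruence hred hφ hw)
  have hm1 := h.mul_diag hφD hκ hu
  have hm2 : κ' * κ - 1 ∈ 𝔭 :=
    ker_smul_eq 𝔭 hx₁0 ((mem_torV M 𝔭).mp (h.le_torV hx₁)) _ (by
      rw [sub_smul, one_smul, mul_smul, ← hκ' _ (C.smul_mem κ hx₁), ← hκ x₁ hx₁, galV_inv_apply,
        sub_self])
  rw [← Ideal.Quotient.eq, map_mul] at hm1
  rw [← Ideal.Quotient.eq, map_mul, map_one] at hm2
  rw [← Ideal.Quotient.eq_zero_iff_mem, map_add, map_sub, map_pow, map_mul, map_natCast,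
    map_natCast] at hqu
  obtain ⟨m, hm0, hmne⟩ := exists_poly_ne (q.comp (toA M)) (Fact.out : P.Prime) hPN hqu
  refine LinearMap.ext fun y => ?_
  have h5 := hpow m y
  rw [hm0, show latHecke (𝔭 := 𝔭) (0 : TGood N) y = 0 from Subtype.ext (toVt_injective M (by
      rw [coe_latHecke, map_zero, zero_smul, Submodule.coe_zero, map_zero])), map_zero] at h5
  by_contra hy
  refine hmne ?_
  have hmem := ker_smul_eq 𝔭 hy ((mem_torV M 𝔭).mp (h.le_torV (hFC y))) _ h5.symm
  rw [← Ideal.Quotient.eq_zero_iff_mem] at hmem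
  have hu0 : q u ≠ 0 := fun h0 => by
    rw [h0, mul_zero] at hm1
    exact algebraMap_notMem M 𝔭 h.isMaximal hχ0 (Ideal.Quotient.eq_zero_iff_mem.mp hm1.symm)
  have hq' : q a = (q u)⁻¹ + (P : algA M ⧸ 𝔭) * q u := by
    have hχq : q (algebraMap ℚ_[P] (algA M) χ) ≠ 0 := fun h0 =>
      algebraMap_notMem M 𝔭 h.isMaximal hχ0 (Ideal.Quotient.eq_zero_iff_mem.mp h0)
    have hinv : q (algebraMap ℚ_[P] (algA M) χ⁻¹) * q (algebraMap ℚ_[P] (algA M) χ) = 1 := by
      rw [← map_mul, ← map_mul, inv_mul_cancel₀ hχ0, map_one, map_one]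
    rw [ha, map_add, map_mul, map_mul, map_mul, map_natCast]
    congr 1
    · refine eq_inv_of_mul_eq_one_left ?_
      rw [mul_assoc, hm1, hinv]
    · congr 1
      linear_combination (q u) * hm2 - (q κ') * hm1
  rw [← hq']
  exact (Polynomial.aeval_algHom_apply q.toIntAlgHom a m).trans hmem

end Frobenius

end Fermat.Agent.Mazur
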