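import Mathlib.RingTheory.Artinian.Module
import Mathlib.RingTheory.Ideal.GoingUp
import Mathlib.RingTheory.Ideal.MinimalPrime.Localization
import Fermat.Agent.Attach.FiniteExt
import Fermat.Agent.Mazur.EisensteinComponent.Setup

/-!
# An Eisenstein prime visible in the reduction

A rational Eisenstein class which survives reduction modulo `P` gives a prime of the rational
Hecke algebra at which the reduction kernel is a proper submodule.
-/

noncomputable section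

open ModularCurve CongruenceSubgroup

namespace Fermat.Agent.Mazur

local notation "Qbar" => AlgebraicClosure ℚ

variable {N : ℕ} [NeZero N] {P : ℕ} [Fact P.Prime]

/-- In a domain finite over `ℤ_P` in which `P` is not zero, non-units are nilpotent modulo `P`. -/
theorem exists_pow_eq_mul_of_not_isUnit (C : Type) [CommRing C] [IsDomain C] [Algebra ℤ_[P] C]
    [Module.Finite ℤ_[P] C] {x : C} (hx : ¬ IsUnit x) :
    ∃ (K : ℕ) (s : C), x ^ K = algebraMap ℤ_[P] C (P : ℤ_[P]) * s := by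
  have : IsLocalRing C := Attach.isLocalRing_of_finite_domain (O := ℤ_[P]) C
  have : Algebra.IsIntegral ℤ_[P] C := Algebra.IsIntegral.of_finite _ _
  have hrad : x ∈ (Ideal.span {algebraMap ℤ_[P] C (P : ℤ_[P])}).radical := by
    rw [Ideal.radical_eq_sInf, Ideal.mem_sInf]
    rintro J ⟨hJ, hJp⟩
    have := hJp
    have hle : IsLocalRing.maximalIdeal ℤ_[P] ≤ J.comap (algebraMap ℤ_[P] C) := by
      rw [PadicInt.maximalIdeal_eq_span_p, Ideal.span_le, Set.singleton_subset_iff]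
      exact hJ (Ideal.mem_span_singleton_self _)
    have hmax : (J.comap (algebraMap ℤ_[P] C)).IsMaximal :=
      (IsLocalRing.maximalIdeal.isMaximal ℤ_[P]).eq_of_le (Ideal.IsPrime.comap _).ne_top hle ▸
        IsLocalRing.maximalIdeal.isMaximal ℤ_[P]
    have hJmax : J.IsMaximal := Ideal.isMaximal_of_isIntegral_of_isMaximal_comap J hmax
    rw [IsLocalRing.eq_maximalIdeal hJmax]
    exact hx
  obtain ⟨K, hK⟩ := hrad
  obtain ⟨s, hs⟩ := Ideal.mem_span_singleton.mp hK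
  exact ⟨K, s, hs⟩

variable (M : Attach.TorsionModel N P) (A : ValuationSubring Qbar)
  (hh : HeckeOperatorsCommuteBar N) (hker : HeckePreservesKernel N)
  (hA : A.LiesOverPrime P) (hPN : ¬ P ∣ N)

/-- `𝔭` is an Eisenstein prime visible in the reduction. -/
structure IsEisPrime (𝔭 : Ideal (algA M)) : Prop where
  isMaximal : 𝔭.IsMaximal
  visible : redKerV M A hh hker hA hPN ⊔ 𝔭 • (⊤ : Submodule (algA M) (Vt M)) ≠ ⊤
  ann_le : ∀ a : algA M, (∀ v : Vt M, a • v ∈ redKerV M A hh hker hA hPN) → a ∈ 𝔭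
  eisenstein : ∀ (ℓ : ℕ) (hℓ : ℓ.Prime) (hℓN : ¬ ℓ ∣ N), ∃ (K : ℕ) (s : algA M), s ∈ algR M ∧
    (toA M (CuspForm.heckeAlgebra.T hℓ hℓN hℓN - 1 - (ℓ : TGood N))) ^ K
      - (P : algA M) * s ∈ 𝔭

variable {M A}

theorem jAct_eq_zsmul_of_eigen (h : HeckeOperatorsCommuteBar N) {c : JZero N}
    (hc : ∀ ℓ : Nat.Primes, ¬ (ℓ : ℕ) ∣ N → heckeOperatorBar N ℓ c = (1 + (ℓ : ℕ)) • c)
    (t : GoodHecke N) : ∃ l : ℤ, jAct N h t c = l • c := by
  induction t using MvPolynomial.induction_on with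
  | C a =>
    refine ⟨a, ?_⟩
    rw [eq_intCast MvPolynomial.C, map_intCast]
    exact Module.End.intCast_apply (R := ℤ) a c
  | add p q hp hq =>
    obtain ⟨l, hl⟩ := hp
    obtain ⟨l', hl'⟩ := hq
    exact ⟨l + l', by rw [map_add, LinearMap.add_apply, hl, hl', add_zsmul]⟩
  | mul_X p ℓ hp =>
    obtain ⟨l, hl⟩ := hp
    refine ⟨((1 + (ℓ.1 : ℕ) : ℕ) : ℤ) * l, ?_⟩
    rw [map_mul, Module.End.mul_apply, jAct_X, hc ℓ.1 ℓ.2, map_nsmul, hl, ← natCast_zsmul,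
      ← mul_zsmul]

theorem exists_exact_class (hcusp : CuspClassAt N P) (hA : A.LiesOverPrime P) :
    ∃ (a : ℕ) (x₀ : Tlat M), reductionModL A N (ptP M a x₀) ≠ 0 ∧
      P • reductionModL A N (ptP M a x₀) = 0 ∧
      ∀ ℓ : Nat.Primes, ¬ (ℓ : ℕ) ∣ N →
        heckeOperatorBar N ℓ (ptP M a x₀) = (1 + (ℓ : ℕ)) • ptP M a x₀ := by
  classical
  obtain ⟨c, ⟨a, ha⟩, hred, heig⟩ := hcusp A hA
  have hex : ∃ j, P ^ j • reductionModL A N c = 0 := ⟨a, by rw [← map_nsmul, ha, map_zero]⟩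
  obtain ⟨j, hj⟩ : ∃ j, Nat.find hex = j + 1 := by
    refine Nat.exists_eq_succ_of_ne_zero fun h0 => hred ?_
    have := Nat.find_spec hex
    rwa [h0, pow_zero, one_nsmul] at this
  have h1 : P ^ (j + 1) • reductionModL A N c = 0 := hj ▸ Nat.find_spec hex
  have h2 : P ^ j • reductionModL A N c ≠ 0 := Nat.find_min hex (by omega)
  obtain ⟨x₀, hx₀⟩ := exists_ptP_eq M a (P ^ j • c) (by rw [smul_comm, ha, nsmul_zero])
  refine ⟨a, x₀, ?_, ?_, fun ℓ hℓ => ?_⟩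
  · rw [hx₀, map_nsmul]; exact h2
  · rw [hx₀, map_nsmul, ← mul_nsmul', ← pow_succ']; exact h1
  · rw [hx₀, map_nsmul, heig ℓ hℓ, smul_comm]

include hh hker hA hPN in
theorem algR_smul_redZero {a : ℕ} {r : algA M} (hr : r ∈ algR M) {y : Tlat M}
    (hy : reductionModL A N (ptP M a y) = 0) :
    ∃ z : Tlat M, r • toVt M y = toVt M z ∧ reductionModL A N (ptP M a z) = 0 := by
  rw [← Subalgebra.mem_toSubmodule, algR_eq_span] at hr
  induction hr using Submodule.span_induction with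
  | mem r hr =>
    obtain ⟨b, rfl⟩ := hr
    obtain ⟨t, rfl⟩ := formsEval_surjective b
    refine ⟨_, toA_smul_toVt M _ y, ?_⟩
    rw [← jAct_ptP M hh]
    exact hker hh P Fact.out hPN A hA t _ hy
  | zero => exact ⟨0, by rw [zero_smul, map_zero], by rw [map_zero, map_zero]⟩
  | add r r' _ _ h1 h2 =>
    obtain ⟨z, e1, hz⟩ := h1
    obtain ⟨z', e2, hz'⟩ := h2
    exact ⟨z + z', by rw [add_smul, e1, e2, map_add], by rw [map_add, map_add, hz, hz', add_zero]⟩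
  | smul c r _ h1 =>
    obtain ⟨z, e1, hz⟩ := h1
    exact ⟨c • z, by rw [smul_assoc, e1, map_smul], by rw [ptP_smul, map_nsmul, hz, nsmul_zero]⟩

include hh in
theorem algR_smul_eigen {a : ℕ} {x₀ : Tlat M}
    (heig : ∀ ℓ : Nat.Primes, ¬ (ℓ : ℕ) ∣ N →
      heckeOperatorBar N ℓ (ptP M a x₀) = (1 + (ℓ : ℕ)) • ptP M a x₀)
    {r : algA M} (hr : r ∈ algR M) :
    ∃ (z : Tlat M) (l : ℤ), r • toVt M x₀ = toVt M z ∧ ptP M a z = l • ptP M a x₀ := by
  rw [← Subalgebra.mem_toSubmodule, algR_eq_span] at hr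
  induction hr using Submodule.span_induction with
  | mem r hr =>
    obtain ⟨b, rfl⟩ := hr
    obtain ⟨t, rfl⟩ := formsEval_surjective b
    obtain ⟨l, hl⟩ := jAct_eq_zsmul_of_eigen hh heig t
    exact ⟨_, l, toA_smul_toVt M _ x₀, by rw [← jAct_ptP M hh, hl]⟩
  | zero => exact ⟨0, 0, by rw [zero_smul, map_zero], by rw [map_zero, zero_zsmul]⟩
  | add r r' _ _ h1 h2 =>
    obtain ⟨z, l, e1, hz⟩ := h1
    obtain ⟨z', l', e2, hz'⟩ := h2
    exact ⟨z + z', l + l', by rw [add_smul, e1, e2, map_add], by rw [map_add, hz, hz', add_zsmul]⟩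
  | smul c r _ h1 =>
    obtain ⟨z, l, e1, hz⟩ := h1
    exact ⟨c • z, (PadicInt.toZModPow a c).val * l, by rw [smul_assoc, e1, map_smul],
      by rw [ptP_smul, hz, ← natCast_zsmul, ← mul_zsmul]⟩

/-- Integral elements acting into the reduction kernel. -/
def annRed : Ideal (algR M) where
  carrier := {r | ∀ v : Vt M, (r : algA M) • v ∈ redKerV M A hh hker hA hPN}
  add_mem' {r s} hr hs v := by
    rw [Subalgebra.coe_add, add_smul]; exact Submodule.add_mem _ (hr v) (hs v)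
  zero_mem' v := by rw [Subalgebra.coe_zero, zero_smul]; exact Submodule.zero_mem _
  smul_mem' c r hr v := by
    rw [smul_eq_mul, Subalgebra.coe_mul, mul_smul]
    exact Submodule.smul_mem _ _ (hr v)

/-- Integral elements killing a class of level `Pᵃ` after reduction. -/
def annClass (a : ℕ) (x₀ : Tlat M) : Ideal (algR M) where
  carrier := {r | ∃ z : Tlat M, (r : algA M) • toVt M x₀ = toVt M z ∧
    reductionModL A N (ptP M a z) = 0}
  add_mem' := by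
    rintro r s ⟨z, e1, hz⟩ ⟨w, e2, hw⟩
    exact ⟨z + w, by rw [Subalgebra.coe_add, add_smul, e1, e2, map_add],
      by rw [map_add, map_add, hz, hw, add_zero]⟩
  zero_mem' := ⟨0, by rw [Subalgebra.coe_zero, zero_smul, map_zero], by rw [map_zero, map_zero]⟩
  smul_mem' := by
    rintro c r ⟨z, e1, hz⟩
    obtain ⟨w, e2, hw⟩ := algR_smul_redZero hh hker hA hPN c.2 hz
    exact ⟨w, by rw [smul_eq_mul, Subalgebra.coe_mul, mul_smul, e1, e2], hw⟩

include hker hA hPN in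
theorem annClass_isMaximal {a : ℕ} {x₀ : Tlat M} (hne : reductionModL A N (ptP M a x₀) ≠ 0)
    (hP : P • reductionModL A N (ptP M a x₀) = 0)
    (heig : ∀ ℓ : Nat.Primes, ¬ (ℓ : ℕ) ∣ N →
      heckeOperatorBar N ℓ (ptP M a x₀) = (1 + (ℓ : ℕ)) • ptP M a x₀) :
    (annClass hh hker hA hPN a x₀).IsMaximal := by
  rw [Ideal.isMaximal_iff]
  refine ⟨fun ⟨z, e, hz⟩ => hne ?_, fun J r hle hr hrJ => ?_⟩
  · rw [Subalgebra.coe_one, one_smul] at e
    rwa [← toVt_injective M e] at hz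
  obtain ⟨z, l, e, hz⟩ := algR_smul_eigen hh heig r.2
  have hl : ¬ (P : ℤ) ∣ l := by
    rintro ⟨m, rfl⟩
    exact hr ⟨z, e, by rw [hz, map_zsmul, mul_comm, mul_zsmul, natCast_zsmul, hP, smul_zero]⟩
  obtain ⟨u, v, huv⟩ :=
    ((Nat.prime_iff_prime_int.mp (Fact.out : P.Prime)).irreducible.coprime_iff_not_dvd).mpr hl
  have hmem : (v : algR M) * r - 1 ∈ annClass hh hker hA hPN a x₀ := by
    refine ⟨v • z - x₀, ?_, ?_⟩
    · rw [Subalgebra.coe_sub, Subalgebra.coe_mul, Subalgebra.coe_one, sub_smul, one_smul, mul_smul,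
        e, map_sub, map_zsmul]
      rw [show ((v : algR M) : algA M) = (v : algA M) from map_intCast (algR M).val v,
        Int.cast_smul_eq_zsmul]
    · rw [map_sub, map_zsmul, hz, map_sub, map_zsmul, map_zsmul, ← mul_zsmul, sub_eq_zero]
      conv_rhs => rw [← one_zsmul (reductionModL A N (ptP M a x₀)), ← huv, add_zsmul, mul_zsmul,
        natCast_zsmul, hP, smul_zero, zero_add]
  have h1 := J.sub_mem (J.mul_mem_left (v : algR M) hrJ) (hle hmem)
  rwa [sub_sub_cancel] at h1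

theorem coe_natCast_algR (n : ℕ) : ((n : algR M) : algA M) = (n : algA M) :=
  map_natCast (algR M).val n

theorem coe_pow_algR (k : ℕ) : (((P : algR M) ^ k : algR M) : algA M) = (P : algA M) ^ k := by
  rw [SubmonoidClass.coe_pow, coe_natCast_algR]

theorem pow_smul_eq_mul (k : ℕ) (x : algA M) : ((P : ℚ_[P]) ^ k) • x = (P : algA M) ^ k * x := by
  rw [Algebra.smul_def, map_pow, map_natCast]

theorem exists_pow_mul_mem_algR (x : algA M) : ∃ k : ℕ, (P : algA M) ^ k * x ∈ algR M := by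
  obtain ⟨k, hk⟩ := exists_pow_smul_mem_algR M x
  exact ⟨k, pow_smul_eq_mul (M := M) k x ▸ hk⟩

theorem mem_of_nat_mul_smul_mem (C : Submodule (algA M) (Vt M)) (a : algA M) {v : Vt M}
    (h : ((P : algA M) * a) • v ∈ C) : a • v ∈ C := by
  have h2 := Submodule.smul_mem C (algebraMap ℚ_[P] (algA M) (P : ℚ_[P])⁻¹) h
  rwa [← map_natCast (algebraMap ℚ_[P] (algA M)), smul_smul, ← mul_assoc, ← map_mul,
    inv_mul_cancel₀ (by exact_mod_cast (Fact.out : P.Prime).ne_zero), map_one, one_mul] at h2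

theorem annRed_saturated {r : algR M}
    (hr : (P : algR M) * r ∈ annRed hh hker hA hPN (M := M) (A := A)) :
    r ∈ annRed hh hker hA hPN (M := M) (A := A) := fun v => by
  have h1 := hr v
  rw [Subalgebra.coe_mul, coe_natCast_algR] at h1
  exact mem_of_nat_mul_smul_mem _ _ h1

/-- An element which is regular modulo `I` avoids the minimal primes of `I`. -/
theorem notMem_minimalPrime_of_saturated {R : Type*} [CommRing R] {I 𝔮 : Ideal R}
    (h𝔮 : 𝔮 ∈ I.minimalPrimes) {p : R} (hp : ∀ r, p * r ∈ I → r ∈ I) : p ∉ 𝔮 := fun hmem => by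
  rw [Ideal.minimalPrimes_eq_comap] at h𝔮
  obtain ⟨q, hq, rfl⟩ := h𝔮
  refine Set.disjoint_left.mp (Ideal.disjoint_nonZeroDivisors_of_mem_minimalPrimes hq) hmem
    (mem_nonZeroDivisors_iff_right.mpr fun y hy => ?_)
  obtain ⟨y, rfl⟩ := Ideal.Quotient.mk_surjective y
  rw [← map_mul, Ideal.Quotient.eq_zero_iff_mem] at hy
  exact Ideal.Quotient.eq_zero_iff_mem.mpr (hp y (by rwa [mul_comm]))

/-- The prime of the rational algebra over a prime of the order avoiding `P`. -/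
def satIdeal (𝔮 : Ideal (algR M)) : Ideal (algA M) where
  carrier := {x | ∃ (k : ℕ) (r : algR M), r ∈ 𝔮 ∧ (P : algA M) ^ k * x = r}
  add_mem' := by
    rintro x y ⟨k, r, hr, hx⟩ ⟨l, s, hs, hy⟩
    refine ⟨k + l, (P : algR M) ^ l * r + (P : algR M) ^ k * s,
      𝔮.add_mem (𝔮.mul_mem_left _ hr) (𝔮.mul_mem_left _ hs), ?_⟩
    rw [Subalgebra.coe_add, Subalgebra.coe_mul, Subalgebra.coe_mul, coe_pow_algR, coe_pow_algR,
      ← hx, ← hy, pow_add]
    ring
  zero_mem' := ⟨0, 0, 𝔮.zero_mem, by simp⟩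
  smul_mem' := by
    rintro c x ⟨k, r, hr, hx⟩
    obtain ⟨l, hl⟩ := exists_pow_mul_mem_algR c
    refine ⟨k + l, ⟨_, hl⟩ * r, 𝔮.mul_mem_left _ hr, ?_⟩
    rw [Subalgebra.coe_mul, ← hx, pow_add, smul_eq_mul]
    ring

theorem mem_satIdeal {𝔮 : Ideal (algR M)} {x : algA M} :
    x ∈ satIdeal 𝔮 ↔ ∃ (k : ℕ) (r : algR M), r ∈ 𝔮 ∧ (P : algA M) ^ k * x = r := Iff.rfl

theorem satIdeal_isPrime {𝔮 : Ideal (algR M)} [h𝔮 : 𝔮.IsPrime] (hP : (P : algR M) ∉ 𝔮) :
    (satIdeal 𝔮).IsPrime := by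
  have hpow : ∀ k : ℕ, (P : algR M) ^ k ∉ 𝔮 := fun k hk => hP (h𝔮.mem_of_pow_mem k hk)
  refine ⟨fun htop => ?_, ?_⟩
  · obtain ⟨k, r, hr, he⟩ := mem_satIdeal.mp (htop ▸ Submodule.mem_top : (1 : algA M) ∈ satIdeal 𝔮)
    rw [mul_one, ← coe_pow_algR] at he
    exact hpow k (Subtype.ext he ▸ hr)
  · rintro x y ⟨k, r, hr, hxy⟩
    obtain ⟨i, hi⟩ := exists_pow_mul_mem_algR x
    obtain ⟨j, hj⟩ := exists_pow_mul_mem_algR y
    have hin : (⟨_, hi⟩ : algR M) * ⟨_, hj⟩ * (P : algR M) ^ k ∈ 𝔮 := by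
      have e : (⟨_, hi⟩ : algR M) * ⟨_, hj⟩ * (P : algR M) ^ k = (P : algR M) ^ (i + j) * r := by
        refine Subtype.ext ?_
        rw [Subalgebra.coe_mul, Subalgebra.coe_mul, Subalgebra.coe_mul, coe_pow_algR, coe_pow_algR,
          ← hxy, pow_add]
        ring
      rw [e]
      exact 𝔮.mul_mem_left _ hr
    rcases h𝔮.mem_or_mem ((h𝔮.mem_or_mem hin).resolve_right (hpow k)) with h | h
    · exact Or.inl ⟨i, ⟨_, hi⟩, h, rfl⟩
    · exact Or.inr ⟨j, ⟨_, hj⟩, h, rfl⟩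

/-- A maximal ideal containing the annihilator of a quotient does not kill it. -/
theorem sup_smul_top_ne_top {R V : Type*} [CommRing R] [AddCommGroup V] [Module R V]
    [Module.Finite R V] (C : Submodule R V) (𝔭 : Ideal R) (h𝔭 : 𝔭 ≠ ⊤)
    (hann : ∀ a : R, (∀ v, a • v ∈ C) → a ∈ 𝔭) : C ⊔ 𝔭 • (⊤ : Submodule R V) ≠ ⊤ := fun htop => by
  have hle : (⊤ : Submodule R (V ⧸ C)) ≤ 𝔭 • ⊤ := by
    intro q _
    obtain ⟨v, rfl⟩ := Submodule.Quotient.mk_surjective C q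
    have hv : v ∈ C ⊔ 𝔭 • (⊤ : Submodule R V) := htop.ge Submodule.mem_top
    obtain ⟨c, hc, w, hw, rfl⟩ := Submodule.mem_sup.mp hv
    rw [Submodule.Quotient.mk_add, (Submodule.Quotient.mk_eq_zero C).mpr hc, zero_add]
    have h1 := Submodule.mem_map_of_mem (f := C.mkQ) hw
    rw [Submodule.map_smul'', Submodule.map_top] at h1
    exact Submodule.smul_mono le_rfl le_top h1
  obtain ⟨e, he1, he0⟩ := Submodule.exists_sub_one_mem_and_smul_eq_zero_of_fg_of_le_smul 𝔭 ⊤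
    Module.Finite.fg_top hle
  have he : e ∈ 𝔭 := hann e fun v => by
    have h1 := he0 (Submodule.Quotient.mk v) Submodule.mem_top
    rwa [← Submodule.Quotient.mk_smul, Submodule.Quotient.mk_eq_zero] at h1
  refine h𝔭 ((Ideal.eq_top_iff_one _).mpr ?_)
  have h2 := 𝔭.sub_mem he he1
  rwa [sub_sub_cancel] at h2

include hh hker hA hPN in
theorem eisenstein_mem_annClass {a : ℕ} {x₀ : Tlat M}
    (heig : ∀ ℓ : Nat.Primes, ¬ (ℓ : ℕ) ∣ N →
      heckeOperatorBar N ℓ (ptP M a x₀) = (1 + (ℓ : ℕ)) • ptP M a x₀)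
    {ℓ : ℕ} (hℓ : ℓ.Prime) (hℓN : ¬ ℓ ∣ N) :
    (⟨toA M (CuspForm.heckeAlgebra.T hℓ hℓN hℓN - 1 - (ℓ : TGood N)),
      Algebra.subset_adjoin ⟨_, rfl⟩⟩ : algR M) ∈ annClass hh hker hA hPN a x₀ := by
  refine ⟨_, toA_smul_toVt M _ x₀, ?_⟩
  have e : CuspForm.heckeAlgebra.T hℓ hℓN hℓN - 1 - (ℓ : TGood N) =
      formsEval N (MvPolynomial.X ⟨⟨ℓ, hℓ⟩, hℓN⟩ - 1 - (ℓ : GoodHecke N)) := by
    rw [map_sub, map_sub, map_one, map_natCast]
    rw [show formsEval N (MvPolynomial.X ⟨⟨ℓ, hℓ⟩, hℓN⟩) = CuspForm.heckeAlgebra.T hℓ hℓN hℓN from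
      MvPolynomial.aeval_X _ _]
  have h0 : jAct N hh (MvPolynomial.X ⟨⟨ℓ, hℓ⟩, hℓN⟩ - 1 - (ℓ : GoodHecke N)) (ptP M a x₀) = 0 := by
    generalize hy : ptP M a x₀ = y
    have hy' := heig ⟨ℓ, hℓ⟩ hℓN
    rw [hy] at hy'
    rw [(jAct N hh).map_sub, (jAct N hh).map_sub, (jAct N hh).map_one, map_natCast (jAct N hh) ℓ,
      LinearMap.sub_apply, LinearMap.sub_apply, jAct_X, hy', Module.End.one_apply,
      Module.End.natCast_apply, add_nsmul, one_nsmul, sub_sub, sub_self]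
  rw [e, ← jAct_ptP M hh, h0, (reductionModL A N).map_zero]

/-- An element of a maximal ideal over a prime `𝔮` is nilpotent modulo `P` and `𝔮`. -/
theorem exists_pow_sub_mem_of_mem_maximal (R : Type) [CommRing R] [Algebra ℤ_[P] R]
    [Module.Finite ℤ_[P] R] (𝔮 𝔪 : Ideal R) [𝔮.IsPrime] (h𝔪 : 𝔪 ≠ ⊤) (hle : 𝔮 ≤ 𝔪) {x : R}
    (hx : x ∈ 𝔪) : ∃ (K : ℕ) (s : R), x ^ K - algebraMap ℤ_[P] R (P : ℤ_[P]) * s ∈ 𝔮 := by
  have hnu : ¬ IsUnit (Ideal.Quotient.mk 𝔮 x) := by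
    intro hu
    obtain ⟨w, hw⟩ := hu.exists_left_inv
    obtain ⟨w, rfl⟩ := Ideal.Quotient.mk_surjective w
    rw [← map_mul, ← map_one (Ideal.Quotient.mk 𝔮), Ideal.Quotient.eq] at hw
    refine h𝔪 ((Ideal.eq_top_iff_one _).mpr ?_)
    have h1 := 𝔪.sub_mem (𝔪.mul_mem_left w hx) (hle hw)
    rwa [sub_sub_cancel] at h1
  have : Module.Finite ℤ_[P] (R ⧸ 𝔮) :=
    Module.Finite.of_surjective (Ideal.Quotient.mkₐ ℤ_[P] 𝔮).toLinearMap
      Ideal.Quotient.mk_surjective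
  obtain ⟨K, s, hs⟩ := exists_pow_eq_mul_of_not_isUnit (P := P) (R ⧸ 𝔮) hnu
  obtain ⟨s, rfl⟩ := Ideal.Quotient.mk_surjective s
  refine ⟨K, s, Ideal.Quotient.eq.mp ?_⟩
  rw [map_pow, hs, map_mul]
  rfl

variable (M A)

include hh hker hA hPN in
/-- A visible Eisenstein class gives an Eisenstein prime visible in the reduction. -/
theorem exists_isEisPrime (hcusp : CuspClassAt N P) :
    ∃ 𝔭 : Ideal (algA M), IsEisPrime M A hh hker hA hPN 𝔭 := by
  have := finite_algR M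
  obtain ⟨a, x₀, hne, hP, heig⟩ := exists_exact_class (M := M) (A := A) hcusp hA
  have hmax := annClass_isMaximal hh hker hA hPN hne hP heig
  have hIm : annRed hh hker hA hPN (M := M) (A := A) ≤ annClass hh hker hA hPN a x₀ :=
      fun r hr => by
    obtain ⟨y, hy⟩ := algR_smul_toVt M r.2 x₀
    have h1 : toVt M y ∈ redKerV M A hh hker hA hPN := hy ▸ hr (toVt M x₀)
    exact ⟨y, hy, (toVt_mem_redKerV_iff M A hh hker hA hPN y).mp h1 a⟩
  obtain ⟨𝔮, h𝔮, h𝔮m⟩ := Ideal.exists_minimalPrimes_le hIm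
  have h𝔮p : 𝔮.IsPrime := h𝔮.1.1
  have hP𝔮 : (P : algR M) ∉ 𝔮 := notMem_minimalPrime_of_saturated h𝔮
    fun r hr => annRed_saturated hh hker hA hPN hr
  have hprime := satIdeal_isPrime hP𝔮
  have : IsArtinianRing (algA M) := IsArtinianRing.of_finite ℚ_[P] (algA M)
  have hann : ∀ x : algA M, (∀ v : Vt M, x • v ∈ redKerV M A hh hker hA hPN) → x ∈ satIdeal 𝔮 := by
    intro x hx
    obtain ⟨k, hk⟩ := exists_pow_mul_mem_algR x
    refine ⟨k, ⟨_, hk⟩, h𝔮.1.2 fun v => ?_, rfl⟩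
    show ((P : algA M) ^ k * x) • v ∈ _
    rw [mul_smul]
    exact Submodule.smul_mem _ _ (hx v)
  refine ⟨satIdeal 𝔮, ⟨inferInstance, sup_smul_top_ne_top _ _ hprime.ne_top hann, hann,
    fun ℓ hℓ hℓN => ?_⟩⟩
  obtain ⟨K, s, hs⟩ := exists_pow_sub_mem_of_mem_maximal (P := P) (algR M) 𝔮 _ hmax.ne_top h𝔮m
    (eisenstein_mem_annClass hh hker hA hPN heig hℓ hℓN)
  refine ⟨K, s, s.2, 0, _, hs, ?_⟩
  rw [pow_zero, one_mul, Subalgebra.coe_sub, SubmonoidClass.coe_pow, Subalgebra.coe_mul,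
      map_natCast,
    coe_natCast_algR]

end Fermat.Agent.Mazur
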