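import Fermat.Agent.Attach.Coeff
import Fermat.Agent.Mazur.EisensteinComponent.Setup

/-!
# The cyclotomic character and traces in the Hecke algebra

For every Galois element `g`, the operator `g + χ(g) g⁻¹` on the Tate module is an integral
element of the Hecke algebra.
-/

noncomputable section

open ModularCurve CongruenceSubgroup

namespace Fermat.Agent.Mazur

local notation "Qbar" => AlgebraicClosure ℚ
local notation "Γℚ" => AlgebraicClosure ℚ ≃ₐ[ℚ] AlgebraicClosure ℚ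

variable {N : ℕ} [NeZero N] {P : ℕ} [Fact P.Prime]

theorem chi_eq_cycPadic (σ : Γℚ) : chi P σ = Attach.cycPadic P σ := rfl

theorem toZModPow_chi (n : ℕ) (σ : Γℚ) :
    PadicInt.toZModPow n (chi P σ : ℤ_[P]) = Attach.cyc P n σ := rfl

/-- The cyclotomic character in `ℚ_P`. -/
def chiQ (P : ℕ) [Fact P.Prime] : Γℚ →* ℚ_[P] :=
  ((algebraMap ℤ_[P] ℚ_[P]).toMonoidHom.comp (Units.coeHom ℤ_[P])).comp (Attach.cycPadic P)

theorem chiQ_apply (σ : Γℚ) : chiQ P σ = ((chi P σ : ℤ_[P]) : ℚ_[P]) := rfl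

variable (M : Attach.TorsionModel N P) (hG : Attach.TorsionGalois N P)

include hG in
theorem exists_powTrace_approx (n : ℕ) (g : Γℚ) :
    ∃ (ℓ : ℕ) (hℓ : ℓ.Prime) (hℓN : ¬ ℓ ∣ N) (k : ℕ),
      PadicInt.toZModPow n (chi P g : ℤ_[P]) = (ℓ : ZMod (P ^ n)) ^ k ∧
      ∀ i j, PadicInt.toZModPow n ((M.repPadic g + (chi P g : ℤ_[P]) • M.repPadic g⁻¹
        - matT M (Attach.powTrace (CuspForm.heckeAlgebra.T hℓ hℓN hℓN) (ℓ : TGood N) k)) i j) =
            0 := by
  classical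
  let S : Finset ℕ := insert P (N.primeFactors)
  have hNS : ∀ q, q.Prime → q ∣ N → q ∈ (↑S : Set ℕ) := fun q hq hqN =>
    Finset.mem_coe.mpr (Finset.mem_insert_of_mem (Nat.mem_primeFactors.mpr ⟨hq, hqN, NeZero.ne N⟩))
  obtain ⟨ℓ, hℓ, hℓN, hℓS, -, -, k, -, -, -, hc, hb⟩ :=
    M.exists_trace_element hG (Finset.mem_insert_self P _) hNS n g ⊥
  refine ⟨ℓ, hℓ, hℓN, k, hc, fun i j => ?_⟩
  have e : Attach.powTrace (CuspForm.heckeAlgebra.T hℓ hℓN hℓN) (ℓ : TGood N) k =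
      Attach.toAnemic hNS (Attach.powTrace (CuspForm.heckeAlgebra.T hℓ hℓN hℓS)
        (ℓ : CuspForm.heckeAlgebra N 2 (↑S : Set ℕ)) k) := by
    rw [Attach.map_powTrace, map_natCast, Attach.toAnemic_T]
  rw [Matrix.sub_apply, Matrix.add_apply, Matrix.smul_apply, smul_eq_mul, map_sub, map_add, map_mul,
    toZModPow_chi, sub_eq_zero]
  have h1 := congrFun (congrFun hb i) j
  rw [Matrix.add_apply, Matrix.smul_apply, smul_eq_mul, ← M.repPadic_mod, ← M.repPadic_mod] at h1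
  refine h1.trans ?_
  rw [e]
  exact (congrFun (congrFun (M.matO_mod hNS n _) i) j).symm

include hG in
theorem trace_mem_span (g : Γℚ) :
    M.repPadic g + (chi P g : ℤ_[P]) • M.repPadic g⁻¹ ∈
      Submodule.span ℤ_[P] (Set.range (matT M)) := by
  refine Attach.mem_of_forall_mem_sup _ (IsLocalRing.maximalIdeal ℤ_[P])
    (IsLocalRing.maximalIdeal.isMaximal _).ne_top _ fun n => ?_
  obtain ⟨ℓ, hℓ, hℓN, k, -, h⟩ := exists_powTrace_approx M hG n g
  refine Submodule.mem_sup.mpr ⟨matT M (Attach.powTrace (CuspForm.heckeAlgebra.T hℓ hℓN hℓN)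
    (ℓ : TGood N) k), Submodule.subset_span ⟨_, rfl⟩, _,
    Attach.matrix_mem_smul_top _ _ fun i j => ?_, add_sub_cancel _ _⟩
  rw [PadicInt.maximalIdeal_eq_span_p, Ideal.span_singleton_pow, ← PadicInt.ker_toZModPow,
    RingHom.mem_ker]
  exact h i j

/-- A Galois element through the rational matrices. -/
theorem galV_apply_eq (g : Γℚ) (v : Vt M) :
    galV M hG g v = ((M.repPadic g).map (algebraMap ℤ_[P] ℚ_[P])).mulVec v := by
  obtain ⟨k, x, he⟩ := exists_pow_smul_eq_toVt M v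
  have hne : ((P : ℚ_[P]) ^ k) ≠ 0 :=
    pow_ne_zero k (by exact_mod_cast (Fact.out : P.Prime).ne_zero)
  refine smul_right_injective (Vt M) hne ?_
  show ((P : ℚ_[P]) ^ k) • galV M hG g v = ((P : ℚ_[P]) ^ k) • _
  rw [← galV_scalar_smul M hG, he, galV_toVt, ← Matrix.mulVec_smul, he]
  funext i
  exact RingHom.map_mulVec (algebraMap ℤ_[P] ℚ_[P]) (M.repPadic g) x i

/-- `g + χ(g) g⁻¹` is an integral element of the Hecke algebra. -/
theorem exists_trace_algR (g : Γℚ) :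
    ∃ c ∈ algR M, ∀ v : Vt M, galV M hG g v + chiQ P g • galV M hG g⁻¹ v = c • v := by
  have key : ∀ X ∈ Submodule.span ℤ_[P] (Set.range (matT M)),
      ∃ c ∈ algR M, (X.map (algebraMap ℤ_[P] ℚ_[P])) = (c : Matrix _ _ ℚ_[P]) := by
    intro X hX
    induction hX using Submodule.span_induction with
    | mem X hX =>
      obtain ⟨b, rfl⟩ := hX
      refine ⟨toA M b, Algebra.subset_adjoin ⟨b, rfl⟩, ?_⟩
      ext i j
      exact map_intCast (algebraMap ℤ_[P] ℚ_[P]) (M.mat b i j)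
    | zero => exact ⟨0, Subalgebra.zero_mem _, by rw [Matrix.map_zero _ (map_zero _)]; rfl⟩
    | add X Y _ _ hX hY =>
      obtain ⟨c, hc, e1⟩ := hX
      obtain ⟨d, hd, e2⟩ := hY
      exact ⟨c + d, Subalgebra.add_mem _ hc hd, by
        rw [Matrix.map_add _ (map_add _), e1, e2, Subalgebra.coe_add]⟩
    | smul r X _ hX =>
      obtain ⟨c, hc, e1⟩ := hX
      refine ⟨r • c, Subalgebra.smul_mem _ hc r, ?_⟩
      rw [← algebraMap_smul ℚ_[P] r c, Subalgebra.coe_smul, ← e1]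
      ext i j
      exact map_mul (algebraMap ℤ_[P] ℚ_[P]) r _
  obtain ⟨c, hc, he⟩ := key _ (trace_mem_span M hG g)
  refine ⟨c, hc, fun v => ?_⟩
  rw [algA_smul_def, ← he, galV_apply_eq, galV_apply_eq, ← Matrix.smul_mulVec, ← Matrix.add_mulVec]
  congr 1

end Fermat.Agent.Mazur
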