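import Fermat.Agent.Mazur.EisensteinComponent.EigenPoly
import Fermat.Agent.Mazur.EisensteinComponent.Lattice
import Fermat.Agent.Mazur.EisensteinComponent.Prime
import Fermat.Agent.Mazur.EisensteinComponent.Trace

/-!
# Galois on the torsion of an Eisenstein prime

The subspace `V[𝔭]` of the rational Tate module is stable under Galois, has no fixed vector, and
inertia at the residue characteristic does not act on it by scalars.
-/

noncomputable section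

open ModularCurve CongruenceSubgroup

namespace Fermat.Agent.Mazur

local notation "Qbar" => AlgebraicClosure ℚ
local notation "Γℚ" => AlgebraicClosure ℚ ≃ₐ[ℚ] AlgebraicClosure ℚ

variable {N : ℕ} [NeZero N] {P : ℕ} [Fact P.Prime] (M : Attach.TorsionModel N P)
  (hG : Attach.TorsionGalois N P) (𝔭 : Ideal (algA M))

/-- The vectors killed by the prime. -/
def torV : Submodule (algA M) (Vt M) := Submodule.torsionBySet (algA M) (Vt M) (𝔭 : Set (algA M))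

theorem mem_torV {v : Vt M} : v ∈ torV M 𝔭 ↔ ∀ p ∈ 𝔭, p • v = 0 :=
  (Submodule.mem_torsionBySet_iff _ _).trans ⟨fun h p hp => h ⟨p, hp⟩, fun h p => h p p.2⟩

theorem galStable_torV : GalStable M hG (torV M 𝔭) := fun σ v hv =>
  (mem_torV M 𝔭).mpr fun p hp => by rw [← map_smul, (mem_torV M 𝔭).mp hv p hp, map_zero]

/-- Scalars of `ℚ_P` in the Hecke algebra. -/
theorem sub_smul_eq (a : algA M) (c : ℚ_[P]) (v : Vt M) :
    (a - algebraMap ℚ_[P] (algA M) c) • v = a • v - c • v := by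
  rw [sub_smul, algebraMap_smul]

theorem algebraMap_notMem (h𝔭 : 𝔭.IsMaximal) {c : ℚ_[P]} (hc : c ≠ 0) :
    algebraMap ℚ_[P] (algA M) c ∉ 𝔭 := fun h =>
  h𝔭.ne_top (Ideal.eq_top_of_isUnit_mem 𝔭 h ((IsUnit.mk0 c hc).map _))

/-- An element acting as a scalar on a nonzero vector of `V[𝔭]`. -/
theorem sub_mem_of_smul_eq (h𝔭 : 𝔭.IsMaximal) {v : Vt M} (hv : v ∈ torV M 𝔭) (hv0 : v ≠ 0)
    {a : algA M} {c : ℚ_[P]} (h : a • v = c • v) : a - algebraMap ℚ_[P] (algA M) c ∈ 𝔭 := by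
  have := h𝔭
  exact ker_smul_eq 𝔭 hv0 ((mem_torV M 𝔭).mp hv) _ (by rw [sub_smul_eq, h, sub_self])

include hG in
theorem galV_frobenius {ℓ : ℕ} (hℓ : ℓ.Prime) (hℓN : ¬ ℓ ∣ N) (hℓP : ℓ ≠ P)
    {A : ValuationSubring Qbar} (hA : A.LiesOverPrime ℓ) {σ : Γℚ} (hσ : A.IsFrobeniusAt σ ℓ)
    (v : Vt M) :
    galV M hG σ (galV M hG σ v) - toA M (CuspForm.heckeAlgebra.T hℓ hℓN hℓN) • galV M hG σ v
      + (ℓ : ℚ_[P]) • v = 0 := by
  have hℓNp : ¬ ℓ ∣ N * P := fun h => (hℓ.dvd_mul.mp h).elim hℓN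
    fun h => hℓP ((Nat.prime_dvd_prime_iff_eq hℓ Fact.out).mp h)
  obtain ⟨k, x, he⟩ := exists_pow_smul_eq_toVt M v
  have hx : (M.repPadic σ).mulVec ((M.repPadic σ).mulVec x)
      - (matT M (CuspForm.heckeAlgebra.T hℓ hℓN hℓN)).mulVec ((M.repPadic σ).mulVec x)
      + ℓ • x = 0 := eq_zero_of_forall_ptP M fun n => by
    have h := hG.frobenius ⟨ℓ, hℓ⟩ hℓNp A hA σ hσ (ptP M n x) ⟨n, ptP_torsion M n x⟩
    obtain ⟨v, hv⟩ := exists_intLift M n ((M.repPadic σ).mulVec x)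
    have e :
        ptP M n ((matT M (CuspForm.heckeAlgebra.T hℓ hℓN hℓN)).mulVec ((M.repPadic σ).mulVec x)) =
        heckeOperatorBar N ⟨ℓ, hℓ⟩ (ptP M n ((M.repPadic σ).mulVec x)) := by
      rw [ptP_matT M n _ _ v hv, ptP_eq_pt M n _ v hv, M.pt_hecke ⟨ℓ, hℓ⟩ hℓN]
    rw [map_add, map_sub, map_nsmul, e, ← smul_ptP, ← smul_ptP]
    exact h
  refine smul_right_injective (Vt M)
    (pow_ne_zero k (by exact_mod_cast (Fact.out : P.Prime).ne_zero) : ((P : ℚ_[P]) ^ k) ≠ 0) ?_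
  show ((P : ℚ_[P]) ^ k) • _ = ((P : ℚ_[P]) ^ k) • (0 : Vt M)
  rw [smul_zero]
  refine (smul_quad (galV M hG σ) (toA M (CuspForm.heckeAlgebra.T hℓ hℓN hℓN))
    ((P : ℚ_[P]) ^ k) ℓ v).trans ?_
  rw [he, galV_toVt, galV_toVt, toA_smul_toVt, ← map_nsmul, ← map_sub, ← map_add, hx, map_zero]

variable (A : ValuationSubring Qbar) (hh : HeckeOperatorsCommuteBar N)
  (hker : HeckePreservesKernel N) (hA : A.LiesOverPrime P) (hPN : ¬ P ∣ N)
  (hred : ReductionFacts N) (h𝔭 : IsEisPrime M A hh hker hA hPN 𝔭)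

include h𝔭 in
/-- `T_ℓ` is not `1 + ℓ` at the prime. -/
theorem T_sub_notMem {ℓ : ℕ} (hℓ : ℓ.Prime) (hℓN : ¬ ℓ ∣ N) :
    toA M (CuspForm.heckeAlgebra.T hℓ hℓN hℓN) - (1 + (ℓ : algA M)) ∉ 𝔭 := fun h => by
  have := h𝔭.isMaximal
  let := Ideal.Quotient.field 𝔭
  have : CharZero (algA M ⧸ 𝔭) :=
    charZero_of_injective_algebraMap (algebraMap ℚ_[P] (algA M ⧸ 𝔭)).injective
  refine map_T_ne ((Ideal.Quotient.mk 𝔭).comp (toA M)) hℓ hℓN ?_
  rw [RingHom.comp_apply, ← map_natCast (Ideal.Quotient.mk 𝔭), ← map_one (Ideal.Quotient.mk 𝔭),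
    ← map_add, Ideal.Quotient.eq]
  exact h

include h𝔭 in
/-- No nonzero vector of `V[𝔭]` is fixed by Galois. -/
theorem eq_zero_of_fixed {v : Vt M} (hv : v ∈ torV M 𝔭) (h : ∀ σ, galV M hG σ v = v) : v = 0 := by
  by_contra hv0
  have := h𝔭.isMaximal
  obtain ⟨ℓ, hℓ, hℓp⟩ : ∃ ℓ, ℓ > N + P ∧ ℓ.Prime :=
    let ⟨ℓ, h1, h2⟩ := Nat.exists_infinite_primes (N + P + 1)
    ⟨ℓ, h1, h2⟩
  have hℓN : ¬ ℓ ∣ N := fun hd => by
    have := Nat.le_of_dvd (NeZero.pos N) hd; omega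
  obtain ⟨B, σ, hB, hσ⟩ := Gal.exists_liesOverPrime_isFrobeniusAt hℓp
  have e := galV_frobenius M hG hℓp hℓN (by omega) hB hσ v
  rw [h, h] at e
  refine T_sub_notMem M 𝔭 A hh hker hA hPN h𝔭 hℓp hℓN
    (ker_smul_eq 𝔭 hv0 ((mem_torV M 𝔭).mp hv) _ ?_)
  rw [sub_smul, add_smul, one_smul, Nat.cast_smul_eq_nsmul]
  rw [Nat.cast_smul_eq_nsmul] at e
  rw [← neg_eq_zero, ← e]
  abel

/-- Some inertia element at `P` has nontrivial cyclotomic character. -/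
theorem exists_chi_ne_one (hA : A.LiesOverPrime P) :
    ∃ σ ∈ A.inertiaSubgroupIn ℚ, chiQ P σ ≠ 1 := by
  by_contra hall
  push Not at hall
  have h1 : ∀ g : Γℚ, Attach.cyc P 2 g = 1 := fun g => by
    refine Gal.eq_one_of_unramified _ (Attach.cyc_finite_level P 2) (fun q hq B hB σ hσ => ?_) g
    by_cases hqP : q = P
    · subst hqP
      obtain ⟨τ, hτ⟩ := Gal.exists_smul_eq hq hB hA
      have h2 := hall _ (hτ ▸ Gal.conj_mem_inertia hσ τ)
      rw [map_mul, map_mul, mul_right_comm, ← map_mul, mul_inv_cancel, map_one, one_mul] at h2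
      have h3 : ((chi q σ : ℤ_[q]ˣ) : ℤ_[q]) = 1 := by
        rw [chiQ_apply] at h2
        exact Subtype.ext (h2.trans PadicInt.coe_one.symm)
      rw [← toZModPow_chi, h3, map_one]
    · exact Attach.cyc_inertia P 2 hq hqP hB hσ
  have : NeZero ((P ^ 2 : ℕ) : Qbar) :=
    ⟨Nat.cast_ne_zero.mpr (pow_ne_zero _ (Fact.out : P.Prime).ne_zero)⟩
  obtain ⟨ζ, hζ⟩ := HasEnoughRootsOfUnity.exists_primitiveRoot Qbar (P ^ 2)
  have hP2 : 4 ≤ P ^ 2 := by
    have := (Fact.out : P.Prime).two_le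
    nlinarith
  have : Fact (1 < P ^ 2) := ⟨by omega⟩
  obtain ⟨n, hn⟩ := Gal.exists_intCast_eq (hζ.isIntegral (by omega)) fun σ => by
    rw [Attach.cyc_spec P 2 σ hζ.pow_eq_one, h1, ZMod.val_one, pow_one]
  have hnu : IsUnit n := by
    refine IsUnit.of_pow_eq_one (n := P ^ 2) ?_ (by omega)
    have h4 := hζ.pow_eq_one
    rw [← hn] at h4
    exact_mod_cast h4
  have hz2 : ζ ^ 2 = 1 := by
    rcases Int.isUnit_iff.mp hnu with rfl | rfl <;> rw [← hn] <;> norm_num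
  have := Nat.le_of_dvd (by norm_num) (hζ.dvd_of_pow_eq_one 2 hz2)
  omega

include hred h𝔭 in
/-- For inertia at `P`, `g + χ(g) g⁻¹` is `1 + χ(g)` at the prime. -/
theorem inertia_quad {σ : Γℚ} (hσ : σ ∈ A.inertiaSubgroupIn ℚ) {w : Vt M} (hw : w ∈ torV M 𝔭) :
    galV M hG σ (galV M hG σ w - w) = chiQ P σ • (galV M hG σ w - w) := by
  obtain ⟨c, -, hc⟩ := exists_trace_algR M hG σ
  have hmem : c - algebraMap ℚ_[P] (algA M) (1 + chiQ P σ) ∈ 𝔭 := h𝔭.ann_le _ fun v => by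
    have e : (c - algebraMap ℚ_[P] (algA M) (1 + chiQ P σ)) • v =
        (galV M hG σ v - v) + chiQ P σ • (galV M hG σ⁻¹ v - v) := by
      rw [sub_smul_eq, ← hc, add_smul, one_smul, smul_sub]
      abel
    rw [e, ← algebraMap_smul (algA M) (chiQ P σ) (galV M hG σ⁻¹ v - v)]
    exact Submodule.add_mem _ (galV_sub_mem_redKerV M A hh hker hA hPN hG hred hσ v)
      (Submodule.smul_mem _ _
        (galV_sub_mem_redKerV M A hh hker hA hPN hG hred (inv_mem hσ) v))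
  have h1 := (mem_torV M 𝔭).mp (galStable_torV M hG 𝔭 σ w hw) _ hmem
  rw [sub_smul_eq, ← hc, galV_inv_apply, add_smul, one_smul] at h1
  rw [map_sub, smul_sub, ← sub_eq_zero]
  rw [← h1]
  abel

variable {𝔭} in
/-- If one element acts on `V[𝔭]` by a scalar `r` with `r² ≠ χ`, every element is scalar there. -/
theorem exists_scalar_of_scalar {s : Γℚ} {r : ℚ_[P]} (hr : r * r ≠ chiQ P s)
    (hs : ∀ w ∈ torV M 𝔭, galV M hG s w = r • w) (g : Γℚ) :
    ∃ a : algA M, ∀ w ∈ torV M 𝔭, galV M hG g w = a • w := by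
  by_cases hr0 : r = 0
  · refine ⟨0, fun w hw => ?_⟩
    have h0 := galV_inv_apply M hG s w
    rw [hs w hw, hr0, zero_smul, map_zero] at h0
    rw [← h0, map_zero, smul_zero]
  have hsinv : ∀ w ∈ torV M 𝔭, galV M hG s⁻¹ w = r⁻¹ • w := fun w hw => by
    have h0 := galV_inv_apply M hG s w
    rw [hs w hw, galV_scalar_smul] at h0
    have h1 := congrArg (r⁻¹ • ·) h0
    simpa [smul_smul, hr0] using h1
  obtain ⟨c₁, -, hc₁⟩ := exists_trace_algR M hG (g⁻¹ * s)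
  obtain ⟨c₂, -, hc₂⟩ := exists_trace_algR M hG g⁻¹
  set z : ℚ_[P] := chiQ P g⁻¹ * (chiQ P s * r⁻¹ - r) with hz
  have hz0 : z ≠ 0 := mul_ne_zero ((IsUnit.map (chiQ P) (Group.isUnit g⁻¹)).ne_zero) (by
    rw [sub_ne_zero]
    intro h
    apply hr
    field_simp at h
    linear_combination -h)
  refine ⟨algebraMap ℚ_[P] (algA M) z⁻¹ * (c₁ - algebraMap ℚ_[P] (algA M) r * c₂), fun w hw => ?_⟩
  have h2 := hc₂ w
  rw [inv_inv] at h2
  have key : z • galV M hG g w = (c₁ - algebraMap ℚ_[P] (algA M) r * c₂) • w := by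
    rw [sub_smul, mul_smul (algebraMap ℚ_[P] (algA M) r) c₂ w, algebraMap_smul, ← hc₁, ← h2,
        galV_mul_apply, hs w hw, galV_scalar_smul,
      mul_inv_rev, inv_inv, galV_mul_apply, hsinv _ (galStable_torV M hG 𝔭 g w hw), map_mul, hz]
    module
  rw [mul_smul, algebraMap_smul, ← key, inv_smul_smul₀ hz0]

variable {𝔭} in
/-- Scalar inertia at the level is trivial on `V[𝔭]`. -/
theorem eq_self_of_scalar_unipotent (h𝔭 : 𝔭.IsMaximal) (hU : UnipotentInertia N P)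
    {B : ValuationSubring Qbar} (hB : B.LiesOverPrime N) {σ : Γℚ}
    (hσ : σ ∈ B.inertiaSubgroupIn ℚ) {a : algA M}
    (ha : ∀ w ∈ torV M 𝔭, galV M hG σ w = a • w) {w : Vt M} (hw : w ∈ torV M 𝔭) :
    galV M hG σ w = w := by
  by_cases hw0 : w = 0
  · rw [hw0, map_zero]
  have := h𝔭
  have h1 := galV_unipotent M hG hU hB hσ w
  rw [ha w hw] at h1
  have h2 : ((a - 1) * (a - 1)) • w = 0 := by
    rw [mul_smul, sub_smul a 1, one_smul, sub_eq_zero, sub_smul, one_smul,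
      ← ha _ (Submodule.sub_mem _ (Submodule.smul_mem _ a hw) hw), h1]
  have h3 := h𝔭.isPrime.mem_or_mem (ker_smul_eq 𝔭 hw0 ((mem_torV M 𝔭).mp hw) _ h2)
  have h4 := (mem_torV M 𝔭).mp hw _ (or_self_iff.mp h3)
  rw [sub_smul, one_smul, sub_eq_zero] at h4
  rw [ha w hw, h4]

variable (hU : UnipotentInertia N P) (hNp : N.Prime)

include hred h𝔭 hU hNp in
/-- Some inertia element at `P` with `χ ≠ 1` moves a vector of `V[𝔭]`. -/
theorem exists_inertia_ne {w₀ : Vt M} (hw₀ : w₀ ∈ torV M 𝔭) (hw₀0 : w₀ ≠ 0) :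
    ∃ σ ∈ A.inertiaSubgroupIn ℚ, chiQ P σ ≠ 1 ∧ ∃ w ∈ torV M 𝔭, galV M hG σ w ≠ w := by
  by_contra hall
  push Not at hall
  obtain ⟨s, hs, hsχ⟩ := exists_chi_ne_one A hA
  have hI : ∀ σ ∈ A.inertiaSubgroupIn ℚ, ∀ w ∈ torV M 𝔭, galV M hG σ w = w := by
    intro σ hσ w hw
    by_cases hχ : chiQ P σ = 1
    · have h1 := hall (σ * s) (mul_mem hσ hs) (by rwa [map_mul, hχ, one_mul]) w hw
      rwa [galV_mul_apply, hall s hs hsχ w hw] at h1
    · exact hall σ hσ hχ w hw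
  have hsc := exists_scalar_of_scalar M hG (s := s) (r := 1) (𝔭 := 𝔭)
    (by rw [one_mul]; exact fun h => hsχ h.symm) fun w hw => by rw [one_smul]; exact hI s hs w hw
  refine hw₀0 (eq_zero_of_fixed M hG 𝔭 A hh hker hA hPN h𝔭 hw₀ fun g =>
    galV_eq_self_of_unramified M hG (galStable_torV M hG 𝔭) (fun q hq hbad B hB σ hσ w hw => ?_)
      g hw₀)
  rcases hbad with hqN | rfl
  · obtain rfl := (Nat.prime_dvd_prime_iff_eq hq hNp).mp hqN
    obtain ⟨a, ha⟩ := hsc σ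
    exact eq_self_of_scalar_unipotent M hG h𝔭.isMaximal hU hB hσ ha hw
  · obtain ⟨τ, hτ⟩ := Gal.exists_smul_eq hq hB hA
    have h1 := hI _ (hτ ▸ Gal.conj_mem_inertia hσ τ) _ (galStable_torV M hG 𝔭 τ w hw)
    rw [galV_mul_apply, galV_inv_apply, galV_mul_apply] at h1
    have h2 := congrArg (galV M hG τ⁻¹) h1
    rwa [galV_inv_apply, galV_inv_apply] at h2

end Fermat.Agent.Mazur
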