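import Fermat.Agent.Mazur.EisensteinComponent.Frob

/-!
# Frobenius at the level on the Eisenstein component

The vectors of `V[𝔭]` on which Frobenius at `N` acts as `N` modulo the image of tame inertia form
a proper part of the component.
-/

noncomputable section

open ModularCurve CongruenceSubgroup

namespace Fermat.Agent.Mazur

local notation "Qbar" => AlgebraicClosure ℚ
local notation "Γℚ" => AlgebraicClosure ℚ ≃ₐ[ℚ] AlgebraicClosure ℚ

variable {N : ℕ} [NeZero N] {P : ℕ} [Fact P.Prime] {M : Attach.TorsionModel N P}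
  {hG : Attach.TorsionGalois N P} {𝔭 : Ideal (algA M)} {A : ValuationSubring Qbar}
  {C₀ : Submodule (algA M) (Vt M)} {e : algA M} {C : Submodule (algA M) (Vt M)}

variable (M hG 𝔭) in
/-- The image of `t - 1` on `V[𝔭]`. -/
def rangeW (t : Γℚ) : Submodule (algA M) (Vt M) := (torV M 𝔭).map (galV M hG t - 1)

theorem mem_rangeW {t : Γℚ} {v : Vt M} :
    v ∈ rangeW M hG 𝔭 t ↔ ∃ w ∈ torV M 𝔭, galV M hG t w - w = v := Iff.rfl

theorem galV_pow_of_unipotent (t : Γℚ) {v : Vt M}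
    (h : galV M hG t (galV M hG t v - v) = galV M hG t v - v) (m : ℕ) :
    galV M hG (t ^ m) v = v + m • (galV M hG t v - v) := by
  induction m with
  | zero => rw [pow_zero, map_one, Module.End.one_apply, zero_nsmul, add_zero]
  | succ m ih =>
    rw [pow_succ', galV_mul_apply, ih, map_add, map_nsmul, h, succ_nsmul]
    abel

/-- Frobenius at the level is not `N` modulo the image of inertia. -/
theorem IsComponent.exists_frob_notMem (h : IsComponent M hG 𝔭 A C₀ e C) (hNp : N.Prime)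
    (hNP : N ≠ P) (hU : UnipotentInertia N P) (hT : TameInertia N P)
    {B : ValuationSubring Qbar} (hB : B.LiesOverPrime N) {t φ : Γℚ}
    (ht : t ∈ B.inertiaSubgroupIn ℚ) (hφ : B.IsFrobeniusAt φ N) :
    ∃ w ∈ torV M 𝔭, galV M hG φ w - (N : ℚ_[P]) • w ∉ rangeW M hG 𝔭 t := by
  have := h.isMaximal
  by_contra hall
  push Not at hall
  have hN0 : (N : ℚ_[P]) ≠ 0 := Nat.cast_ne_zero.mpr hNp.ne_zero
  have hN1 : (N : ℚ_[P]) ≠ 1 := by exact_mod_cast hNp.one_lt.ne'
  have hχ : chiQ P φ = N := by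
    rw [chiQ_apply, chi_eq_cycPadic,
      Attach.TorsionModel.cycPadic_frobenius hNp hNP hB hφ, PadicInt.coe_natCast]
  have htt : ∀ v : Vt M, galV M hG t (galV M hG t v - v) = galV M hG t v - v :=
    fun v => galV_unipotent M hG hU hB ht v
  have hφφ : ∀ w ∈ torV M 𝔭, galV M hG φ (galV M hG t w - w) =
      N • (galV M hG t (galV M hG φ w) - galV M hG φ w) := fun w hw => by
    have h1 := galV_tame M hG (galStable_torV M hG 𝔭) hT hU hB hφ ht
      (galStable_torV M hG 𝔭 φ w hw)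
    rw [galV_mul_apply, galV_mul_apply, galV_inv_apply, galV_pow_of_unipotent t (htt _)] at h1
    rw [map_sub, h1, add_sub_cancel_left]
  by_cases hR : rangeW M hG 𝔭 t = ⊥
  · obtain ⟨s, hs, hsχ⟩ := h.exists_ne
    obtain ⟨a, ha⟩ := exists_scalar_of_scalar M hG (s := φ) (r := (N : ℚ_[P])) (𝔭 := 𝔭)
      (by
        rw [hχ]
        exact fun e1 => hN1 (mul_left_cancel₀ hN0 (e1.trans (mul_one _).symm)))
      (fun w hw => sub_eq_zero.mp ((Submodule.mem_bot (algA M)).mp (hR ▸ hall w hw))) s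
    obtain ⟨x, hx, hx0⟩ := h.exists_ne_zero
    obtain ⟨w, hw, hwC⟩ := h.exists_notMem
    have e1 : a - algebraMap ℚ_[P] (algA M) (chiQ P s) ∈ 𝔭 :=
      sub_mem_of_smul_eq M 𝔭 h.isMaximal (h.le_torV hx) hx0
        (by rw [← ha x (h.le_torV hx), h.inertia_C s hs x hx])
    have e2 : a - 1 ∈ 𝔭 := mem_of_smul_mem h.isMaximal hw hwC (by
      rw [sub_smul, one_smul, ← ha w hw]; exact h.inertia_quot s hs w hw)
    refine algebraMap_notMem M 𝔭 h.isMaximal (sub_ne_zero.mpr hsχ) ?_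
    convert 𝔭.sub_mem e2 e1 using 1
    rw [map_sub, map_one]
    ring
  · obtain ⟨r, hr, hr0⟩ := Submodule.exists_mem_ne_zero_of_ne_bot hR
    obtain ⟨w, hw, rfl⟩ := mem_rangeW.mp hr
    have hwR : w ∉ rangeW M hG 𝔭 t := fun hmem => by
      obtain ⟨z, hz, rfl⟩ := mem_rangeW.mp hmem
      exact hr0 (by rw [htt z, sub_self])
    have hstab : ∀ v ∈ rangeW M hG 𝔭 t, galV M hG φ v ∈ rangeW M hG 𝔭 t := by
      intro v hv
      obtain ⟨z, hz, rfl⟩ := mem_rangeW.mp hv
      rw [hφφ z hz]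
      exact nsmul_mem (mem_rangeW.mpr ⟨_, galStable_torV M hG 𝔭 φ z hz, rfl⟩) N
    obtain ⟨r', hr', hw'⟩ : ∃ r' ∈ rangeW M hG 𝔭 t, galV M hG φ w = (N : ℚ_[P]) • w + r' :=
      ⟨_, hall w hw, by abel⟩
    have hr'fix : galV M hG t r' = r' := by
      obtain ⟨z, -, rfl⟩ := mem_rangeW.mp hr'
      exact htt z
    have hφr : galV M hG φ (galV M hG t w - w) =
        ((N : ℚ_[P]) * N) • (galV M hG t w - w) := by
      rw [hφφ w hw, hw', map_add, hr'fix, galV_scalar_smul, add_sub_add_right_eq_sub, ← smul_sub,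
        ← Nat.cast_smul_eq_nsmul ℚ_[P], smul_smul]
    obtain ⟨c, -, hc⟩ := exists_trace_algR M hG φ
    have hc1 := hc (galV M hG φ w)
    have hc2 := hc (galV M hG φ (galV M hG t w - w))
    rw [galV_inv_apply, hχ] at hc1 hc2
    have hcN : algebraMap ℚ_[P] (algA M) (N : ℚ_[P]) *
        (c - algebraMap ℚ_[P] (algA M) ((N : ℚ_[P]) + 1)) ∈ 𝔭 := by
      refine mem_of_smul_mem h.isMaximal hw hwR ?_
      have e1 : (algebraMap ℚ_[P] (algA M) (N : ℚ_[P]) *
          (c - algebraMap ℚ_[P] (algA M) ((N : ℚ_[P]) + 1))) • w =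
          galV M hG φ r' + (N : ℚ_[P]) • r' - c • r' := by
        have e2 : c • galV M hG φ w = (N : ℚ_[P]) • (c • w) + c • r' := by
          rw [hw', smul_add, smul_comm c]
        rw [mul_smul, algebraMap_smul, sub_smul_eq, smul_sub, smul_smul]
        rw [hw', map_add, galV_scalar_smul, hw', smul_add, smul_smul] at hc1
        rw [hw'] at e2
        rw [e2] at hc1
        rw [← sub_eq_zero]
        rw [← sub_eq_zero] at hc1
        rw [← neg_eq_zero, ← hc1]
        module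
      rw [e1]
      exact Submodule.sub_mem _ (Submodule.add_mem _ (hstab r' hr')
        (((rangeW M hG 𝔭 t).restrictScalars ℚ_[P]).smul_mem _ hr')) (Submodule.smul_mem _ _ hr')
    have hcN' := (h.isMaximal.isPrime.mem_or_mem hcN).resolve_left
      (algebraMap_notMem M 𝔭 h.isMaximal hN0)
    have hrW : galV M hG t w - w ∈ torV M 𝔭 :=
      Submodule.sub_mem _ (galStable_torV M hG 𝔭 t w hw) hw
    have h3 := (mem_torV M 𝔭).mp hrW _ hcN'
    rw [sub_smul_eq, sub_eq_zero] at h3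
    rw [hφr, galV_scalar_smul, hφr, smul_comm c, h3, smul_smul, smul_smul, ← add_smul] at hc2
    have h4 := smul_left_injective ℚ_[P] hr0 hc2
    have h5 : ((N : ℚ_[P]) - 1) * ((N : ℚ_[P]) - 1) * ((N : ℚ_[P]) + 1) * N = 0 := by
      linear_combination h4
    have h6 : ((N : ℚ_[P]) + 1) ≠ 0 := Nat.cast_add_one_ne_zero N
    simp [sub_ne_zero.mpr hN1, h6, hN0] at h5

/-- The vectors on which Frobenius is `N` modulo the image of inertia. -/
def frobW (φ t : Γℚ) : Submodule (algA M) (Vt M) where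
  carrier := {w | w ∈ torV M 𝔭 ∧ galV M hG φ w - (N : ℚ_[P]) • w ∈ rangeW M hG 𝔭 t}
  add_mem' {v w} hv hw := ⟨Submodule.add_mem _ hv.1 hw.1, by
    rw [map_add, smul_add, add_sub_add_comm]; exact Submodule.add_mem _ hv.2 hw.2⟩
  zero_mem' := ⟨Submodule.zero_mem _, by
    rw [map_zero, smul_zero, sub_zero]; exact Submodule.zero_mem _⟩
  smul_mem' a v hv := ⟨Submodule.smul_mem _ a hv.1, by
    rw [map_smul, smul_comm (N : ℚ_[P]) a v, ← smul_sub]; exact Submodule.smul_mem _ a hv.2⟩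

theorem mem_frobW {φ t : Γℚ} {w : Vt M} :
    w ∈ frobW (hG := hG) (𝔭 := 𝔭) φ t ↔
      w ∈ torV M 𝔭 ∧ galV M hG φ w - (N : ℚ_[P]) • w ∈ rangeW M hG 𝔭 t :=
  Iff.rfl

theorem IsComponent.finrank_frobW_le (h : IsComponent M hG 𝔭 A C₀ e C) (hNp : N.Prime)
    (hNP : N ≠ P) (hU : UnipotentInertia N P) (hT : TameInertia N P)
    {B : ValuationSubring Qbar} (hB : B.LiesOverPrime N) {t φ : Γℚ}
    (ht : t ∈ B.inertiaSubgroupIn ℚ) (hφ : B.IsFrobeniusAt φ N) :
    Module.finrank ℚ_[P] ((frobW (hG := hG) (𝔭 := 𝔭) φ t).restrictScalars ℚ_[P]) ≤ resDeg M 𝔭 := by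
  obtain ⟨w, hw, hwn⟩ := h.exists_frob_notMem hNp hNP hU hT hB ht hφ
  exact finrank_le_of_ne_top h.isMaximal h.finrank_torV (fun x hx => hx.1)
    fun heq => hwn (mem_frobW.mp (heq.ge hw)).2

end Fermat.Agent.Mazur
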