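import Mathlib.Algebra.MvPolynomial.Funext
import Mathlib.LinearAlgebra.Matrix.ToLinearEquiv
import Fermat.Agent.Mazur.EisensteinComponent.Pairing

/-!
# The period lattice has rank two over the anemic Hecke algebra

At prime level the period lattice of weight two forms is, rationally, two copies of the dual of
the anemic Hecke algebra.
-/

noncomputable section

open CongruenceSubgroup ModularFormClass ModularCurve ModularCurve.Period
open scoped MatrixGroups

namespace Fermat.Agent.Mazur

variable (N : ℕ) [NeZero N]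

/-- A lattice with an action of the anemic algebra which is, rationally, two copies of its dual. -/
def RankTwoAction {H : Type} [AddCommGroup H] (act : TGood N →+* Module.End ℤ H) : Prop :=
  (∃ η : Fin 2 → (H →ₗ[ℤ] ℤ), ∀ v : H, (∀ i b, η i (act b v) = 0) → v = 0) ∧
    Module.finrank ℤ H = 2 * Module.finrank ℤ (TGood N)

variable {N}

/-- Integral points are dense: a square integral bilinear family which is injective at a complex
point is injective at an integral point. -/
theorem exists_int_of_complex {r : ℕ} {ι σ : Type*} [Fintype σ] (e : ι ≃ Fin r)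
    (c : ι → Fin r → σ → ℤ) (x₀ : σ → ℂ)
    (h : ∀ v : Fin r → ℂ, (∀ i, ∑ l, v l * ∑ m, (c i l m : ℂ) * x₀ m = 0) → v = 0) :
    ∃ y : σ → ℤ, ∀ v : Fin r → ℤ, (∀ i, ∑ l, v l * ∑ m, c i l m * y m = 0) → v = 0 := by
  classical
  let P : Matrix (Fin r) (Fin r) (MvPolynomial σ ℤ) :=
    Matrix.of fun p l => ∑ m, MvPolynomial.C (c (e.symm p) l m) * MvPolynomial.X m
  have hP : ∀ {R : Type} [CommRing R] (f : MvPolynomial σ ℤ →+* R) (p l : Fin r),
      (P.map f) p l = ∑ m, ((c (e.symm p) l m : ℤ) : R) * f (MvPolynomial.X m) := by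
    intro R _ f p l
    rw [Matrix.map_apply]
    show f (∑ m, MvPolynomial.C (c (e.symm p) l m) * MvPolynomial.X m) = _
    rw [map_sum]
    refine Finset.sum_congr rfl fun m _ => ?_
    rw [map_mul, eq_intCast MvPolynomial.C, map_intCast]
  have hdet : P.det ≠ 0 := fun h0 => by
    set f := MvPolynomial.eval₂Hom (Int.castRingHom ℂ) x₀
    have hd : (P.map f).det = 0 := by
      rw [← RingHom.mapMatrix_apply, ← RingHom.map_det, h0, map_zero]
    obtain ⟨v, hv0, hv⟩ := Matrix.exists_mulVec_eq_zero_iff.mpr hd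
    refine hv0 (h v fun i => ?_)
    have h2 : ∑ l, (P.map f) (e i) l * v l = 0 := congrFun hv (e i)
    simp only [hP, Equiv.symm_apply_apply, f, MvPolynomial.eval₂Hom_X'] at h2
    simpa [mul_comm] using h2
  obtain ⟨y, hy⟩ : ∃ y : σ → ℤ, (P.map (MvPolynomial.eval y)).det ≠ 0 := by
    by_contra! hcon
    refine hdet (MvPolynomial.funext fun y => ?_)
    rw [map_zero, RingHom.map_det, RingHom.mapMatrix_apply, hcon y]
  refine ⟨y, fun v hv => by_contra fun hne => hy (Matrix.exists_mulVec_eq_zero_iff.mp ⟨v, hne, ?_⟩)⟩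
  funext p
  show ∑ l, (P.map (MvPolynomial.eval y)) p l * v l = 0
  simp only [hP, MvPolynomial.eval_X, Int.cast_id]
  simpa [mul_comm] using hv (e.symm p)

/-- A combination of period vectors killed by the first coefficient along a basis is zero. -/
theorem eq_zero_of_basis_aOne (hN : N.Prime) {ι κ : Type*} [Fintype ι]
    (b : Module.Basis κ ℤ (TGood N)) (bs : Module.Basis ι ℤ (Attach.clLattice N)) (v : ι → ℂ)
    (hv : ∀ k, (∑ l, v l * ∑ m, ((latticeEntry N bs (b k) (l, m) : ℤ) : ℂ) *
        aOne (Attach.periodCoords N (bs m)).1 = 0) ∧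
      ∑ l, v l * ∑ m, ((latticeEntry N bs (b k) (l, m) : ℤ) : ℂ) *
        aOne (Attach.periodCoords N (bs m)).2 = 0) :
    ∑ l, v l • Attach.periodCoords N (bs l) = 0 := by
  set z := ∑ l, v l • Attach.periodCoords N (bs l) with hz
  have hcomp : ∀ k, Attach.diagEnd N (b k : Module.End ℂ (CuspForm (Gamma0 N) 2)) z =
      ∑ l, v l • ∑ m, ((latticeEntry N bs (b k) (l, m) : ℤ) : ℂ) •
        Attach.periodCoords N (bs m) := fun k => by
    rw [hz, map_sum]
    exact Finset.sum_congr rfl fun l _ => by rw [map_smul, diagEnd_periodCoords_basis]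
  have hall : ∀ (w : CuspForm (Gamma0 N) 2),
      (∀ k, aOne ((b k : Module.End ℂ (CuspForm (Gamma0 N) 2)) w) = 0) → w = 0 := fun w hw =>
    eq_zero_of_forall_aOne hN w fun t => by
      let φ : TGood N →+ ℂ := AddMonoidHom.mk'
        (fun t : TGood N => aOne ((t : Module.End ℂ (CuspForm (Gamma0 N) 2)) w)) fun s t => by
          rw [AddMemClass.coe_add, LinearMap.add_apply, map_add]
      have hφ : φ.toIntLinearMap = 0 := b.ext fun k => hw k
      exact LinearMap.congr_fun hφ t
  clear_value z
  have h1 : ∀ k, Attach.diagEnd N (b k : Module.End ℂ (CuspForm (Gamma0 N) 2)) z =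
      ((b k : Module.End ℂ (CuspForm (Gamma0 N) 2)) z.1,
        (b k : Module.End ℂ (CuspForm (Gamma0 N) 2)) z.2) := fun k => rfl
  refine Prod.ext (hall _ fun k => ?_) (hall _ fun k => ?_)
  · have e := congrArg Prod.fst ((h1 k).symm.trans (hcomp k))
    dsimp only at e
    rw [e, Prod.fst_sum, map_sum]
    refine Eq.trans (Finset.sum_congr rfl fun l _ => ?_) (hv k).1
    rw [Prod.smul_fst, map_smul, Prod.fst_sum, map_sum, smul_eq_mul]
    refine congrArg (v l * ·) (Finset.sum_congr rfl fun m _ => ?_)
    rw [Prod.smul_fst, map_smul, smul_eq_mul]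
  · have e := congrArg Prod.snd ((h1 k).symm.trans (hcomp k))
    dsimp only at e
    rw [e, Prod.snd_sum, map_sum]
    refine Eq.trans (Finset.sum_congr rfl fun l _ => ?_) (hv k).2
    rw [Prod.smul_snd, map_smul, Prod.snd_sum, map_sum, smul_eq_mul]
    refine congrArg (v l * ·) (Finset.sum_congr rfl fun m _ => ?_)
    rw [Prod.smul_snd, map_smul, smul_eq_mul]

/-- The period lattice is of rank two. -/
theorem rankTwoAction_latticeHecke (hN : N.Prime) :
    RankTwoAction N (Attach.latticeHecke N) := by
  classical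
  have := finite_TGood (N := N)
  have := free_TGood (N := N)
  have := Periods.finiteDimensional_cuspForm_two N
  obtain ⟨bs, hbs⟩ := exists_clBasis N
  let b := Module.Free.chooseBasis ℤ (TGood N)
  have hd : Module.finrank ℂ (CuspForm (Gamma0 N) 2) = Module.finrank ℤ (TGood N) := by
    rw [Module.finrank_eq_card_basis b,
      ← finrank_span_eq_card (linearIndependent_coe N b b.linearIndependent), span_range_basis b,
      LinearEquiv.finrank_eq (LinearEquiv.ofBijective _ (pairC_bijective hN)),
      Subspace.dual_finrank_eq]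
  have hspan : ⊤ ≤ Submodule.span ℂ (Set.range (Attach.periodCoords N ∘ bs)) := by
    rw [← Attach.span_periodCoords N, Submodule.span_le]
    rintro _ ⟨v, rfl⟩
    rw [← bs.sum_repr v, map_sum]
    refine Submodule.sum_mem _ fun i _ => ?_
    rw [map_zsmul, ← Int.cast_smul_eq_zsmul ℂ]
    exact Submodule.smul_mem _ _ (Submodule.subset_span ⟨i, rfl⟩)
  have hr : Grp.clRank (Gamma0 N) = 2 * Module.finrank ℤ (TGood N) := by
    have := Module.finrank_eq_card_basis (Module.Basis.mk hbs hspan)
    rw [Module.finrank_prod, Fintype.card_fin, hd] at this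
    omega
  refine ⟨?_, by rw [Module.finrank_eq_card_basis bs, Fintype.card_fin, hr]⟩
  let e : Fin 2 × Module.Free.ChooseBasisIndex ℤ (TGood N) ≃ Fin (Grp.clRank (Gamma0 N)) :=
    Fintype.equivFinOfCardEq (by
      rw [Fintype.card_prod, Fintype.card_fin, hr, Module.finrank_eq_card_basis b])
  let x₀ : Fin 2 × Fin (Grp.clRank (Gamma0 N)) → ℂ := fun im =>
    ![aOne (Attach.periodCoords N (bs im.2)).1, aOne (Attach.periodCoords N (bs im.2)).2] im.1
  let c : Fin 2 × Module.Free.ChooseBasisIndex ℤ (TGood N) → Fin (Grp.clRank (Gamma0 N)) →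
      Fin 2 × Fin (Grp.clRank (Gamma0 N)) → ℤ := fun ik l jm =>
    if jm.1 = ik.1 then latticeEntry N bs (b ik.2) (l, jm.2) else 0
  obtain ⟨y, hy⟩ := exists_int_of_complex e c x₀ fun v hv => by
    refine funext (Fintype.linearIndependent_iff.mp hbs v ?_)
    exact eq_zero_of_basis_aOne hN b bs v fun k => by
      have h0 := hv (0, k)
      have h1 := hv (1, k)
      simp only [c, Fintype.sum_prod_type, Fin.sum_univ_two, Fin.isValue, if_true, if_false,
        Fin.reduceEq, Int.cast_zero, zero_mul, Finset.sum_const_zero, add_zero, zero_add] at h0 h1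
      exact ⟨h0, h1⟩
  refine ⟨fun i => bs.constr ℤ fun m => y (i, m), fun v hv => ?_⟩
  refine bs.repr.map_eq_zero_iff.mp (Finsupp.ext fun l => congrFun (hy (fun l => bs.repr v l)
    fun ik => ?_) l)
  refine Eq.trans ?_ (hv ik.1 (b ik.2))
  conv_rhs => rw [← bs.sum_repr v, map_sum, map_sum]
  refine Finset.sum_congr rfl fun l _ => ?_
  rw [map_zsmul, map_zsmul, smul_eq_mul,
    show Attach.latticeHecke N (b ik.2) (bs l) = ∑ m, latticeEntry N bs (b ik.2) (l, m) • bs m from
      (bs.sum_repr _).symm, map_sum]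
  congr 1
  rw [Fintype.sum_prod_type, Finset.sum_eq_single ik.1 (fun j _ hj => by simp [c, hj]) (by simp)]
  refine Finset.sum_congr rfl fun m _ => ?_
  rw [map_zsmul, Module.Basis.constr_basis, smul_eq_mul]
  simp [c]

end Fermat.Agent.Mazur
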