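import Mathlib.LinearAlgebra.Matrix.ToLin
import Mathlib.NumberTheory.Padics.RingHoms
import Fermat.Agent.Attach.Coeff
import Fermat.Agent.Mazur.EisensteinComponent.DualAlg
import Fermat.Agent.Mazur.EisensteinComponent.RankTwo

/-!
# The rational Tate module as a module over the Hecke algebra

The rational Tate module of `J₀(N)` at `P` in coordinates, its lattice, evaluation at finite
levels, the `ℚ_P`-algebra of the anemic Hecke algebra acting on it, and the Galois action.
-/

noncomputable section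

open ModularCurve CongruenceSubgroup

namespace Fermat.Agent.Mazur

local notation "Γℚ" => AlgebraicClosure ℚ ≃ₐ[ℚ] AlgebraicClosure ℚ

/-- The algebra generated by the image of a ring is its span. -/
theorem adjoin_range_eq_span (R : Type*) {B C : Type*} [CommSemiring R] [Semiring B] [Semiring C]
    [Algebra R C] (f : B →+* C) :
    Subalgebra.toSubmodule (Algebra.adjoin R (Set.range f)) = Submodule.span R (Set.range f) := by
  rw [Algebra.adjoin_eq_span]
  congr 1
  exact congrArg (fun S : Submonoid C => (S : Set C))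
    (Submonoid.closure_eq (MonoidHom.mrange (f : B →* C)))

variable {N : ℕ} [NeZero N] {P : ℕ} [Fact P.Prime] (M : Attach.TorsionModel N P)

/-- The Tate lattice in coordinates. -/
abbrev Tlat : Type := Fin M.rk → ℤ_[P]

/-- The rational Tate module in coordinates. -/
abbrev Vt : Type := Fin M.rk → ℚ_[P]

/-- The lattice inside the rational module. -/
def toVt : Tlat M →ₗ[ℤ_[P]] Vt M where
  toFun x i := (x i : ℚ_[P])
  map_add' x y := funext fun i => PadicInt.coe_add _ _
  map_smul' c x := funext fun i => by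
    rw [Pi.smul_apply, smul_eq_mul, PadicInt.coe_mul]
    rfl

theorem toVt_injective : Function.Injective (toVt M) :=
  fun _ _ h => funext fun i => Subtype.ext (congrFun h i)

/-! ### Evaluation at level `Pⁿ` -/

/-- The point of level `Pⁿ` of a lattice vector. -/
def ptP (n : ℕ) : Tlat M →+ JZero N :=
  AddMonoidHom.mk' (fun x => M.pt n fun i => ((PadicInt.toZModPow n (x i)).val : ℤ)) fun x y => by
    have : NeZero (P ^ n) := ⟨pow_ne_zero n (Fact.out : P.Prime).ne_zero⟩
    rw [← map_add, M.pt_eq_iff]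
    funext i
    simp [Attach.TorsionModel.redVec]

theorem ptP_eq_pt (n : ℕ) (x : Tlat M) (v : Fin M.rk → ℤ)
    (h : ∀ i, (v i : ZMod (P ^ n)) = PadicInt.toZModPow n (x i)) : ptP M n x = M.pt n v := by
  have : NeZero (P ^ n) := ⟨pow_ne_zero n (Fact.out : P.Prime).ne_zero⟩
  show M.pt n _ = _
  rw [M.pt_eq_iff]
  funext i
  simp [Attach.TorsionModel.redVec, h i]

theorem ptP_intCast (n : ℕ) (v : Fin M.rk → ℤ) : ptP M n (fun i => (v i : ℤ_[P])) = M.pt n v :=
  ptP_eq_pt M n _ v fun _ => (map_intCast _ _).symm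

theorem ptP_torsion (n : ℕ) (x : Tlat M) : P ^ n • ptP M n x = 0 := M.pt_torsion n _

theorem exists_ptP_eq (n : ℕ) (z : JZero N) (hz : P ^ n • z = 0) : ∃ x, ptP M n x = z := by
  obtain ⟨v, rfl⟩ := M.exists_pt_eq n z hz
  exact ⟨_, ptP_intCast M n v⟩

theorem exists_intLift (n : ℕ) (x : Tlat M) :
    ∃ v : Fin M.rk → ℤ, ∀ i, (v i : ZMod (P ^ n)) = PadicInt.toZModPow n (x i) :=
  ⟨fun i => ((PadicInt.toZModPow n (x i)).val : ℤ), fun i => by
    have : NeZero (P ^ n) := ⟨pow_ne_zero n (Fact.out : P.Prime).ne_zero⟩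
    simp⟩

theorem ptP_eq_zero_iff (n : ℕ) (x : Tlat M) :
    ptP M n x = 0 ↔ ∀ i, PadicInt.toZModPow n (x i) = 0 := by
  obtain ⟨v, hv⟩ := exists_intLift M n x
  rw [ptP_eq_pt M n x v hv, ← map_zero (M.pt n), M.pt_eq_iff, funext_iff]
  refine forall_congr' fun i => ?_
  simp [Attach.TorsionModel.redVec, hv i]

theorem nsmul_ptP_succ (n : ℕ) (x : Tlat M) : P • ptP M (n + 1) x = ptP M n x := by
  obtain ⟨v, hv⟩ := exists_intLift M (n + 1) x
  rw [ptP_eq_pt M (n + 1) x v hv, M.pt_succ, ptP_eq_pt M n x v fun i => ?_]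
  rw [← PadicInt.zmod_cast_comp_toZModPow n (n + 1) n.le_succ, RingHom.comp_apply, ← hv i,
    map_intCast]

theorem ptP_smul (n : ℕ) (c : ℤ_[P]) (x : Tlat M) :
    ptP M n (c • x) = (PadicInt.toZModPow n c).val • ptP M n x := by
  have : NeZero (P ^ n) := ⟨pow_ne_zero n (Fact.out : P.Prime).ne_zero⟩
  obtain ⟨v, hv⟩ := exists_intLift M n x
  rw [ptP_eq_pt M n x v hv, ← map_nsmul, ptP_eq_pt M n (c • x) _ fun i => ?_]
  simp [hv i]

/-- An integral matrix acts compatibly. -/
theorem ptP_mulVec (n : ℕ) (G : Matrix (Fin M.rk) (Fin M.rk) ℤ_[P])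
    (A : Matrix (Fin M.rk) (Fin M.rk) ℤ)
    (hA : ∀ i j, (A i j : ZMod (P ^ n)) = PadicInt.toZModPow n (G i j))
    (x : Tlat M) (v : Fin M.rk → ℤ) (hv : ∀ i, (v i : ZMod (P ^ n)) = PadicInt.toZModPow n (x i)) :
    ptP M n (G.mulVec x) = M.pt n (A.mulVec v) :=
  ptP_eq_pt M n _ _ fun i => by
    simp [Matrix.mulVec, dotProduct, map_sum, hA, hv]

theorem smul_ptP (n : ℕ) (σ : Γℚ) (x : Tlat M) :
    σ • ptP M n x = ptP M n ((M.repPadic σ).mulVec x) := by
  obtain ⟨v, hv⟩ := exists_intLift M n x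
  rw [ptP_eq_pt M n x v hv, M.galMat_spec, ← ptP_mulVec M n _ _ (fun i j => ?_) x v hv]
  exact (congrFun (congrFun (M.repPadic_mod n σ) i) j).symm

/-- The integral matrices of the anemic algebra over `ℤ_P`. -/
def matT : TGood N →+* Matrix (Fin M.rk) (Fin M.rk) ℤ_[P] :=
  (Int.castRingHom ℤ_[P]).mapMatrix.comp M.mat

theorem ptP_matT (n : ℕ) (b : TGood N) (x : Tlat M) (v : Fin M.rk → ℤ)
    (hv : ∀ i, (v i : ZMod (P ^ n)) = PadicInt.toZModPow n (x i)) :
    ptP M n ((matT M b).mulVec x) = M.pt n ((M.mat b).mulVec v) :=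
  ptP_mulVec M n _ _ (fun _ _ => (map_intCast _ _).symm) x v hv

/-! ### The rational Hecke algebra -/

/-- The rational matrices of the anemic algebra. -/
def matV : TGood N →+* Matrix (Fin M.rk) (Fin M.rk) ℚ_[P] :=
  (Int.castRingHom ℚ_[P]).mapMatrix.comp M.mat

theorem matV_comm (s t : TGood N) : matV M s * matV M t = matV M t * matV M s :=
  by rw [← map_mul, ← map_mul, mul_comm]

/-- The `ℚ_P`-algebra generated by the anemic algebra. -/
def algA : Subalgebra ℚ_[P] (Matrix (Fin M.rk) (Fin M.rk) ℚ_[P]) :=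
  Algebra.adjoin ℚ_[P] (Set.range (matV M))

open scoped IsMulCommutative in
instance instCommRingAlgA : CommRing (algA M) :=
  haveI : IsMulCommutative (algA M) := Algebra.isMulCommutative_adjoin ℚ_[P] (by
    rintro _ ⟨s, rfl⟩ _ ⟨t, rfl⟩
    exact matV_comm M s t)
  inferInstance

instance instModuleVt : Module (algA M) (Vt M) where
  smul a v := (a : Matrix (Fin M.rk) (Fin M.rk) ℚ_[P]).mulVec v
  one_smul v := Matrix.one_mulVec v
  mul_smul a b v := by
    show (a * b : algA M).1.mulVec v = a.1.mulVec (b.1.mulVec v)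
    rw [Subalgebra.coe_mul, Matrix.mulVec_mulVec]
  smul_zero a := Matrix.mulVec_zero _
  smul_add a v w := Matrix.mulVec_add _ v w
  add_smul a b v := Matrix.add_mulVec _ _ v
  zero_smul v := Matrix.zero_mulVec v

theorem algA_smul_def (a : algA M) (v : Vt M) :
    a • v = (a : Matrix (Fin M.rk) (Fin M.rk) ℚ_[P]).mulVec v := rfl

instance : IsScalarTower ℚ_[P] (algA M) (Vt M) :=
  ⟨fun c a v => by
    rw [algA_smul_def, algA_smul_def, Subalgebra.coe_smul, Matrix.smul_mulVec]⟩

instance : IsScalarTower ℤ_[P] (algA M) (Vt M) :=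
  ⟨fun c a v => by
    rw [← algebraMap_smul ℚ_[P] c a, smul_assoc, algebraMap_smul]⟩

instance : Module.Finite ℚ_[P] (algA M) :=
  inferInstanceAs (Module.Finite ℚ_[P] (Subalgebra.toSubmodule (algA M)))

instance : Module.Finite (algA M) (Vt M) := Module.Finite.of_restrictScalars_finite ℚ_[P] _ _

/-- The anemic algebra inside `algA`. -/
def toA : TGood N →+* algA M :=
  (matV M).codRestrict _ fun b => Algebra.subset_adjoin (Set.mem_range_self b)

theorem toA_smul_toVt (b : TGood N) (x : Tlat M) :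
    toA M b • toVt M x = toVt M ((matT M b).mulVec x) := by
  funext i
  show ((matV M b).mulVec (toVt M x)) i = (((matT M b).mulVec x) i : ℚ_[P])
  simp [matV, matT, toVt, Matrix.mulVec, dotProduct]

/-- The `ℤ_P`-order generated by the anemic algebra. -/
def algR : Subalgebra ℤ_[P] (algA M) := Algebra.adjoin ℤ_[P] (Set.range (toA M))

theorem algR_eq_span : Subalgebra.toSubmodule (algR M) = Submodule.span ℤ_[P] (Set.range (toA M)) :=
  adjoin_range_eq_span ℤ_[P] (toA M)

theorem finite_algR : Module.Finite ℤ_[P] (algR M) := by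
  have := finite_TGood (N := N)
  have := free_TGood (N := N)
  let b := Module.Free.chooseBasis ℤ (TGood N)
  have e : Submodule.span ℤ_[P] (Set.range (toA M)) =
      Submodule.span ℤ_[P] (Set.range (toA M ∘ b)) := by
    refine le_antisymm (Submodule.span_le.mpr ?_)
        (Submodule.span_mono (Set.range_comp_subset_range _ _))
    rintro _ ⟨t, rfl⟩
    rw [← b.sum_repr t, map_sum]
    refine Submodule.sum_mem _ fun i _ => ?_
    rw [map_zsmul]
    exact Submodule.smul_of_tower_mem _ _ (Submodule.subset_span ⟨i, rfl⟩)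
  exact Module.Finite.iff_fg.mpr (show (Subalgebra.toSubmodule (algR M)).FG by
    rw [algR_eq_span, e]
    exact Submodule.fg_span (Set.finite_range _))

theorem algR_smul_toVt {r : algA M} (hr : r ∈ algR M) (x : Tlat M) :
    ∃ y, r • toVt M x = toVt M y := by
  rw [← Subalgebra.mem_toSubmodule, algR_eq_span] at hr
  induction hr using Submodule.span_induction with
  | mem a ha => obtain ⟨b, rfl⟩ := ha; exact ⟨_, toA_smul_toVt M b x⟩
  | zero => exact ⟨0, by rw [zero_smul, map_zero]⟩
  | add a a' _ _ ha ha' =>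
    obtain ⟨y, hy⟩ := ha
    obtain ⟨y', hy'⟩ := ha'
    exact ⟨y + y', by rw [add_smul, hy, hy', map_add]⟩
  | smul c a _ ha =>
    obtain ⟨y, hy⟩ := ha
    exact ⟨c • y, by rw [smul_assoc, hy, map_smul]⟩

/-- Every element of `algA` is a `P`-power fraction of an element of `algR`. -/
theorem exists_pow_smul_mem_algR (a : algA M) :
    ∃ k : ℕ, ((P : ℚ_[P]) ^ k) • a ∈ algR M := by
  obtain ⟨a, ha⟩ := a
  refine Algebra.adjoin_induction (R := ℚ_[P])
    (p := fun x hx => ∃ k : ℕ, ((P : ℚ_[P]) ^ k) • (⟨x, hx⟩ : algA M) ∈ algR M) ?_ ?_ ?_ ?_ ha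
  · rintro _ ⟨b, rfl⟩
    exact ⟨0, by rw [pow_zero, one_smul]; exact Algebra.subset_adjoin ⟨b, rfl⟩⟩
  · intro r
    obtain ⟨k, hk⟩ := pow_unbounded_of_one_lt ‖r‖
      (show (1 : ℝ) < P by exact_mod_cast (Fact.out : P.Prime).one_lt)
    have hn : ‖(P : ℚ_[P]) ^ k * r‖ ≤ 1 := by
      rw [norm_mul, norm_pow, Padic.norm_p, inv_pow, inv_mul_le_iff₀
        (pow_pos (by exact_mod_cast (Fact.out : P.Prime).pos) k), mul_one]
      exact hk.le
    refine ⟨k, ?_⟩
    let x : ℤ_[P] := ⟨_, hn⟩
    have e : ((P : ℚ_[P]) ^ k) • (⟨algebraMap ℚ_[P] _ r, Subalgebra.algebraMap_mem _ r⟩ : algA M) =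
        algebraMap ℤ_[P] (algA M) x := by
      have hx : algebraMap ℤ_[P] (algA M) x = algebraMap ℚ_[P] (algA M) (((P : ℚ_[P]) ^ k) * r) :=
        IsScalarTower.algebraMap_apply ℤ_[P] ℚ_[P] (algA M) x
      rw [hx, Algebra.smul_def, map_mul]
      rfl
    exact e ▸ Subalgebra.algebraMap_mem _ _
  · rintro x y hx hy ⟨k, hk⟩ ⟨l, hl⟩
    refine ⟨k + l, ?_⟩
    have e : ((P : ℚ_[P]) ^ (k + l)) • (⟨x + y, Subalgebra.add_mem _ hx hy⟩ : algA M) =
        ((P : ℤ_[P]) ^ l) • ((P : ℚ_[P]) ^ k • (⟨x, hx⟩ : algA M)) +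
          ((P : ℤ_[P]) ^ k) • ((P : ℚ_[P]) ^ l • (⟨y, hy⟩ : algA M)) := by
      rw [← algebraMap_smul ℚ_[P] ((P : ℤ_[P]) ^ l), ← algebraMap_smul ℚ_[P] ((P : ℤ_[P]) ^ k),
        map_pow, map_pow, map_natCast, smul_smul, smul_smul, ← pow_add, ← pow_add, add_comm l k,
        ← smul_add]
      rfl
    exact e ▸ Subalgebra.add_mem _ (Subalgebra.smul_mem _ hk _) (Subalgebra.smul_mem _ hl _)
  · rintro x y hx hy ⟨k, hk⟩ ⟨l, hl⟩
    refine ⟨k + l, ?_⟩
    have e : ((P : ℚ_[P]) ^ (k + l)) • (⟨x * y, Subalgebra.mul_mem _ hx hy⟩ : algA M) =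
        ((P : ℚ_[P]) ^ k • (⟨x, hx⟩ : algA M)) * ((P : ℚ_[P]) ^ l • (⟨y, hy⟩ : algA M)) := by
      rw [smul_mul_smul_comm, ← pow_add]
      rfl
    exact e ▸ Subalgebra.mul_mem _ hk hl

/-! ### The Galois action -/

theorem repPadic_smul_comm (hG : Attach.TorsionGalois N P) (σ : Γℚ) (a : algA M) (v : Vt M) :
    ((M.repPadic σ).map (algebraMap ℤ_[P] ℚ_[P])).mulVec (a • v) =
      a • ((M.repPadic σ).map (algebraMap ℤ_[P] ℚ_[P])).mulVec v := by
  set X := (M.repPadic σ).map (algebraMap ℤ_[P] ℚ_[P]) with hX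
  have hc : Commute X (a : Matrix (Fin M.rk) (Fin M.rk) ℚ_[P]) := by
    refine Algebra.adjoin_induction (p := fun y _ => Commute X y) ?_
      (fun r => (Algebra.commutes r X).symm) (fun _ _ _ _ => Commute.add_right)
      (fun _ _ _ _ => Commute.mul_right) a.2
    rintro _ ⟨b, rfl⟩
    have h := (M.repPadic_commute hG σ b).map (algebraMap ℤ_[P] ℚ_[P]).mapMatrix
    have e : (algebraMap ℤ_[P] ℚ_[P]).mapMatrix ((Int.castRingHom ℤ_[P]).mapMatrix (M.mat b)) =
        matV M b := by
      ext i j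
      exact map_intCast (algebraMap ℤ_[P] ℚ_[P]) _
    rwa [e] at h
  rw [algA_smul_def, algA_smul_def, Matrix.mulVec_mulVec, Matrix.mulVec_mulVec, hc.eq]

/-- The Galois action on the rational Tate module, linear over the Hecke algebra. -/
def galV (hG : Attach.TorsionGalois N P) : Γℚ →* Module.End (algA M) (Vt M) where
  toFun σ :=
    { toFun := fun v => ((M.repPadic σ).map (algebraMap ℤ_[P] ℚ_[P])).mulVec v
      map_add' := fun v w => Matrix.mulVec_add _ v w
      map_smul' := fun a v => repPadic_smul_comm M hG σ a v }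
  map_one' := LinearMap.ext fun v => by
    show ((M.repPadic 1).map (algebraMap ℤ_[P] ℚ_[P])).mulVec v = v
    rw [map_one, Matrix.map_one _ (map_zero _) (map_one _), Matrix.one_mulVec]
  map_mul' σ τ := LinearMap.ext fun v => by
    show ((M.repPadic (σ * τ)).map (algebraMap ℤ_[P] ℚ_[P])).mulVec v = _
    rw [map_mul, Matrix.map_mul, ← Matrix.mulVec_mulVec]
    rfl

theorem galV_toVt (hG : Attach.TorsionGalois N P) (σ : Γℚ) (x : Tlat M) :
    galV M hG σ (toVt M x) = toVt M ((M.repPadic σ).mulVec x) := by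
  funext i
  exact (RingHom.map_mulVec (algebraMap ℤ_[P] ℚ_[P]) (M.repPadic σ) x i).symm

attribute [irreducible] galV

/-! ### Duality -/

/-- The functionals of a rank two structure. -/
def etaV (η : Fin 2 → (M.H →ₗ[ℤ] ℤ)) (i : Fin 2) : Vt M →ₗ[ℚ_[P]] ℚ_[P] :=
  Fintype.linearCombination ℚ_[P] fun j => (η i (M.bas j) : ℚ_[P])

/-- Matrix entries of the anemic algebra. -/
def entryLin : TGood N →ₗ[ℤ] (Fin M.rk × Fin M.rk → ℤ) :=
  (AddMonoidHom.mk' (fun t q => M.mat t q.1 q.2) fun s t => funext fun q => by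
    rw [Pi.add_apply, map_add, Matrix.add_apply]).toIntLinearMap

omit [Fact (Nat.Prime P)] in
theorem entryLin_injective : Function.Injective (entryLin M) :=
  fun _ _ h => M.mat_injective (Matrix.ext fun i j => congrFun h (i, j))

theorem linearIndependent_matV {ι : Type*} [Fintype ι] (b : ι → TGood N)
    (hb : LinearIndependent ℤ b) : LinearIndependent ℚ_[P] (fun k => matV M (b k)) := by
  have hli := linearIndependent_intCast (L := ℚ_[P]) (entryLin M ∘ b)
    (hb.map' (entryLin M) (LinearMap.ker_eq_bot.mpr (entryLin_injective M)))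
  refine Fintype.linearIndependent_iff.mpr fun c hc =>
    Fintype.linearIndependent_iff.mp hli c (funext fun q => ?_)
  have h1 := congrFun (congrFun hc q.1) q.2
  rw [Matrix.sum_apply] at h1
  rw [Finset.sum_apply]
  exact h1

theorem span_matV {ι : Type*} [Fintype ι] (b : Module.Basis ι ℤ (TGood N)) :
    Submodule.span ℚ_[P] (Set.range fun k => matV M (b k)) = Subalgebra.toSubmodule (algA M) := by
  have h1 : Subalgebra.toSubmodule (algA M) = Submodule.span ℚ_[P] (Set.range (matV M)) :=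
    adjoin_range_eq_span ℚ_[P] (matV M)
  rw [h1]
  refine le_antisymm (Submodule.span_mono ?_) (Submodule.span_le.mpr ?_)
  · rintro _ ⟨k, rfl⟩
    exact ⟨b k, rfl⟩
  · rintro _ ⟨t, rfl⟩
    rw [← b.sum_repr t, map_sum]
    refine Submodule.sum_mem _ fun k _ => ?_
    rw [map_zsmul]
    exact Submodule.smul_of_tower_mem _ _ (Submodule.subset_span ⟨k, rfl⟩)

theorem finrank_algA : Module.finrank ℚ_[P] (algA M) = Module.finrank ℤ (TGood N) := by
  have := finite_TGood (N := N)
  have := free_TGood (N := N)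
  let b := Module.Free.chooseBasis ℤ (TGood N)
  rw [Module.finrank_eq_card_basis b, ← finrank_span_eq_card
    (linearIndependent_matV M b b.linearIndependent), span_matV M b]
  rfl

/-- A rank two action makes the rational Tate module two copies of the dual of the algebra. -/
theorem isDualPair_of_rankTwo (hR : RankTwoAction N M.hecke) :
    ∃ η : Fin 2 → (Vt M →ₗ[ℚ_[P]] ℚ_[P]), IsDualPair (algA M) η := by
  classical
  obtain ⟨⟨η, hη⟩, hrank⟩ := hR
  have := finite_TGood (N := N)
  have := free_TGood (N := N)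
  let b := Module.Free.chooseBasis ℤ (TGood N)
  refine ⟨etaV M η, fun v hv => ?_, ?_⟩
  · let w : Fin M.rk → (Fin 2 × Module.Free.ChooseBasisIndex ℤ (TGood N) → ℤ) := fun j ik =>
      η ik.1 (M.hecke (b ik.2) (M.bas j))
    have hw : LinearIndependent ℤ w := Fintype.linearIndependent_iff.mpr fun c hc => by
      have h0 : M.bas.equivFun.symm c = 0 := hη _ fun i t => by
        have hk : ∀ k, η i (M.hecke (b k) (M.bas.equivFun.symm c)) = 0 := fun k => by
          have h1 := congrFun hc (i, k)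
          simp only [Finset.sum_apply, Pi.smul_apply, Pi.zero_apply, smul_eq_mul, w] at h1
          rw [Module.Basis.equivFun_symm_apply, map_sum, map_sum]
          simpa using h1
        rw [← b.sum_repr t, map_sum, LinearMap.sum_apply, map_sum]
        refine Finset.sum_eq_zero fun k _ => ?_
        rw [map_zsmul, LinearMap.smul_apply, map_zsmul, hk, smul_zero]
      exact fun j => congrFun ((LinearEquiv.map_eq_zero_iff _).mp h0) j
    refine funext
        (Fintype.linearIndependent_iff.mp (linearIndependent_intCast (L := ℚ_[P]) w hw) v ?_)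
    funext ik
    refine Eq.trans ?_ (hv ik.1 (toA M (b ik.2)))
    simp only [Finset.sum_apply, Pi.smul_apply, smul_eq_mul, etaV,
      Fintype.linearCombination_apply, algA_smul_def, w]
    show _ = ∑ x, (matV M (b ik.2)).mulVec v x * (η ik.1 (M.bas x) : ℚ_[P])
    simp only [Matrix.mulVec, dotProduct, Finset.sum_mul]
    rw [Finset.sum_comm]
    refine Finset.sum_congr rfl fun j _ => ?_
    conv_lhs => rw [← M.bas.sum_repr (M.hecke (b ik.2) (M.bas j)), map_sum, Int.cast_sum,
      Finset.mul_sum]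
    refine Finset.sum_congr rfl fun l _ => ?_
    simp [matV, Attach.TorsionModel.mat, LinearMap.toMatrixAlgEquiv_apply]
    ring
  · rw [Module.finrank_fin_fun, finrank_algA M]
    exact hrank

end Fermat.Agent.Mazur
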